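import Mathlib

/-! # S55 (P), task P-Galois, generic part.

Galois theory for ARBITRARY subgroups `H` of the Galois group of a (possibly infinite) Galois
extension `K/k` and their relatively open subgroups.  Written for a generic `K/k` in order to avoid
the `Algebra ℚ _` instance diamonds; `Places/Galois.lean` specialises to `Qbar/ℚ`. -/

set_option autoImplicit false

open IntermediateField

namespace Fermat.Agent.S55.Places.GalAux

noncomputable section

variable {k K : Type*} [Field k] [Field K] [Algebra k K]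

/-- `W` is open in `H`. -/
def OpenIn (H W : Subgroup (K ≃ₐ[k] K)) : Prop :=
  W ≤ H ∧ ∃ E : IntermediateField k K, FiniteDimensional k E ∧ H ⊓ E.fixingSubgroup ≤ W

theorem OpenIn.refl (H : Subgroup (K ≃ₐ[k] K)) : OpenIn H H :=
  ⟨le_rfl, ⊥, inferInstance, inf_le_left⟩

theorem OpenIn.trans {H W W' : Subgroup (K ≃ₐ[k] K)} (h : OpenIn H W) (h' : OpenIn W W') :
    OpenIn H W' := by
  obtain ⟨hW, E, hE, hEW⟩ := h
  obtain ⟨hW', E', hE', hEW'⟩ := h'
  refine ⟨hW'.trans hW, E ⊔ E', IntermediateField.finiteDimensional_sup E E', ?_⟩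
  rw [IntermediateField.fixingSubgroup_sup]
  intro g hg
  exact hEW' ⟨hEW ⟨hg.1, hg.2.1⟩, hg.2.2⟩

theorem OpenIn.inf {H W W' : Subgroup (K ≃ₐ[k] K)} (h : OpenIn H W) (h' : OpenIn H W') :
    OpenIn H (W ⊓ W') := by
  obtain ⟨hW, E, hE, hEW⟩ := h
  obtain ⟨hW', E', hE', hEW'⟩ := h'
  refine ⟨inf_le_left.trans hW, E ⊔ E', IntermediateField.finiteDimensional_sup E E', ?_⟩
  rw [IntermediateField.fixingSubgroup_sup]
  intro g hg
  exact ⟨hEW ⟨hg.1, hg.2.1⟩, hEW' ⟨hg.1, hg.2.2⟩⟩

/-- every finite subextension is contained in a finite Galois one -/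
theorem exists_galois_ge [IsGalois k K] (E : IntermediateField k K) [FiniteDimensional k E] :
    ∃ E' : IntermediateField k K, FiniteDimensional k E' ∧ IsGalois k E' ∧ E ≤ E' :=
  ⟨IntermediateField.normalClosure k E K, inferInstance, inferInstance, E.le_normalClosure⟩

theorem OpenIn.exists_galois [IsGalois k K] {H W : Subgroup (K ≃ₐ[k] K)} (h : OpenIn H W) :
    ∃ E : IntermediateField k K, FiniteDimensional k E ∧ IsGalois k E ∧
      H ⊓ E.fixingSubgroup ≤ W := by
  obtain ⟨-, E, hE, hEW⟩ := h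
  obtain ⟨E', hE', hG, hle⟩ := exists_galois_ge E
  exact ⟨E', hE', hG, (inf_le_inf_left H (IntermediateField.fixingSubgroup_antitone hle)).trans hEW⟩

theorem finiteIndex_fixingSubgroup (E : IntermediateField k K) [FiniteDimensional k E]
    [IsGalois k E] : E.fixingSubgroup.FiniteIndex := by
  rw [← IntermediateField.restrictNormalHom_ker]
  infer_instance

theorem OpenIn.finiteIndex [IsGalois k K] {H W : Subgroup (K ≃ₐ[k] K)} (h : OpenIn H W) :
    (W.subgroupOf H).index ≠ 0 := by
  obtain ⟨E, hE, hG, hEW⟩ := h.exists_galois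
  have h1 := finiteIndex_fixingSubgroup E
  have h2 : (E.fixingSubgroup.subgroupOf H).FiniteIndex := inferInstance
  have h3 : E.fixingSubgroup.subgroupOf H ≤ W.subgroupOf H := by
    intro g hg
    exact hEW ⟨g.2, hg⟩
  exact (Subgroup.finiteIndex_of_le h3).index_ne_zero

theorem normal_fixingSubgroup (E : IntermediateField k K) [IsGalois k E] :
    E.fixingSubgroup.Normal := by
  rw [← IntermediateField.restrictNormalHom_ker]
  infer_instance

theorem OpenIn.conj [IsGalois k K] {H W : Subgroup (K ≃ₐ[k] K)} (h : OpenIn H W)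
    (g : K ≃ₐ[k] K) :
    OpenIn (H.map (MulAut.conj g).toMonoidHom) (W.map (MulAut.conj g).toMonoidHom) := by
  obtain ⟨E, hE, hG, hEW⟩ := h.exists_galois
  refine ⟨Subgroup.map_mono h.1, E, hE, ?_⟩
  rintro _ ⟨⟨x, hx, rfl⟩, hx2⟩
  refine ⟨x, hEW ⟨hx, ?_⟩, rfl⟩
  have hn := normal_fixingSubgroup E
  have := hn.conj_mem _ hx2 g⁻¹
  simpa [mul_assoc] using this

theorem fixedField_conj (H : Subgroup (K ≃ₐ[k] K)) (g : K ≃ₐ[k] K) (x : K) :
    x ∈ fixedField (H.map (MulAut.conj g).toMonoidHom) ↔ g⁻¹ x ∈ fixedField H := by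
  rw [IntermediateField.mem_fixedField_iff, IntermediateField.mem_fixedField_iff]
  constructor
  · intro h f hf
    have h2 : g (f (g.symm x)) = x := h _ ⟨f, hf, rfl⟩
    show f (g.symm x) = g.symm x
    rw [AlgEquiv.eq_symm_apply]
    exact h2
  · rintro h _ ⟨f, hf, rfl⟩
    show g (f (g.symm x)) = x
    have h2 : f (g.symm x) = g.symm x := h f hf
    rw [h2, AlgEquiv.apply_symm_apply]

/-- density: an automorphism fixing `Fix H ∩ E` agrees on `E` with an element of `H`. -/
theorem exists_mem_eqOn (H : Subgroup (K ≃ₐ[k] K)) (E : IntermediateField k K)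
    [FiniteDimensional k E] [IsGalois k E] (g : K ≃ₐ[k] K)
    (hg : ∀ x ∈ E, x ∈ fixedField H → g x = x) : ∃ h ∈ H, ∀ x ∈ E, h x = g x := by
  have hmem : AlgEquiv.restrictNormalHom E g ∈
      (IntermediateField.fixedField (H.map (AlgEquiv.restrictNormalHom E))).fixingSubgroup := by
    rw [IntermediateField.mem_fixingSubgroup_iff]
    intro e he
    apply Subtype.ext
    rw [AlgEquiv.restrictNormalHom_apply]
    apply hg _ e.2
    rw [IntermediateField.mem_fixedField_iff]
    intro h hh
    have := (IntermediateField.mem_fixedField_iff _ _).mp he (AlgEquiv.restrictNormalHom E h)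
      ⟨h, hh, rfl⟩
    have h2 := congrArg Subtype.val this
    rwa [AlgEquiv.restrictNormalHom_apply] at h2
  rw [IntermediateField.fixingSubgroup_fixedField] at hmem
  obtain ⟨h, hh, hr⟩ := hmem
  refine ⟨h, hh, fun x hx => ?_⟩
  have := congrArg (fun s => ((s ⟨x, hx⟩ : E) : K)) hr
  simpa only [AlgEquiv.restrictNormalHom_apply] using this

/-- (r1) relative closedness, strong form -/
theorem mem_of_fixes_inf {H W : Subgroup (K ≃ₐ[k] K)} (hWH : W ≤ H) (E : IntermediateField k K)
    [FiniteDimensional k E] [IsGalois k E] (hE : H ⊓ E.fixingSubgroup ≤ W) {g : K ≃ₐ[k] K}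
    (hg : g ∈ H) (hfix : ∀ x ∈ E, x ∈ fixedField W → g x = x) : g ∈ W := by
  obtain ⟨w, hw, hwg⟩ := exists_mem_eqOn W E g hfix
  have h1 : w⁻¹ * g ∈ W := by
    refine hE (Subgroup.mem_inf.mpr ⟨mul_mem (inv_mem (hWH hw)) hg, ?_⟩)
    rw [IntermediateField.mem_fixingSubgroup_iff]
    intro x hx
    show w.symm (g x) = x
    rw [← hwg x hx, AlgEquiv.symm_apply_apply]
  have := mul_mem hw h1
  rwa [mul_inv_cancel_left] at this

theorem OpenIn.mem_of_fixes [IsGalois k K] {H W : Subgroup (K ≃ₐ[k] K)} (h : OpenIn H W)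
    {g : K ≃ₐ[k] K} (hg : g ∈ H) (hfix : ∀ x ∈ fixedField W, g x = x) : g ∈ W := by
  obtain ⟨E, hE, hG, hEW⟩ := h.exists_galois
  exact mem_of_fixes_inf h.1 E hEW hg fun x _ hx => hfix x hx

theorem fixedField_le_sup [IsGalois k K] {H W : Subgroup (K ≃ₐ[k] K)} (E : IntermediateField k K)
    [FiniteDimensional k E] (h : H ⊓ E.fixingSubgroup ≤ W) :
    fixedField W ≤ fixedField H ⊔ E := by
  intro x hx
  rw [← InfiniteGalois.fixedField_fixingSubgroup (fixedField H ⊔ E),
    IntermediateField.mem_fixedField_iff]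
  intro σ hσ
  rw [IntermediateField.fixingSubgroup_sup] at hσ
  have hxi : IsIntegral k x := (Algebra.IsAlgebraic.isAlgebraic x).isIntegral
  have : FiniteDimensional k (IntermediateField.adjoin k {x}) :=
    IntermediateField.adjoin.finiteDimensional hxi
  have : FiniteDimensional k ↥(E ⊔ IntermediateField.adjoin k {x}) :=
    IntermediateField.finiteDimensional_sup _ _
  obtain ⟨E', hE', hG, hle⟩ := exists_galois_ge (E ⊔ IntermediateField.adjoin k {x})
  obtain ⟨h', hh', heq⟩ := exists_mem_eqOn H E' σ fun y _ hy =>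
    (IntermediateField.mem_fixingSubgroup_iff _ _).mp hσ.1 y hy
  have hxE' : x ∈ E' := hle (le_sup_right (a := E)
    (IntermediateField.mem_adjoin_simple_self k x))
  have hW : h' ∈ W := by
    refine h (Subgroup.mem_inf.mpr ⟨hh', ?_⟩)
    rw [IntermediateField.mem_fixingSubgroup_iff]
    intro y hy
    rw [heq y (hle (le_sup_left (b := IntermediateField.adjoin k {x}) hy))]
    exact (IntermediateField.mem_fixingSubgroup_iff _ _).mp hσ.2 y hy
  rw [← heq x hxE']
  exact (IntermediateField.mem_fixedField_iff _ _).mp hx h' hW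

theorem exists_mem_map_eq_of_isRoot [IsGalois k K] (H : Subgroup (K ≃ₐ[k] K)) (x y : K)
    (hy : Polynomial.aeval y (minpoly (fixedField H) x) = 0) : ∃ g ∈ H, g x = y := by
  obtain ⟨σ, hσ⟩ := minpoly.exists_algEquiv_of_root' (K := fixedField H) (L := K)
    (Algebra.IsAlgebraic.isAlgebraic x) hy
  have hxi : IsIntegral k x := (Algebra.IsAlgebraic.isAlgebraic x).isIntegral
  have : FiniteDimensional k (IntermediateField.adjoin k {x}) :=
    IntermediateField.adjoin.finiteDimensional hxi
  obtain ⟨E', hE', hG, hle⟩ := exists_galois_ge (IntermediateField.adjoin k {x})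
  obtain ⟨h', hh', heq⟩ := exists_mem_eqOn H E' (σ.restrictScalars k) fun z _ hz =>
    σ.commutes ⟨z, hz⟩
  refine ⟨h', hh', ?_⟩
  rw [heq x (hle (IntermediateField.mem_adjoin_simple_self k x))]
  exact hσ

theorem OpenIn.exists_numberField [IsGalois k K] {H W : Subgroup (K ≃ₐ[k] K)} (h : OpenIn H W) :
    ∃ L : IntermediateField k K, FiniteDimensional k L ∧ W = H ⊓ L.fixingSubgroup ∧
      fixedField W = fixedField H ⊔ L := by
  obtain ⟨E, hE, hG, hEW⟩ := h.exists_galois
  have hfd : FiniteDimensional k ↥(fixedField W ⊓ E) :=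
    FiniteDimensional.of_injective (IntermediateField.inclusion
      (inf_le_right : fixedField W ⊓ E ≤ E)).toLinearMap
      (IntermediateField.inclusion_injective (inf_le_right : fixedField W ⊓ E ≤ E))
  have hW : W = H ⊓ (fixedField W ⊓ E).fixingSubgroup := by
    apply le_antisymm
    · intro w hw
      refine Subgroup.mem_inf.mpr ⟨h.1 hw, ?_⟩
      rw [IntermediateField.mem_fixingSubgroup_iff]
      intro x hx
      exact (IntermediateField.mem_fixedField_iff _ _).mp hx.1 w hw
    · intro g hg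
      refine mem_of_fixes_inf h.1 E hEW hg.1 fun x hxE hxW => ?_
      exact (IntermediateField.mem_fixingSubgroup_iff _ _).mp hg.2 x ⟨hxW, hxE⟩
  refine ⟨fixedField W ⊓ E, hfd, hW, le_antisymm ?_ ?_⟩
  · exact fixedField_le_sup _ hW.ge
  · exact sup_le (IntermediateField.fixedField_antitone h.1) inf_le_left

/-- index of a pull back along a homomorphism with "dense" image -/
theorem index_comap_of_dense {G G' : Type*} [Group G] [Group G'] (f : G' →* G) (H : Subgroup G)
    (hd : ∀ γ : G, ∃ g : G', (f g)⁻¹ * γ ∈ H) : (H.comap f).index = H.index := by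
  have key : ∀ x y : G',
      QuotientGroup.leftRel (H.comap f) x y ↔ QuotientGroup.leftRel H (f x) (f y) := by
    simp only [QuotientGroup.leftRel_apply]
    exact fun x y => iff_of_eq (congr_arg (· ∈ H) (by rw [f.map_mul, f.map_inv]))
  refine Cardinal.toNat_congr (Equiv.ofBijective (Quotient.map' f fun x y => (key x y).mp) ⟨?_, ?_⟩)
  · simp_rw [← Quotient.eq''] at key
    refine Quotient.ind' fun x => ?_
    refine Quotient.ind' fun y => ?_
    exact (key x y).mpr
  · refine Quotient.ind' fun x => ?_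
    obtain ⟨y, hy⟩ := hd x
    refine ⟨Quotient.mk'' y, (Quotient.map'_mk'' f _ y).trans ?_⟩
    exact Quotient.sound' (QuotientGroup.leftRel_apply.mpr hy)

theorem OpenIn.relfinrank_eq [IsGalois k K] {H W : Subgroup (K ≃ₐ[k] K)} (h : OpenIn H W) :
    IntermediateField.relfinrank (fixedField H) (fixedField W) = (W.subgroupOf H).index := by
  have hle : fixedField H ≤ fixedField W := IntermediateField.fixedField_antitone h.1
  rw [IntermediateField.relfinrank_eq_finrank_of_le hle,
    IntermediateField.finrank_eq_fixingSubgroup_index]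
  let f : H →* (K ≃ₐ[fixedField H] K) :=
    (IntermediateField.fixingSubgroupEquiv (fixedField H)).toMonoidHom.comp
      (Subgroup.inclusion ((IntermediateField.le_iff_le H (fixedField H)).mp le_rfl))
  have hf : ∀ (g : H) (x : K), f g x = (g : K ≃ₐ[k] K) x := fun g x => rfl
  have hcomap : (IntermediateField.extendScalars hle).fixingSubgroup.comap f = W.subgroupOf H := by
    ext g
    rw [Subgroup.mem_comap, IntermediateField.mem_fixingSubgroup_iff, Subgroup.mem_subgroupOf]
    constructor
    · intro hg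
      exact h.mem_of_fixes g.2 fun x hx => hg x hx
    · intro hg x hx
      exact (IntermediateField.mem_fixedField_iff _ _).mp hx _ hg
  rw [← hcomap]
  symm
  apply index_comap_of_dense
  intro γ
  obtain ⟨E, hE, hG, hEW⟩ := h.exists_galois
  obtain ⟨h', hh', heq⟩ := exists_mem_eqOn H E (γ.restrictScalars k) fun z _ hz =>
    γ.commutes ⟨z, hz⟩
  refine ⟨⟨h', hh'⟩, ?_⟩
  rw [IntermediateField.mem_fixingSubgroup_iff]
  intro x hx
  have hx' : x ∈ fixedField H ⊔ E := fixedField_le_sup E hEW hx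
  have hmem : h'⁻¹ * γ.restrictScalars k ∈ (fixedField H ⊔ E).fixingSubgroup := by
    rw [IntermediateField.fixingSubgroup_sup]
    refine Subgroup.mem_inf.mpr ⟨?_, ?_⟩
    · rw [IntermediateField.mem_fixingSubgroup_iff]
      intro y hy
      show h'.symm (γ y) = y
      rw [AlgEquiv.symm_apply_eq, (IntermediateField.mem_fixedField_iff _ _).mp hy h' hh']
      exact γ.commutes ⟨y, hy⟩
    · rw [IntermediateField.mem_fixingSubgroup_iff]
      intro y hy
      show h'.symm (γ y) = y
      rw [AlgEquiv.symm_apply_eq, heq y hy]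
      rfl
  exact (IntermediateField.mem_fixingSubgroup_iff _ _).mp hmem x hx'

theorem OpenIn.exists_charpoly [IsGalois k K] {H W : Subgroup (K ≃ₐ[k] K)} (h : OpenIn H W)
    {x : K} (hx : x ∈ fixedField W) :
    ∃ (s : Multiset (K ≃ₐ[k] K)), (∀ g ∈ s, g ∈ H) ∧
      Multiset.card s = (W.subgroupOf H).index ∧ (1 : K ≃ₐ[k] K) ∈ s ∧
      ∃ f : Polynomial (fixedField H), f.map (algebraMap (fixedField H) K) =
        (s.map fun g => Polynomial.X - Polynomial.C (g x)).prod := by
  classical
  have : Fintype (H ⧸ W.subgroupOf H) := Subgroup.fintypeOfIndexNeZero h.finiteIndex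
  let rep : H ⧸ W.subgroupOf H → H := fun c =>
    if c = ((1 : H) : H ⧸ W.subgroupOf H) then 1 else Quotient.out c
  have hrep : ∀ c, ((rep c : H) : H ⧸ W.subgroupOf H) = c := by
    intro c
    by_cases hc : c = ((1 : H) : H ⧸ W.subgroupOf H)
    · simp only [rep, if_pos hc]
      exact hc.symm
    · simp only [rep, if_neg hc]
      exact QuotientGroup.out_eq' c
  let φ : H ⧸ W.subgroupOf H → K := fun c => ((rep c : H) : K ≃ₐ[k] K) x
  have hφ : ∀ (g : H) (c : H ⧸ W.subgroupOf H), (g : K ≃ₐ[k] K) (φ c) = φ (g • c) := by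
    intro g c
    have h1 : ((g * rep c : H) : H ⧸ W.subgroupOf H) = ((rep (g • c) : H) : H ⧸ W.subgroupOf H) := by
      rw [hrep (g • c)]
      conv_rhs => rw [← hrep c]
      rfl
    rw [QuotientGroup.eq] at h1
    have h2 : (((g * rep c)⁻¹ * rep (g • c) : H) : K ≃ₐ[k] K) x = x :=
      (IntermediateField.mem_fixedField_iff _ _).mp hx _ h1
    have h3 : ((rep (g • c) : H) : K ≃ₐ[k] K)
        = ((g * rep c : H) : K ≃ₐ[k] K) * (((g * rep c)⁻¹ * rep (g • c) : H) : K ≃ₐ[k] K) := by
      rw [← Subgroup.coe_mul, mul_inv_cancel_left]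
    show _ = ((rep (g • c) : H) : K ≃ₐ[k] K) x
    rw [h3, AlgEquiv.mul_apply, h2]
    rfl
  refine ⟨(Finset.univ : Finset (H ⧸ W.subgroupOf H)).val.map fun c => ((rep c : H) : K ≃ₐ[k] K),
    ?_, ?_, ?_, ?_⟩
  · intro g hg
    obtain ⟨c, -, rfl⟩ := Multiset.mem_map.mp hg
    exact (rep c).2
  · rw [Multiset.card_map, Subgroup.index_eq_card, Nat.card_eq_fintype_card]
    rfl
  · refine Multiset.mem_map.mpr ⟨((1 : H) : H ⧸ W.subgroupOf H), Finset.mem_univ _, ?_⟩
    simp only [rep, if_true]
    rfl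
  · rw [Multiset.map_map]
    have hP : (Multiset.map ((fun g : K ≃ₐ[k] K => Polynomial.X - Polynomial.C (g x)) ∘
        fun c => ((rep c : H) : K ≃ₐ[k] K)) (Finset.univ : Finset (H ⧸ W.subgroupOf H)).val).prod
        = ∏ c : H ⧸ W.subgroupOf H, (Polynomial.X - Polynomial.C (φ c)) := rfl
    rw [hP, ← Polynomial.mem_lifts, Polynomial.lifts_iff_coeff_lifts]
    intro n
    have hfix : (∏ c : H ⧸ W.subgroupOf H, (Polynomial.X - Polynomial.C (φ c))).coeff n
        ∈ fixedField H := by
      rw [IntermediateField.mem_fixedField_iff]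
      intro g hg
      have hmap : (∏ c : H ⧸ W.subgroupOf H, (Polynomial.X - Polynomial.C (φ c))).map
          ((g : K ≃ₐ[k] K) : K →+* K)
          = ∏ c : H ⧸ W.subgroupOf H, (Polynomial.X - Polynomial.C (φ c)) := by
        rw [Polynomial.map_prod]
        simp only [Polynomial.map_sub, Polynomial.map_X, Polynomial.map_C]
        have : ∀ c, ((g : K ≃ₐ[k] K) : K →+* K) (φ c) = φ ((⟨g, hg⟩ : H) • c) :=
          fun c => hφ ⟨g, hg⟩ c
        simp only [this]
        exact Equiv.prod_comp (MulAction.toPerm (⟨g, hg⟩ : H))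
          (fun c => Polynomial.X - Polynomial.C (φ c))
      have := congrArg (fun P => P.coeff n) hmap
      simp only [Polynomial.coeff_map] at this
      exact this
    exact ⟨⟨_, hfix⟩, rfl⟩

end

end Fermat.Agent.S55.Places.GalAux
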