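import Fermat.Agent.S55.Places.Defs
import Fermat.Agent.S55.Places.GaloisAux

/-! # S55 (P), task P-Galois: Galois theory for ARBITRARY subgroups `H ≤ GQ` and their relatively open
subgroups `W` (no closedness is used).  `IsOpenIn H W` means `W ≤ H` and `H ∩ Fix-group(E) ≤ W` for
a number field `E`.

Key lemma (r1 of the review): open subgroups of any `H` are relatively closed.
Proof: wlog `E/ℚ` finite Galois (normal closure).  Let `Wbar` be the image of `W` in `Gal(E/ℚ)`.
`E^{Wbar} ⊆ Fix W`, so `g|_E` fixes `E^{Wbar}`, so `g|_E ∈ Wbar` by FINITE Galois theory, i.e.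
`g = w * n` with `w ∈ W`, `n ∈ Fix-group(E)`, and `n = w⁻¹ g ∈ H`, so `n ∈ W`.

All proofs are in `Places/GaloisAux.lean` (generic Galois extension `K/k`). -/

set_option autoImplicit false

namespace Fermat.Agent.S55.Places

noncomputable section

attribute [local instance] isAlgClosureQbar

theorem isGalois_Qbar : IsGalois ℚ Qbar := inferInstance

attribute [local instance] isGalois_Qbar

theorem isOpenIn_iff_aux (H W : Subgroup GQ) : IsOpenIn H W ↔ GalAux.OpenIn H W := Iff.rfl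

theorem IsOpenIn.refl (H : Subgroup GQ) : IsOpenIn H H := GalAux.OpenIn.refl H

theorem IsOpenIn.trans {H W W' : Subgroup GQ} (h : IsOpenIn H W) (h' : IsOpenIn W W') :
    IsOpenIn H W' := GalAux.OpenIn.trans h h'

theorem IsOpenIn.inf {H W W' : Subgroup GQ} (h : IsOpenIn H W) (h' : IsOpenIn H W') :
    IsOpenIn H (W ⊓ W') := GalAux.OpenIn.inf h h'

theorem IsOpenIn.of_le {H W W' : Subgroup GQ} (h : IsOpenIn H W) (h1 : W ≤ W') (h2 : W' ≤ H) :
    IsOpenIn H W' := by
  obtain ⟨-, E, hE, hEW⟩ := h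
  exact ⟨h2, E, hE, hEW.trans h1⟩

/-- restriction to a subgroup -/
theorem IsOpenIn.inf_left {H W : Subgroup GQ} (h : IsOpenIn H W) (H' : Subgroup GQ) (hH : H' ≤ H) :
    IsOpenIn H' (H' ⊓ W) := by
  obtain ⟨-, E, hE, hEW⟩ := h
  exact ⟨inf_le_left, E, hE, fun g hg => ⟨hg.1, hEW ⟨hH hg.1, hg.2⟩⟩⟩

theorem isOpenIn_inf_fixingSubgroup (H : Subgroup GQ) (E : NF) [FiniteDimensional ℚ E] :
    IsOpenIn H (H ⊓ E.fixingSubgroup) :=
  ⟨inf_le_left, E, inferInstance, le_rfl⟩

/-- in the definition of `IsOpenIn` one may take `E` Galois over `ℚ` -/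
theorem IsOpenIn.exists_galois {H W : Subgroup GQ} (h : IsOpenIn H W) :
    ∃ E : NF, FiniteDimensional ℚ E ∧ IsGalois ℚ E ∧ H ⊓ E.fixingSubgroup ≤ W :=
  GalAux.OpenIn.exists_galois h

theorem IsOpenIn.finiteIndex {H W : Subgroup GQ} (h : IsOpenIn H W) :
    (W.subgroupOf H).index ≠ 0 := GalAux.OpenIn.finiteIndex h

/-- conjugation -/
theorem IsOpenIn.conj {H W : Subgroup GQ} (h : IsOpenIn H W) (g : GQ) :
    IsOpenIn (H.map (MulAut.conj g).toMonoidHom) (W.map (MulAut.conj g).toMonoidHom) :=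
  GalAux.OpenIn.conj h g

theorem Fix_conj (H : Subgroup GQ) (g : GQ) (x : Qbar) :
    x ∈ Fix (H.map (MulAut.conj g).toMonoidHom) ↔ g⁻¹ x ∈ Fix H :=
  GalAux.fixedField_conj H g x

theorem Fix_anti {H W : Subgroup GQ} (h : W ≤ H) : Fix H ≤ Fix W :=
  IntermediateField.fixedField_antitone h

/-- every number field is contained in a finite Galois one -/
theorem exists_galois_ge (E : NF) [hE : FiniteDimensional ℚ E] :
    ∃ E' : NF, FiniteDimensional ℚ E' ∧ IsGalois ℚ E' ∧ E ≤ E' :=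
  @GalAux.exists_galois_ge ℚ Qbar _ _ _ _ E hE

/-- the fixing subgroup of a finite Galois number field is normal of finite index -/
theorem normal_fixingSubgroup (E : NF) [hG : IsGalois ℚ E] : E.fixingSubgroup.Normal :=
  @GalAux.normal_fixingSubgroup ℚ Qbar _ _ _ E hG

theorem finiteIndex_fixingSubgroup (E : NF) [hE : FiniteDimensional ℚ E] [hG : IsGalois ℚ E] :
    E.fixingSubgroup.FiniteIndex :=
  @GalAux.finiteIndex_fixingSubgroup ℚ Qbar _ _ _ E hE hG

/-- density of `H` in the Galois group of `Fix H`: an automorphism fixing `Fix H ∩ E` (`E` a finite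
Galois number field) agrees on `E` with an element of `H`. -/
theorem exists_mem_eqOn (H : Subgroup GQ) (E : NF) [hE : FiniteDimensional ℚ E]
    [hG : IsGalois ℚ E] (g : GQ) (hg : ∀ x ∈ E, x ∈ Fix H → g x = x) :
    ∃ h ∈ H, ∀ x ∈ E, h x = g x :=
  @GalAux.exists_mem_eqOn ℚ Qbar _ _ _ H E hE hG g hg

/-- (r1) relative closedness -/
theorem IsOpenIn.mem_of_fixes {H W : Subgroup GQ} (h : IsOpenIn H W) {g : GQ} (hg : g ∈ H)
    (hfix : ∀ x ∈ Fix W, g x = x) : g ∈ W := GalAux.OpenIn.mem_of_fixes h hg hfix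

/-- degree = index -/
theorem IsOpenIn.relfinrank_eq {H W : Subgroup GQ} (h : IsOpenIn H W) :
    IntermediateField.relfinrank (Fix H) (Fix W) = (W.subgroupOf H).index :=
  GalAux.OpenIn.relfinrank_eq h

/-- `Fix W` is generated over `Fix H` by a number field: if `H ∩ Fix-group(E) ≤ W` then every element
of `Fix W` lies in the compositum `Fix H ⊔ E`. -/
theorem Fix_le_sup {H W : Subgroup GQ} (E : NF) [hE : FiniteDimensional ℚ E]
    (h : H ⊓ E.fixingSubgroup ≤ W) : Fix W ≤ Fix H ⊔ E :=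
  @GalAux.fixedField_le_sup ℚ Qbar _ _ _ _ H W E hE h

/-- the conjugates over `Fix H` of `x ∈ Qbar` are the `g x`, `g ∈ H` -/
theorem exists_mem_map_eq_of_isRoot (H : Subgroup GQ) (x y : Qbar)
    (hy : Polynomial.aeval y (minpoly (Fix H) x) = 0) : ∃ g ∈ H, g x = y :=
  GalAux.exists_mem_map_eq_of_isRoot H x y hy

/-- the "norm" and more generally: a polynomial over `Fix H`, monic of degree `[H:W]`, all of whose
roots are `H`-conjugates of `x`, vanishing at `x ∈ Fix W`. -/
theorem IsOpenIn.exists_charpoly {H W : Subgroup GQ} (h : IsOpenIn H W) {x : Qbar} (hx : x ∈ Fix W) :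
    ∃ (s : Multiset GQ), (∀ g ∈ s, g ∈ H) ∧ Multiset.card s = (W.subgroupOf H).index ∧
      (1 : GQ) ∈ s ∧
      ∃ f : Polynomial (Fix H), f.map (algebraMap (Fix H) Qbar) =
        (s.map fun g => Polynomial.X - Polynomial.C (g x)).prod :=
  GalAux.OpenIn.exists_charpoly h hx

/-- an open subgroup `W` of `H` is `H ∩ U` with `U` open in `GQ`; `K = Fix U` is a number field with
`Fix W = Fix H ⊔ K`. -/
theorem IsOpenIn.exists_numberField {H W : Subgroup GQ} (h : IsOpenIn H W) :
    ∃ K : NF, FiniteDimensional ℚ K ∧ W = H ⊓ K.fixingSubgroup ∧ Fix W = Fix H ⊔ K :=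
  GalAux.OpenIn.exists_numberField h

end

end Fermat.Agent.S55.Places
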