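import Fermat.Agent.S55.Places.Dense
import Fermat.Agent.S55.Places.Galois

/-! # S55 (P), task P-Value (= P3, P4): density of a number field in its henselisation, discreteness
of the value group of `Fix W`, `W` open in `Dq q`. -/

set_option autoImplicit false

namespace Fermat.Agent.S55.Places

noncomputable section

variable (q : ℕ) [Fact q.Prime]

namespace Value

/-- the `nrm q`-closure of a number field `K`, as a `ℚ`-subalgebra of `Qbar` -/
def closureAlg (K : NF) : Subalgebra ℚ Qbar where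
  carrier := {x | ∀ ε : ℝ, 0 < ε → ∃ y ∈ K, nrm q (x - y) < ε}
  mul_mem' := by
    intro a b ha hb ε hε
    have hA : 0 < nrm q a + 1 := by have := nrm_nonneg q a; linarith
    have hB : 0 < nrm q b + 1 := by have := nrm_nonneg q b; linarith
    obtain ⟨y, hy, hay⟩ := ha (ε / (nrm q b + 1)) (div_pos hε hB)
    obtain ⟨z, hz, hbz⟩ := hb (min 1 (ε / (nrm q a + 1))) (lt_min one_pos (div_pos hε hA))
    refine ⟨y * z, K.mul_mem hy hz, ?_⟩
    have e : a * b - y * z = a * (b - z) + (a - y) * z := by ring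
    have hz' : nrm q z ≤ nrm q b + 1 := by
      have e2 : z = b - (b - z) := by ring
      rw [e2]
      refine (nrm_sub_le_max q _ _).trans (max_le (by linarith) ?_)
      have := (hbz.trans_le (min_le_left _ _)).le
      have := nrm_nonneg q b
      linarith
    rw [e]
    refine (nrm_add_le_max q _ _).trans_lt (max_lt ?_ ?_)
    · rw [nrm_mul]
      have h1 : nrm q (b - z) < ε / (nrm q a + 1) := hbz.trans_le (min_le_right _ _)
      calc nrm q a * nrm q (b - z) ≤ (nrm q a + 1) * nrm q (b - z) := by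
            apply mul_le_mul_of_nonneg_right (by linarith) (nrm_nonneg q _)
        _ < (nrm q a + 1) * (ε / (nrm q a + 1)) := mul_lt_mul_of_pos_left h1 hA
        _ = ε := by field_simp
    · rw [nrm_mul]
      calc nrm q (a - y) * nrm q z ≤ nrm q (a - y) * (nrm q b + 1) := by
            apply mul_le_mul_of_nonneg_left hz' (nrm_nonneg q _)
        _ < (ε / (nrm q b + 1)) * (nrm q b + 1) := mul_lt_mul_of_pos_right hay hB
        _ = ε := by field_simp
  add_mem' := by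
    intro a b ha hb ε hε
    obtain ⟨y, hy, hay⟩ := ha ε hε
    obtain ⟨z, hz, hbz⟩ := hb ε hε
    refine ⟨y + z, K.add_mem hy hz, ?_⟩
    have e : a + b - (y + z) = (a - y) + (b - z) := by ring
    rw [e]
    exact (nrm_add_le_max q _ _).trans_lt (max_lt hay hbz)
  algebraMap_mem' := by
    intro r ε hε
    exact ⟨algebraMap ℚ Qbar r, K.algebraMap_mem r, by simpa using hε⟩

theorem mem_closureAlg {K : NF} {x : Qbar} :
    x ∈ closureAlg q K ↔ ∀ ε : ℝ, 0 < ε → ∃ y ∈ K, nrm q (x - y) < ε := Iff.rfl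

theorem le_closureAlg (K : NF) : K.toSubalgebra ≤ closureAlg q K := by
  intro x hx ε hε
  exact ⟨x, hx, by simpa using hε⟩

theorem Qh_le_closureAlg (K : NF) : (Qh q).toSubalgebra ≤ closureAlg q K := by
  intro x hx ε hε
  obtain ⟨r, hr⟩ := exists_rat_near q (x := x) hx hε
  refine ⟨(r : Qbar), ?_, hr⟩
  have := K.algebraMap_mem r
  simp

/-- a multiplicative function with values in `a ^ ℤ` gives a homomorphism to `ℤ` -/
theorem exists_hom_of_zpow {G : Type*} [Group G] (f : G → ℝ) (hf : ∀ x y, f (x * y) = f x * f y)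
    {a : ℝ} (ha : 0 < a) (ha1 : a ≠ 1) (h : ∀ x, ∃ k : ℤ, f x = a ^ k) :
    ∃ v : G →* Multiplicative ℤ, ∀ x, f x = a ^ (Multiplicative.toAdd (v x)) := by
  choose k hk using h
  refine ⟨MonoidHom.mk' (fun x => Multiplicative.ofAdd (k x)) ?_, fun x => hk x⟩
  intro x y
  rw [← ofAdd_add]
  congr 1
  apply zpow_right_injective₀ ha ha1
  simp only
  rw [← hk, hf, hk x, hk y, zpow_add₀ ha.ne']

end Value

open Value

/-- P3.  `Fix (Dq ⊓ Gal(Qbar/K)) = Qh ⊔ K` (`Fix_le_sup`), whose elements are finite sums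
`∑ aᵢ θᵢ`, `aᵢ ∈ Qh`, `θᵢ ∈ K`; approximate the `aᵢ` by rationals (`exists_rat_near`). -/
theorem exists_near_of_mem_Fix (K : NF) [FiniteDimensional ℚ K] {x : Qbar}
    (hx : x ∈ Fix (Dq q ⊓ K.fixingSubgroup)) {ε : ℝ} (hε : 0 < ε) :
    ∃ y ∈ K, nrm q (x - y) < ε := by
  have h1 : x ∈ Fix (Dq q) ⊔ K := Fix_le_sup (H := Dq q) K le_rfl hx
  have h2 : (Fix (Dq q) ⊔ K).toSubalgebra = (Fix (Dq q)).toSubalgebra ⊔ K.toSubalgebra :=
    IntermediateField.sup_toSubalgebra_of_isAlgebraic_right _ _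
  have h3 : x ∈ (Fix (Dq q)).toSubalgebra ⊔ K.toSubalgebra := by
    rw [← h2]; exact h1
  have h4 : (Fix (Dq q)).toSubalgebra ⊔ K.toSubalgebra ≤ closureAlg q K :=
    sup_le (Qh_le_closureAlg q K) (le_closureAlg q K)
  exact h4 h3 ε hε

/-- multiplicative form of P3 -/
theorem exists_near_of_mem_Fix' (K : NF) [FiniteDimensional ℚ K] {x : Qbar}
    (hx : x ∈ Fix (Dq q ⊓ K.fixingSubgroup)) (h0 : x ≠ 0) {ε : ℝ} (hε : 0 < ε) :
    ∃ y ∈ K, y ≠ 0 ∧ nrm q (x / y - 1) < ε ∧ nrm q y = nrm q x := by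
  have hxp : 0 < nrm q x := (nrm_pos_iff q).2 h0
  obtain ⟨y, hy, hxy⟩ := exists_near_of_mem_Fix q K hx
    (ε := min 1 ε * nrm q x) (mul_pos (lt_min one_pos hε) hxp)
  have h1 : nrm q (x - y) < nrm q x := by
    refine hxy.trans_le ?_
    calc min 1 ε * nrm q x ≤ 1 * nrm q x := mul_le_mul_of_nonneg_right (min_le_left _ _) hxp.le
      _ = nrm q x := one_mul _
  have h2 : nrm q y = nrm q x := by
    have e : y = x + -(x - y) := by ring
    have hne : nrm q x ≠ nrm q (-(x - y)) := by rw [nrm_neg]; exact h1.ne'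
    rw [e, nrm_add_eq_max_of_ne q hne, nrm_neg]
    exact max_eq_left h1.le
  have hy0 : y ≠ 0 := by
    rw [← nrm_pos_iff q, h2]; exact hxp
  refine ⟨y, hy, hy0, ?_, h2⟩
  have e : x / y - 1 = (x - y) / y := by field_simp
  rw [e, nrm_div, h2, div_lt_iff₀ hxp]
  refine hxy.trans_le ?_
  exact mul_le_mul_of_nonneg_right (min_le_right _ _) hxp.le

variable {q}

/-- `|x|^[Dq:W] ∈ q^ℤ`: by `IsOpenIn.exists_charpoly` the product of the `[Dq:W]` conjugates `g x`
(`g ∈ Dq`, isometries) lies in `Qh`; use `nrm_Qh`. -/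
theorem nrm_pow_index {W : Subgroup GQ} (hW : IsOpenIn (Dq q) W) {x : Qbar} (hx : x ∈ Fix W)
    (h0 : x ≠ 0) : ∃ k : ℤ, nrm q x ^ (W.subgroupOf (Dq q)).index = (q : ℝ) ^ k := by
  obtain ⟨s, hs, hcard, -, f, hf⟩ := hW.exists_charpoly hx
  have hc : ((f.coeff 0 : Fix (Dq q)) : Qbar) = (s.map fun g => - (g x)).prod := by
    have h1 : (f.map (algebraMap (Fix (Dq q)) Qbar)).coeff 0 = ((f.coeff 0 : Fix (Dq q)) : Qbar) := by
      rw [Polynomial.coeff_map]; rfl
    rw [← h1, hf, Polynomial.coeff_zero_eq_eval_zero, Polynomial.eval_multiset_prod,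
      Multiset.map_map]
    congr 1
    apply Multiset.map_congr rfl
    intro g _
    simp
  have hn : ∀ t : Multiset GQ, (∀ g ∈ t, g ∈ Dq q) →
      nrm q (t.map fun g => - (g x)).prod = nrm q x ^ (Multiset.card t) := by
    intro t
    induction t using Multiset.induction_on with
    | empty => intro _; simp
    | cons a t ih =>
      intro ht
      rw [Multiset.map_cons, Multiset.prod_cons, nrm_mul, nrm_neg,
        nrm_map_of_mem_Dq q (ht a (Multiset.mem_cons_self a t)),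
        ih (fun g hg => ht g (Multiset.mem_cons_of_mem hg)), Multiset.card_cons, pow_succ, mul_comm]
  have hn' := hn s hs
  rw [← hc, hcard] at hn'
  have hne : ((f.coeff 0 : Fix (Dq q)) : Qbar) ≠ 0 := by
    rw [← nrm_pos_iff q, hn']
    exact pow_pos ((nrm_pos_iff q).2 h0) _
  obtain ⟨k, hk⟩ := nrm_Qh q (f.coeff 0).2 hne
  exact ⟨k, by rw [← hn', hk]⟩

/-- P4: the value group of `Fix W` is infinite cyclic. -/
theorem exists_uniformizer {W : Subgroup GQ} (hW : IsOpenIn (Dq q) W) :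
    ∃ π ∈ Fix W, 0 < nrm q π ∧ nrm q π < 1 ∧
      ∀ x ∈ Fix W, x ≠ 0 → ∃ k : ℤ, nrm q x = nrm q π ^ k := by
  set n := (W.subgroupOf (Dq q)).index with hn
  have hn0 : n ≠ 0 := hW.finiteIndex
  have hq1 : (1 : ℝ) < q := by exact_mod_cast (Fact.out : q.Prime).one_lt
  have hq0 : (0 : ℝ) < q := by linarith
  obtain ⟨v, hv⟩ := exists_hom_of_zpow (G := (Fix W)ˣ)
    (fun x => nrm q ((x : Fix W) : Qbar) ^ n)
    (by intro x y; simp only [Units.val_mul, MulMemClass.coe_mul, nrm_mul, mul_pow])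
    hq0 hq1.ne' (fun x => nrm_pow_index hW (x : Fix W).2 (by simp))
  obtain ⟨⟨g, π₀, rfl⟩, hg⟩ := (inferInstance : IsCyclic v.range).exists_generator
  have key : ∀ x : (Fix W)ˣ, ∃ k : ℤ, nrm q ((x : Fix W) : Qbar) = nrm q ((π₀ : Fix W) : Qbar) ^ k := by
    intro x
    obtain ⟨k, hk⟩ := Subgroup.mem_zpowers_iff.1 (hg ⟨v x, x, rfl⟩)
    have hk' : v π₀ ^ k = v x := by simpa using congrArg Subtype.val hk
    refine ⟨k, ?_⟩
    have h1 : nrm q ((x : Fix W) : Qbar) ^ n = (nrm q ((π₀ : Fix W) : Qbar) ^ k) ^ n := by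
      rw [hv x, ← hk', toAdd_zpow, smul_eq_mul, mul_comm, zpow_mul, ← hv π₀, ← zpow_natCast,
        ← zpow_natCast, ← zpow_mul, ← zpow_mul, mul_comm]
    exact (pow_left_inj₀ (nrm_nonneg q _) (zpow_nonneg (nrm_nonneg q _) _) hn0).1 h1
  have key' : ∀ x ∈ Fix W, x ≠ 0 → ∃ k : ℤ, nrm q x = nrm q ((π₀ : Fix W) : Qbar) ^ k := by
    intro x hx hx0
    have hx0' : (⟨x, hx⟩ : Fix W) ≠ 0 := fun h' => hx0 (congrArg Subtype.val h')
    exact key (Units.mk0 _ hx0')
  have hπ0 : ((π₀ : Fix W) : Qbar) ≠ 0 := by simp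
  have hpos : 0 < nrm q ((π₀ : Fix W) : Qbar) := (nrm_pos_iff q).2 hπ0
  have hne1 : nrm q ((π₀ : Fix W) : Qbar) ≠ 1 := by
    intro h1
    obtain ⟨k, hk⟩ := key' (q : Qbar) (natCast_mem _ q)
      (by exact_mod_cast (Fact.out : q.Prime).ne_zero)
    rw [h1, one_zpow, nrm_natCast_self] at hk
    have : (q : ℝ) = 1 := by rw [← inv_inv (q : ℝ), hk, inv_one]
    exact hq1.ne' this
  rcases lt_or_gt_of_ne hne1 with hlt | hgt
  · exact ⟨_, (π₀ : Fix W).2, hpos, hlt, key'⟩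
  · refine ⟨((π₀ : Fix W) : Qbar)⁻¹, inv_mem (π₀ : Fix W).2, ?_, ?_, ?_⟩
    · rw [nrm_inv]; exact inv_pos.2 hpos
    · rw [nrm_inv]; exact inv_lt_one_of_one_lt₀ hgt
    · intro x hx hx0
      obtain ⟨k, hk⟩ := key' x hx hx0
      exact ⟨-k, by rw [hk, nrm_inv, inv_zpow, zpow_neg, inv_inv]⟩

/-- P4 + P3: the uniformiser can be chosen in the number field. -/
theorem exists_uniformizer_mem (K : NF) [FiniteDimensional ℚ K] :
    ∃ π ∈ K, 0 < nrm q π ∧ nrm q π < 1 ∧
      ∀ x ∈ Fix (Dq q ⊓ K.fixingSubgroup), x ≠ 0 → ∃ k : ℤ, nrm q x = nrm q π ^ k := by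
  obtain ⟨π, hπ, h0, h1, h⟩ := exists_uniformizer (isOpenIn_inf_fixingSubgroup (Dq q) K)
  obtain ⟨y, hy, -, -, hy2⟩ := exists_near_of_mem_Fix' q K hπ ((nrm_pos_iff q).1 h0) one_pos
  exact ⟨y, hy, by rw [hy2]; exact h0, by rw [hy2]; exact h1, by rw [hy2]; exact h⟩

/-- a homomorphism `(Fix W)ˣ → ℤ` with kernel the units of `ringOf q W` and nonzero image:
`v x = k` iff `|x|^[Dq:W] = q^(-k)`. -/
theorem exists_valuation_hom {W : Subgroup GQ} (hW : IsOpenIn (Dq q) W) :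
    ∃ v : (Fix W)ˣ →* Multiplicative ℤ, Function.Surjective v ∧
      ∀ x : (Fix W)ˣ, v x = 1 ↔ nrm q ((x : Fix W) : Qbar) = 1 := by
  obtain ⟨π, hπ, h0, h1, h⟩ := exists_uniformizer hW
  obtain ⟨v, hv⟩ := exists_hom_of_zpow (G := (Fix W)ˣ)
    (fun x => nrm q ((x : Fix W) : Qbar))
    (by intro x y; simp only [Units.val_mul, MulMemClass.coe_mul, nrm_mul])
    h0 h1.ne (fun x => h _ (x : Fix W).2 (by simp))
  refine ⟨v, ?_, ?_⟩
  · have hπ0 : (⟨π, hπ⟩ : Fix W) ≠ 0 := by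
      intro h'
      have : π = 0 := congrArg Subtype.val h'
      rw [this] at h0
      simp at h0
    have hvπ : v (Units.mk0 _ hπ0) = Multiplicative.ofAdd 1 := by
      have := hv (Units.mk0 _ hπ0)
      simp only [Units.val_mk0] at this
      have h2 : nrm q π ^ (1 : ℤ) = nrm q π ^ (Multiplicative.toAdd (v (Units.mk0 _ hπ0))) := by
        rw [zpow_one]; exact this
      have := zpow_right_injective₀ h0 h1.ne h2
      rw [this]; rfl
    intro k
    refine ⟨(Units.mk0 _ hπ0) ^ (Multiplicative.toAdd k), ?_⟩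
    rw [map_zpow, hvπ, ← ofAdd_zsmul]
    simp
  · intro x
    rw [hv x]
    constructor
    · intro h'; rw [h']; simp
    · intro h'
      have h2 : nrm q π ^ (Multiplicative.toAdd (v x)) = nrm q π ^ (0 : ℤ) := by
        rw [h', zpow_zero]
      have := zpow_right_injective₀ h0 h1.ne h2
      exact Multiplicative.toAdd.injective this

end

end Fermat.Agent.S55.Places
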