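import Fermat.Agent.S55.Places.Roots
import Fermat.Agent.S55.Places.Value

/-! # S55 (P), task P-Cyclo (= P13 + total ramification of `ℚ(μ_{p^n})` at `p`). -/

set_option autoImplicit false

open scoped IntermediateField

namespace Fermat.Agent.S55.Places

noncomputable section

/-- existence of primitive roots of unity in `Qbar` -/
theorem cyclo_exists_primitiveRoot (N : ℕ) [NeZero N] : ∃ ξ : Qbar, IsPrimitiveRoot ξ N := by
  have : NeZero (N : Qbar) := ⟨by exact_mod_cast NeZero.ne N⟩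
  exact HasEnoughRootsOfUnity.exists_primitiveRoot Qbar N

/-- the action of `g` on `μ_N` is by a power -/
theorem cyclo_exists_exponent {N : ℕ} (hN : 0 < N) {ξ : Qbar} (hξ : IsPrimitiveRoot ξ N) (g : GQ) :
    ∃ a : ℕ, ∀ ζ : Qbar, ζ ^ N = 1 → g ζ = ζ ^ a := by
  have : NeZero N := ⟨hN.ne'⟩
  have h1 : (g ξ) ^ N = 1 := by rw [← map_pow, hξ.pow_eq_one, map_one]
  obtain ⟨a, -, ha⟩ := hξ.eq_pow_of_pow_eq_one h1
  refine ⟨a, fun ζ hζ => ?_⟩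
  obtain ⟨i, -, rfl⟩ := hξ.eq_pow_of_pow_eq_one hζ
  rw [map_pow, ← ha, ← pow_mul, ← pow_mul, mul_comm]

theorem cyclo_pow_apply {N a : ℕ} {g : GQ} (h : ∀ ζ : Qbar, ζ ^ N = 1 → g ζ = ζ ^ a) (k : ℕ) :
    ∀ ζ : Qbar, ζ ^ N = 1 → (g ^ k) ζ = ζ ^ (a ^ k) := by
  induction k with
  | zero => intro ζ _; simp
  | succ k ih =>
    intro ζ hζ
    rw [pow_succ', AlgEquiv.mul_apply, ih ζ hζ, h _ (by rw [← pow_mul, mul_comm, pow_mul, hζ, one_pow]),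
      ← pow_mul, pow_succ]

theorem tower_step (H : Subgroup GQ) {p : ℕ} (hp : p.Prime) (hp2 : p ≠ 2) {n : ℕ} (hn : 1 ≤ n)
    (h : ∃ g ∈ H, (∀ ζ : Qbar, ζ ^ (p ^ n) = 1 → g ζ = ζ) ∧
      ∃ ζ : Qbar, ζ ^ (p ^ (n + 1)) = 1 ∧ g ζ ≠ ζ) :
    ∃ g ∈ H, (∀ ζ : Qbar, ζ ^ (p ^ (n + 1)) = 1 → g ζ = ζ) ∧
      ∃ ζ : Qbar, ζ ^ (p ^ (n + 2)) = 1 ∧ g ζ ≠ ζ := by
  obtain ⟨g, hgH, hfix, ζ₀, hζ₀, hmove⟩ := h
  have : Fact p.Prime := ⟨hp⟩
  have hNpos : 0 < p ^ (n + 2) := pow_pos hp.pos _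
  have : NeZero (p ^ (n + 2)) := ⟨hNpos.ne'⟩
  obtain ⟨ξ, hξ⟩ := cyclo_exists_primitiveRoot (p ^ (n + 2))
  obtain ⟨a, ha⟩ := cyclo_exists_exponent hNpos hξ g
  have hsub1 : ∀ ζ : Qbar, ζ ^ (p ^ (n + 1)) = 1 → ζ ^ (p ^ (n + 2)) = 1 := by
    intro ζ hζ; rw [pow_succ p (n + 1), pow_mul, hζ, one_pow]
  have hsub0 : ∀ ζ : Qbar, ζ ^ (p ^ n) = 1 → ζ ^ (p ^ (n + 2)) = 1 := by
    intro ζ hζ; rw [pow_add p n 2, pow_mul, hζ, one_pow]
  -- a ≠ 0, a ≠ 1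
  have ha0 : a ≠ 0 := by
    rintro rfl
    have h1 := ha ζ₀ (hsub1 ζ₀ hζ₀)
    rw [pow_zero] at h1
    have h2 : ζ₀ = 1 := by
      have : g ζ₀ = g 1 := by rw [h1, map_one]
      exact g.injective this
    exact hmove (by rw [h2, map_one])
  have ha1 : 1 < a := by
    rcases Nat.lt_or_ge 1 a with h | h
    · exact h
    · have : a = 1 := by omega
      subst this
      exact absurd (by rw [ha ζ₀ (hsub1 ζ₀ hζ₀), pow_one]) hmove
  -- p^n ∣ a - 1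
  have hd0 : p ^ n ∣ a - 1 := by
    have hprim : IsPrimitiveRoot (ξ ^ (p ^ 2)) (p ^ n) :=
      hξ.pow hNpos (by rw [pow_add, mul_comm])
    have h1 := hfix _ hprim.pow_eq_one
    rw [ha _ (hsub0 _ hprim.pow_eq_one)] at h1
    have h2 : (ξ ^ p ^ 2) ^ (a - 1) = 1 := by
      have h3 : (ξ ^ p ^ 2) ^ (a - 1) * (ξ ^ p ^ 2) = 1 * (ξ ^ p ^ 2) := by
        rw [← pow_succ, Nat.sub_add_cancel ha1.le, h1, one_mul]
      exact mul_right_cancel₀ (hprim.ne_zero (pow_pos hp.pos n).ne') h3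
    exact (hprim.pow_eq_one_iff_dvd _).1 h2
  have hd1 : ¬ p ^ (n + 1) ∣ a - 1 := by
    rintro ⟨c, hc⟩
    apply hmove
    rw [ha ζ₀ (hsub1 ζ₀ hζ₀)]
    have : a = (a - 1) + 1 := (Nat.sub_add_cancel ha1.le).symm
    rw [this, pow_succ, hc, pow_mul, hζ₀, one_pow, one_mul]
  -- valuation
  have hpa : ¬ p ∣ a := by
    intro hpa
    have h1 : p ∣ a - 1 := (dvd_pow_self p (by omega : n ≠ 0)).trans hd0
    have h2 : p ∣ 1 := by
      have := (Nat.dvd_sub hpa h1)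
      rwa [Nat.sub_sub_self ha1.le] at this
    exact hp.one_lt.ne' (Nat.dvd_one.1 h2)
  have hodd : Odd p := hp.odd_of_ne_two hp2
  have hval : padicValNat p (a ^ p - 1 ^ p) = padicValNat p (a - 1) + padicValNat p p :=
    padicValNat.pow_sub_pow hodd ha1 ((dvd_pow_self p (by omega : n ≠ 0)).trans hd0) hpa hp.ne_zero
  rw [one_pow, padicValNat_self] at hval
  have ha1ne : a - 1 ≠ 0 := by omega
  have hv : padicValNat p (a - 1) = n := by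
    apply le_antisymm
    · by_contra hlt
      exact hd1 ((padicValNat_dvd_iff_le ha1ne).2 (not_le.1 hlt))
    · exact (padicValNat_dvd_iff_le ha1ne).1 hd0
  have hapne : a ^ p - 1 ≠ 0 := by
    have : 1 < a ^ p := Nat.one_lt_pow hp.ne_zero ha1
    omega
  have hap1 : 1 ≤ a ^ p := Nat.one_le_pow _ _ (by omega)
  have hD1 : p ^ (n + 1) ∣ a ^ p - 1 := (padicValNat_dvd_iff_le hapne).2 (by omega)
  have hD2 : ¬ p ^ (n + 2) ∣ a ^ p - 1 := fun h => by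
    have := (padicValNat_dvd_iff_le hapne).1 h
    omega
  have hgp := cyclo_pow_apply ha p
  refine ⟨g ^ p, H.pow_mem hgH p, ?_, ξ, hξ.pow_eq_one, ?_⟩
  · intro ζ hζ
    rw [hgp ζ (hsub1 ζ hζ)]
    obtain ⟨c, hc⟩ := hD1
    have : a ^ p = (a ^ p - 1) + 1 := (Nat.sub_add_cancel hap1).symm
    rw [this, pow_succ, hc, pow_mul, hζ, one_pow, one_mul]
  · rw [hgp ξ hξ.pow_eq_one]
    intro heq
    apply hD2
    rw [← hξ.pow_eq_one_iff_dvd]
    have h3 : ξ ^ (a ^ p - 1) * ξ = 1 * ξ := by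
      rw [← pow_succ, Nat.sub_add_cancel hap1, heq, one_mul]
    exact mul_right_cancel₀ (hξ.ne_zero hNpos.ne') h3

theorem cyclo_nrm_one_sub_pow_le (q : ℕ) [Fact q.Prime] {N : ℕ} (hN : N ≠ 0) {ζ : Qbar}
    (hζ : ζ ^ N = 1) (i : ℕ) : nrm q (1 - ζ ^ i) ≤ nrm q (1 - ζ) := by
  have h1 : 1 - ζ ^ i = (∑ j ∈ Finset.range i, ζ ^ j) * (1 - ζ) := by
    have := geom_sum_mul ζ i
    linear_combination this
  rw [h1, nrm_mul]
  have h2 : nrm q (∑ j ∈ Finset.range i, ζ ^ j) ≤ 1 := by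
    apply nrm_sum_le q _ _ 1 zero_le_one
    intro j _
    rw [nrm_pow, nrm_eq_one_of_pow_eq_one q hN hζ, one_pow]
  exact mul_le_of_le_one_left (nrm_nonneg q _) h2

theorem cyclo_nrm_one_sub_eq (q : ℕ) [Fact q.Prime] {N : ℕ} (hN : N ≠ 0) {ζ μ : Qbar}
    (hζ : IsPrimitiveRoot ζ N) (hμ : IsPrimitiveRoot μ N) : nrm q (1 - μ) = nrm q (1 - ζ) := by
  have : NeZero N := ⟨hN⟩
  apply le_antisymm
  · obtain ⟨i, -, rfl⟩ := hζ.eq_pow_of_pow_eq_one hμ.pow_eq_one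
    exact cyclo_nrm_one_sub_pow_le q hN hζ.pow_eq_one i
  · obtain ⟨i, -, rfl⟩ := hμ.eq_pow_of_pow_eq_one hζ.pow_eq_one
    exact cyclo_nrm_one_sub_pow_le q hN hμ.pow_eq_one i

theorem nrm_one_sub_zeta {p : ℕ} [Fact p.Prime] {n : ℕ} {ζ : Qbar}
    (hζ : IsPrimitiveRoot ζ (p ^ (n + 1))) :
    nrm p (1 - ζ) ^ (p ^ n * (p - 1)) = (p : ℝ)⁻¹ := by
  have hp : p.Prime := Fact.out
  have hN : p ^ (n + 1) ≠ 0 := (pow_pos hp.pos _).ne'
  have hcyc := Polynomial.cyclotomic_eq_prod_X_sub_primitiveRoots hζ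
  have h1 := congrArg (Polynomial.eval 1) hcyc
  rw [Polynomial.eval_one_cyclotomic_prime_pow, Polynomial.eval_prod] at h1
  simp only [Polynomial.eval_sub, Polynomial.eval_X, Polynomial.eval_C] at h1
  have h2 := congrArg (nrm p) h1
  rw [nrm_natCast_self, nrm_prod] at h2
  rw [h2, Finset.prod_congr rfl (fun μ hμ => cyclo_nrm_one_sub_eq p hN hζ
    ((mem_primitiveRoots (pow_pos hp.pos _)).1 hμ)), Finset.prod_const, hζ.card_primitiveRoots,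
    Nat.totient_prime_pow_succ hp]

theorem cyclo_mem_fixingSubgroup_adjoin {x : Qbar} {g : GQ} (h : g x = x) :
    g ∈ (ℚ⟮x⟯ : NF).fixingSubgroup := by
  have h1 : Subgroup.zpowers g ≤ (ℚ⟮x⟯ : NF).fixingSubgroup := by
    rw [← IntermediateField.le_iff_le, IntermediateField.adjoin_simple_le_iff,
      IntermediateField.mem_fixedField_iff]
    rintro f ⟨k, rfl⟩
    have hstab : g ∈ MulAction.stabilizer GQ x := h
    exact (MulAction.stabilizer GQ x).zpow_mem hstab k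
  exact h1 (Subgroup.mem_zpowers g)

theorem cyclo_finiteDimensional_adjoin (x : Qbar) : FiniteDimensional ℚ (ℚ⟮x⟯ : NF) := by
  have h1 := isAlgClosureQbar
  have halg : Algebra.IsAlgebraic ℚ Qbar := IsAlgClosure.isAlgebraic
  exact IntermediateField.adjoin.finiteDimensional (halg.isAlgebraic x).isIntegral

theorem cyclo_totient_dvd_index {p : ℕ} [Fact p.Prime] {W : Subgroup GQ} (hW : IsOpenIn (Dq p) W)
    {j : ℕ} {ζ : Qbar} (hζ : IsPrimitiveRoot ζ (p ^ (j + 1))) (hmem : ζ ∈ Fix W) :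
    p ^ j * (p - 1) ∣ (W.subgroupOf (Dq p)).index := by
  have hp : p.Prime := Fact.out
  have hx : (1 - ζ) ∈ Fix W := (Fix W).sub_mem (Fix W).one_mem hmem
  have h0 : (1 - ζ) ≠ 0 := by
    intro h
    have h1 : ζ = 1 := (sub_eq_zero.1 h).symm
    have h2 := hζ.eq_orderOf
    rw [h1, orderOf_one] at h2
    have : 1 < p ^ (j + 1) := Nat.one_lt_pow (by omega) hp.one_lt
    omega
  obtain ⟨k, hk⟩ := nrm_pow_index hW hx h0
  have h1 := nrm_one_sub_zeta hζ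
  set r := nrm p (1 - ζ)
  set φ := p ^ j * (p - 1)
  set idx := (W.subgroupOf (Dq p)).index
  have h2 : ((p : ℝ) ^ k) ^ φ = ((p : ℝ)⁻¹) ^ idx := by
    rw [← hk, ← h1, ← pow_mul, ← pow_mul, mul_comm]
  have h3 : (p : ℝ) ^ (k * (φ : ℤ)) = (p : ℝ) ^ (-(idx : ℤ)) := by
    rw [zpow_mul, zpow_natCast, h2, zpow_neg, zpow_natCast, inv_pow]
  have hp1 : (1 : ℝ) < p := by exact_mod_cast hp.one_lt
  have h4 : k * (φ : ℤ) = -(idx : ℤ) :=
    zpow_right_injective₀ (by linarith) hp1.ne' h3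
  have h5 : (φ : ℤ) ∣ (idx : ℤ) := ⟨-k, by linarith⟩
  exact_mod_cast h5

theorem exists_mem_Dq_map_zeta {p : ℕ} [Fact p.Prime] {n : ℕ} {a : ℕ} (ha : Nat.Coprime a p) :
    ∃ g ∈ Dq p, ∀ ζ : Qbar, ζ ^ (p ^ n) = 1 → g ζ = ζ ^ a := by
  have hp : p.Prime := Fact.out
  cases n with
  | zero =>
    refine ⟨1, (Dq p).one_mem, fun ζ hζ => ?_⟩
    rw [pow_zero, pow_one] at hζ
    rw [hζ, one_pow, map_one]
  | succ m =>
    have hNpos : 0 < p ^ (m + 1) := pow_pos hp.pos _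
    have : NeZero (p ^ (m + 1)) := ⟨hNpos.ne'⟩
    obtain ⟨ζ₀, hζ₀⟩ := cyclo_exists_primitiveRoot (p ^ (m + 1))
    have hfd := cyclo_finiteDimensional_adjoin ζ₀
    set W : Subgroup GQ := Dq p ⊓ (ℚ⟮ζ₀⟯ : NF).fixingSubgroup with hWdef
    have hW : IsOpenIn (Dq p) W := isOpenIn_inf_fixingSubgroup (Dq p) _
    have hmem : ζ₀ ∈ Fix W := by
      rw [IntermediateField.mem_fixedField_iff]
      intro f hf
      exact (IntermediateField.mem_fixingSubgroup_iff _ _).1 hf.2 ζ₀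
        (IntermediateField.mem_adjoin_simple_self ℚ ζ₀)
    have hdvd := cyclo_totient_dvd_index hW hζ₀ hmem
    have hidx : (W.subgroupOf (Dq p)).index ≠ 0 := hW.finiteIndex
    have hle : p ^ m * (p - 1) ≤ (W.subgroupOf (Dq p)).index :=
      Nat.le_of_dvd (Nat.pos_of_ne_zero hidx) hdvd
    -- stabiliser
    have hstab : MulAction.stabilizer (Dq p) ζ₀ = W.subgroupOf (Dq p) := by
      ext g
      rw [MulAction.mem_stabilizer_iff, Subgroup.mem_subgroupOf]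
      constructor
      · intro h
        exact ⟨g.2, cyclo_mem_fixingSubgroup_adjoin h⟩
      · intro h
        exact (IntermediateField.mem_fixingSubgroup_iff _ _).1 h.2 ζ₀
          (IntermediateField.mem_adjoin_simple_self ℚ ζ₀)
    have horb : (MulAction.orbit (Dq p) ζ₀).ncard = (W.subgroupOf (Dq p)).index := by
      rw [← hstab, MulAction.index_stabilizer]
    have hsub : MulAction.orbit (Dq p) ζ₀ ⊆ (↑(primitiveRoots (p ^ (m + 1)) Qbar) : Set Qbar) := by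
      rintro _ ⟨g, rfl⟩
      rw [Finset.mem_coe, mem_primitiveRoots hNpos]
      exact hζ₀.map_of_injective (f := ((g : GQ) : Qbar →ₐ[ℚ] Qbar)) (g : GQ).injective
    have hcard : (↑(primitiveRoots (p ^ (m + 1)) Qbar) : Set Qbar).ncard = p ^ m * (p - 1) := by
      rw [Set.ncard_coe_finset, hζ₀.card_primitiveRoots, Nat.totient_prime_pow_succ hp]
    have heq : MulAction.orbit (Dq p) ζ₀ = (↑(primitiveRoots (p ^ (m + 1)) Qbar) : Set Qbar) :=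
      Set.eq_of_subset_of_ncard_le hsub (by rw [hcard, horb]; exact hle) (Finset.finite_toSet _)
    have hprim : IsPrimitiveRoot (ζ₀ ^ a) (p ^ (m + 1)) :=
      hζ₀.pow_of_coprime a (Nat.Coprime.pow_right _ ha)
    have hin : ζ₀ ^ a ∈ MulAction.orbit (Dq p) ζ₀ := by
      rw [heq, Finset.mem_coe, mem_primitiveRoots hNpos]; exact hprim
    obtain ⟨g, hg⟩ := hin
    refine ⟨g, g.2, fun ζ hζ => ?_⟩
    obtain ⟨i, -, rfl⟩ := hζ₀.eq_pow_of_pow_eq_one hζ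
    have hg' : (g : GQ) ζ₀ = ζ₀ ^ a := hg
    rw [map_pow, hg', ← pow_mul, ← pow_mul, mul_comm]

variable {q : ℕ} [Fact q.Prime]

theorem cyclo_pow_eq_one_of_orderOf {p : ℕ} (_hp : p.Prime) {ζ : Qbar} {i n : ℕ}
    (h : orderOf ζ = p ^ i) (hin : i ≤ n) : ζ ^ (p ^ n) = 1 := by
  rw [← orderOf_dvd_iff_pow_eq_one, h]
  exact pow_dvd_pow p hin

theorem exists_bound_ppow_roots {W : Subgroup GQ} (hW : IsOpenIn (Dq q) W) {p : ℕ}
    (hp : p.Prime) :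
    ∃ n : ℕ, ∀ ζ ∈ Fix W, ∀ k : ℕ, ζ ^ (p ^ k) = 1 → ζ ^ (p ^ n) = 1 := by
  have hidx : (W.subgroupOf (Dq q)).index ≠ 0 := hW.finiteIndex
  by_cases hqp : q = p
  · subst hqp
    refine ⟨(W.subgroupOf (Dq q)).index, fun ζ hζ k hk => ?_⟩
    obtain ⟨i, -, hi⟩ := (Nat.dvd_prime_pow hp).1 (orderOf_dvd_of_pow_eq_one hk)
    cases i with
    | zero => exact cyclo_pow_eq_one_of_orderOf hp hi (Nat.zero_le _)
    | succ j =>
      have hprim : IsPrimitiveRoot ζ (q ^ (j + 1)) := hi ▸ IsPrimitiveRoot.orderOf ζ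
      have hdvd := cyclo_totient_dvd_index hW hprim hζ
      have hle := Nat.le_of_dvd (Nat.pos_of_ne_zero hidx) hdvd
      have h1 : q ^ j ≤ q ^ j * (q - 1) := Nat.le_mul_of_pos_right _ (by have := hp.two_le; omega)
      have h2 : j < q ^ j := Nat.lt_pow_self hp.one_lt
      exact cyclo_pow_eq_one_of_orderOf hp hi (by omega)
  · obtain ⟨φ, hφ⟩ := exists_isFrob q
    obtain ⟨e, he0, -, heW⟩ := Subgroup.exists_pow_mem_of_index_ne_zero hidx ⟨φ, hφ.1⟩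
    have heW' : φ ^ e ∈ W := by
      have := Subgroup.mem_subgroupOf.1 heW
      simpa using this
    refine ⟨q ^ e, fun ζ hζ k hk => ?_⟩
    have hq : q.Prime := Fact.out
    have hcop : Nat.Coprime (p ^ k) q :=
      Nat.Coprime.pow_left _ ((Nat.coprime_primes hp hq).2 (Ne.symm hqp))
    have h1 : (φ ^ e) ζ = ζ ^ (q ^ e) :=
      cyclo_pow_apply (N := p ^ k) (a := q) (fun ζ' hζ' => hφ.map_root hcop hζ') e ζ hk
    have h2 : (φ ^ e) ζ = ζ := (IntermediateField.mem_fixedField_iff _ _).1 hζ _ heW'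
    have hζ0 : ζ ≠ 0 := by
      rintro rfl
      rw [zero_pow (pow_pos hp.pos k).ne'] at hk
      exact zero_ne_one hk
    have hqe : 1 ≤ q ^ e := Nat.one_le_pow _ _ hq.pos
    have h3 : ζ ^ (q ^ e - 1) = 1 := by
      have h4 : ζ ^ (q ^ e - 1) * ζ = 1 * ζ := by
        rw [← pow_succ, Nat.sub_add_cancel hqe, ← h1, h2, one_mul]
      exact mul_right_cancel₀ hζ0 h4
    obtain ⟨i, -, hi⟩ := (Nat.dvd_prime_pow hp).1 (orderOf_dvd_of_pow_eq_one hk)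
    have h5 : p ^ i ∣ q ^ e - 1 := hi ▸ orderOf_dvd_of_pow_eq_one h3
    have hpos : 0 < q ^ e - 1 := by
      have : 1 < q ^ e := Nat.one_lt_pow he0.ne' hq.one_lt
      omega
    have h6 := Nat.le_of_dvd hpos h5
    have h7 : i < p ^ i := Nat.lt_pow_self hp.one_lt
    exact cyclo_pow_eq_one_of_orderOf hp hi (by omega)

theorem exists_nonsplit_level {W : Subgroup GQ} (hW : IsOpenIn (Dq q) W) {p : ℕ} (hp : p.Prime)
    (hp2 : p ≠ 2) :
    ∃ n₀ : ℕ, ∀ n : ℕ, n₀ ≤ n → ∃ g ∈ W, (∀ ζ : Qbar, ζ ^ (p ^ n) = 1 → g ζ = ζ) ∧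
      ∃ ζ : Qbar, ζ ^ (p ^ (n + 1)) = 1 ∧ g ζ ≠ ζ := by
  -- the property at level n
  set P : ℕ → Prop := fun n => ∃ g ∈ W, (∀ ζ : Qbar, ζ ^ (p ^ n) = 1 → g ζ = ζ) ∧
      ∃ ζ : Qbar, ζ ^ (p ^ (n + 1)) = 1 ∧ g ζ ≠ ζ with hP
  have hstep : ∀ n, 1 ≤ n → P n → P (n + 1) := fun n hn h => tower_step W hp hp2 hn h
  suffices hex : ∃ n₀, 1 ≤ n₀ ∧ P n₀ by
    obtain ⟨n₀, h1, h0⟩ := hex
    refine ⟨n₀, fun n hn => ?_⟩
    induction n, hn using Nat.le_induction with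
    | base => exact h0
    | succ n hn ih => exact hstep n (h1.trans hn) ih
  by_contra hno
  have hno' : ∀ n, 1 ≤ n → ∀ g ∈ W, (∀ ζ : Qbar, ζ ^ (p ^ n) = 1 → g ζ = ζ) →
      ∀ ζ : Qbar, ζ ^ (p ^ (n + 1)) = 1 → g ζ = ζ := by
    intro n hn g hg hfix ζ hζ
    by_contra hne
    exact hno ⟨n, hn, g, hg, hfix, ζ, hζ, hne⟩
  have hall : ∀ n, 1 ≤ n → ∀ g ∈ W, (∀ ζ : Qbar, ζ ^ (p ^ 1) = 1 → g ζ = ζ) →
      ∀ ζ : Qbar, ζ ^ (p ^ n) = 1 → g ζ = ζ := by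
    intro n hn
    induction n, hn using Nat.le_induction with
    | base => intro g _ h; exact h
    | succ n hn ih => intro g hg h; exact hno' n hn g hg (ih g hg h)
  have hp1pos : 0 < p ^ 1 := pow_pos hp.pos 1
  have : NeZero (p ^ 1) := ⟨hp1pos.ne'⟩
  obtain ⟨ξ₁, hξ₁⟩ := cyclo_exists_primitiveRoot (p ^ 1)
  have hfd := cyclo_finiteDimensional_adjoin ξ₁
  have hW1 : IsOpenIn (Dq q) (W ⊓ (Dq q ⊓ (ℚ⟮ξ₁⟯ : NF).fixingSubgroup)) :=
    hW.inf (isOpenIn_inf_fixingSubgroup (Dq q) _)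
  obtain ⟨N, hN⟩ := exists_bound_ppow_roots hW1 hp
  have hNpos : 0 < p ^ (N + 1) := pow_pos hp.pos _
  have : NeZero (p ^ (N + 1)) := ⟨hNpos.ne'⟩
  obtain ⟨ξ, hξ⟩ := cyclo_exists_primitiveRoot (p ^ (N + 1))
  have hmem : ξ ∈ Fix (W ⊓ (Dq q ⊓ (ℚ⟮ξ₁⟯ : NF).fixingSubgroup)) := by
    rw [IntermediateField.mem_fixedField_iff]
    intro g hg
    apply hall (N + 1) (by omega) g hg.1 _ ξ hξ.pow_eq_one
    intro ζ hζ
    obtain ⟨i, -, rfl⟩ := hξ₁.eq_pow_of_pow_eq_one hζ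
    have h1 : g ξ₁ = ξ₁ := (IntermediateField.mem_fixingSubgroup_iff _ _).1 hg.2.2 ξ₁
      (IntermediateField.mem_adjoin_simple_self ℚ ξ₁)
    rw [map_pow, h1]
  have h1 := hN ξ hmem (N + 1) hξ.pow_eq_one
  have h2 := (hξ.pow_eq_one_iff_dvd _).1 h1
  have h3 := Nat.le_of_dvd (pow_pos hp.pos N) h2
  have h4 : p ^ N < p ^ (N + 1) := Nat.pow_lt_pow_right hp.one_lt (by omega)
  omega

end

end Fermat.Agent.S55.Places
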