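import Fermat.Agent.S55.Places.Norm

/-! # S55 (P), task P-Transitive (= P1): all places of `Qbar` over `q` are conjugate to the standard
one; conjugation of decomposition / inertia groups.
Tools: `Fermat.Agent.S54` (`exists_fraction`: `A` is the localisation of `Zbar` at `zbarCenter A`,
`zbar_isInvariant`, `zbar_continuousSMul`, Mathlib `Ideal.exists_smul_eq_of_under_eq_of_profinite`-type lemma). -/

set_option autoImplicit false

open scoped Pointwise

namespace Fermat.Agent.S55.Places

noncomputable section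

open Fermat.Agent.S54 (Zbar zbarCenter mem_zbarCenter exists_fraction mem_of_isIntegral)

attribute [local instance] isAlgClosureQbar Fermat.Agent.S54.zbarAction Fermat.Agent.S54.zbarTop
  Fermat.Agent.S54.zbar_discrete Fermat.Agent.S54.zbar_continuousSMul
  Fermat.Agent.S54.zbar_isInvariant

/-! ### auxiliary lemmas -/

theorem transitive_mem_nonunits_smul_iff (A : ValuationSubring Qbar) (g : GQ) (x : Qbar) :
    x ∈ (g • A).nonunits ↔ g⁻¹ x ∈ A.nonunits := by
  rw [ValuationSubring.mem_nonunits_iff_or, ValuationSubring.mem_nonunits_iff_or,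
    ValuationSubring.mem_pointwise_smul_iff_inv_smul_mem, AlgEquiv.smul_def, map_inv₀]
  simp

theorem transitive_mem_smul_iff (A : ValuationSubring Qbar) (g : GQ) (x : Qbar) :
    x ∈ g • A ↔ g⁻¹ x ∈ A := by
  rw [ValuationSubring.mem_pointwise_smul_iff_inv_smul_mem, AlgEquiv.smul_def]

/-- a valuation subring of `Qbar` is determined by (even monotone in) its centre on `Zbar` -/
theorem transitive_le_of_center_le (A B : ValuationSubring Qbar)
    (h : zbarCenter B ≤ zbarCenter A) : A ≤ B := by
  intro x hx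
  obtain ⟨b, s, hs, hxs⟩ := exists_fraction A x hx
  have hs' : (s : Qbar) ∉ B.nonunits := by
    intro hc
    exact hs ((mem_zbarCenter A s).1 (h ((mem_zbarCenter B s).2 hc)))
  rw [ValuationSubring.mem_nonunits_iff_or, not_or, not_not] at hs'
  have h3 : x = b * (s : Qbar)⁻¹ := by
    rw [← hxs, mul_assoc, mul_inv_cancel₀ hs'.1, mul_one]
  rw [h3]
  exact B.mul_mem _ _ (mem_of_isIntegral B b.2) hs'.2

theorem transitive_eq_of_center_eq (A B : ValuationSubring Qbar)
    (h : zbarCenter A = zbarCenter B) : A = B :=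
  le_antisymm (transitive_le_of_center_le A B h.ge) (transitive_le_of_center_le B A h.le)

theorem transitive_center_smul (A : ValuationSubring Qbar) (g : GQ) :
    zbarCenter (g • A) = g • zbarCenter A := by
  ext b
  rw [mem_zbarCenter, transitive_mem_nonunits_smul_iff, Ideal.mem_pointwise_smul_iff_inv_smul_mem,
    mem_zbarCenter]
  rfl

theorem transitive_natCast_mem_center (A : ValuationSubring Qbar) {l : ℕ}
    (h : A.LiesOverPrime l) : (l : Zbar) ∈ zbarCenter A := by
  rw [mem_zbarCenter]
  have h' : (l : Qbar) ∈ A.nonunits := h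
  simpa using h'

theorem transitive_center_under (A : ValuationSubring Qbar) {l : ℕ} (hl : l.Prime)
    (h : A.LiesOverPrime l) : (zbarCenter A).under ℤ = Ideal.span {(l : ℤ)} := by
  have : Fact l.Prime := ⟨hl⟩
  have hPmax : (Ideal.span {(l : ℤ)}).IsMaximal := Int.ideal_span_isMaximal_of_prime l
  refine (hPmax.eq_of_le ?_ ?_).symm
  · exact (Ideal.IsPrime.under ℤ (zbarCenter A)).ne_top
  · rw [Ideal.span_le]
    rintro _ rfl
    simpa using transitive_natCast_mem_center A h

theorem transitive_center_isMaximal (A : ValuationSubring Qbar) {l : ℕ} (hl : l.Prime)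
    (h : A.LiesOverPrime l) : (zbarCenter A).IsMaximal := by
  have : Fact l.Prime := ⟨hl⟩
  have hPmax : (Ideal.span {(l : ℤ)}).IsMaximal := Int.ideal_span_isMaximal_of_prime l
  have hover : (zbarCenter A).LiesOver (Ideal.span {(l : ℤ)}) :=
    ⟨(transitive_center_under A hl h).symm⟩
  exact Ideal.IsMaximal.of_liesOver_isMaximal (zbarCenter A) (Ideal.span {(l : ℤ)})

/-- every proper valuation subring of `Qbar` lies over a prime -/
theorem exists_prime_liesOver (A : ValuationSubring Qbar) (hA : A ≠ ⊤) :
    ∃ l : ℕ, l.Prime ∧ A.LiesOverPrime l := by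
  let I : Ideal ℤ := (IsLocalRing.maximalIdeal A).comap (algebraMap ℤ A)
  have hIp : I.IsPrime := Ideal.comap_isPrime _ _
  have hmem : ∀ n : ℤ, n ∈ I ↔ (n : Qbar) ∈ A.nonunits := by
    intro n
    show algebraMap ℤ A n ∈ IsLocalRing.maximalIdeal A ↔ _
    rw [← ValuationSubring.coe_mem_nonunits_iff]
    simp
  by_cases hI : I = ⊥
  · exfalso
    apply hA
    rw [eq_top_iff]
    intro x _
    -- every rational number lies in `A`
    have hQ : ∀ r : ℚ, algebraMap ℚ Qbar r ∈ A := by
      intro r
      have hden : ((r.den : ℤ) : Qbar) ∉ A.nonunits := by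
        rw [← hmem, hI, Ideal.mem_bot]
        exact_mod_cast r.den_nz
      rw [ValuationSubring.mem_nonunits_iff_or, not_or, not_not] at hden
      have : algebraMap ℚ Qbar r = (r.num : Qbar) * (((r.den : ℤ) : Qbar))⁻¹ := by
        conv_lhs => rw [← Rat.num_div_den r]
        simp [div_eq_mul_inv]
      rw [this]
      exact A.mul_mem _ _ (by simp) hden.2
    have hx : IsIntegral ℚ x := Algebra.IsIntegral.isIntegral x
    obtain ⟨p, hp, hpx⟩ := hx
    have h1 : IsIntegral A x := by
      let f : ℚ →+* A := (algebraMap ℚ Qbar).codRestrict A.toSubring hQ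
      refine ⟨p.map f, hp.map f, ?_⟩
      rw [Polynomial.eval₂_map]
      have : (algebraMap A Qbar).comp f = algebraMap ℚ Qbar := by
        ext r
        rfl
      rw [this]
      exact hpx
    obtain ⟨y, hy⟩ := IsIntegrallyClosed.isIntegral_iff.mp h1
    rw [← hy]
    exact y.2
  · obtain ⟨d, hd⟩ := (IsPrincipalIdealRing.principal I).principal
    have hd' : I = Ideal.span {d} := hd
    have hd0 : d ≠ 0 := by
      rintro rfl
      apply hI
      rw [hd']
      simp
    have hdp : Prime d := by
      rw [← Ideal.span_singleton_prime hd0, ← hd']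
      exact hIp
    refine ⟨d.natAbs, Int.prime_iff_natAbs_prime.1 hdp, ?_⟩
    show ((d.natAbs : ℕ) : Qbar) ∈ A.nonunits
    have h2 : ((d.natAbs : ℕ) : ℤ) ∈ I := by
      rw [hd', Ideal.mem_span_singleton]
      exact Int.dvd_natAbs_self
    have := (hmem _).1 h2
    simpa using this

theorem liesOver_unique (A : ValuationSubring Qbar) {l l' : ℕ} (hl : l.Prime) (hl' : l'.Prime)
    (h : A.LiesOverPrime l) (h' : A.LiesOverPrime l') : l = l' := by
  have h1 := transitive_center_under A hl h
  have h2 := transitive_center_under A hl' h'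
  rw [h1, Ideal.span_singleton_eq_span_singleton] at h2
  have h3 : (l : ℤ).natAbs = (l' : ℤ).natAbs := Int.associated_iff_natAbs.1 h2
  simpa using h3

theorem liesOver_smul (A : ValuationSubring Qbar) (g : GQ) {l : ℕ} (h : A.LiesOverPrime l) :
    (g • A).LiesOverPrime l := by
  show (l : Qbar) ∈ (g • A).nonunits
  rw [transitive_mem_nonunits_smul_iff, map_natCast]
  exact h

/-- two valuation subrings over the same prime with `A ≤ B` are equal (rank one) -/
theorem eq_of_le_of_liesOver (A B : ValuationSubring Qbar) {l : ℕ} (hl : l.Prime)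
    (hA : A.LiesOverPrime l) (hB : B.LiesOverPrime l) (h : A ≤ B) : A = B := by
  apply transitive_eq_of_center_eq
  have hle : zbarCenter B ≤ zbarCenter A := by
    intro b hb
    rw [mem_zbarCenter] at hb ⊢
    exact (ValuationSubring.nonunits_le_nonunits.2 h) hb
  exact ((transitive_center_isMaximal B hl hB).eq_of_le
    (Fermat.Agent.S54.zbarCenter_isPrime A).ne_top hle).symm

variable (q : ℕ) [Fact q.Prime]

/-- P1 over `ℚ` -/
theorem exists_smul_padicPlace_eq (A : ValuationSubring Qbar) (hA : A.LiesOverPrime q) :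
    ∃ g : GQ, g • padicPlace q = A := by
  have hq : q.Prime := Fact.out
  obtain ⟨g, hg⟩ := Algebra.IsInvariant.exists_smul_of_under_eq_of_profinite (A := ℤ) (G := GQ)
    (zbarCenter (padicPlace q)) (zbarCenter A)
    ((transitive_center_under _ hq (padicPlace_liesOverPrime q)).trans
      (transitive_center_under A hq hA).symm)
  refine ⟨g, transitive_eq_of_center_eq _ _ ?_⟩
  rw [transitive_center_smul, hg]

theorem mem_smul_padicPlace_iff (g : GQ) (x : Qbar) :
    x ∈ g • padicPlace q ↔ nrm q (g⁻¹ x) ≤ 1 := by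
  rw [transitive_mem_smul_iff, mem_padicPlace_iff_nrm]

/-- P1 over a subfield `K`: places of `Qbar` with the same restriction to `K` are conjugate
under `Gal(Qbar/K)`. -/
theorem exists_smul_eq_of_restrict_eq (K : NF) (A B : ValuationSubring Qbar)
    (hA : A ≠ ⊤) (h : ∀ x ∈ K, x ∈ A ↔ x ∈ B) : ∃ g ∈ K.fixingSubgroup, g • A = B := by
  let G : Subgroup GQ := K.fixingSubgroup
  have hclosed : IsClosed (G : Set GQ) := InfiniteGalois.fixingSubgroup_isClosed K
  have : CompactSpace G := isCompact_iff_compactSpace.1 hclosed.isCompact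
  let R : Subalgebra ℤ Zbar := FixedPoints.subalgebra ℤ Zbar G
  have hcomm : SMulCommClass G R Zbar := ⟨fun g a b => by
    show g • ((a : Zbar) * b) = (a : Zbar) * g • b
    rw [smul_mul', a.2 g]⟩
  have hinv : Algebra.IsInvariant R Zbar G := ⟨fun b hb => ⟨⟨b, hb⟩, rfl⟩⟩
  have hcont : ContinuousSMul G Zbar := by
    refine ⟨?_⟩
    have h1 : Continuous fun p : GQ × Zbar => p.1 • p.2 := continuous_smul
    exact h1.comp ((continuous_subtype_val.comp continuous_fst).prodMk continuous_snd)
  have hunder : (zbarCenter A).under R = (zbarCenter B).under R := by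
    ext a
    rw [Ideal.mem_comap, Ideal.mem_comap]
    show (a : Zbar) ∈ zbarCenter A ↔ (a : Zbar) ∈ zbarCenter B
    rw [mem_zbarCenter, mem_zbarCenter, ValuationSubring.mem_nonunits_iff_or,
      ValuationSubring.mem_nonunits_iff_or]
    have haK : (((a : Zbar) : Qbar)) ∈ K := by
      have h1 : IntermediateField.fixedField K.fixingSubgroup = K :=
        InfiniteGalois.fixedField_fixingSubgroup K
      rw [← h1, IntermediateField.mem_fixedField_iff]
      intro g hg
      exact congrArg Subtype.val (a.2 ⟨g, hg⟩)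
    rw [h _ (K.inv_mem haK)]
  obtain ⟨g, hg⟩ := Algebra.IsInvariant.exists_smul_of_under_eq_of_profinite (A := R) (G := G)
    (zbarCenter A) (zbarCenter B) hunder
  refine ⟨g.1, g.2, transitive_eq_of_center_eq _ _ ?_⟩
  rw [transitive_center_smul, hg]
  rfl

theorem mem_decomposition_smul_iff (A : ValuationSubring Qbar) (g h : GQ) :
    h ∈ (g • A).decompositionSubgroup ℚ ↔ g⁻¹ * h * g ∈ A.decompositionSubgroup ℚ := by
  unfold ValuationSubring.decompositionSubgroup
  rw [MulAction.mem_stabilizer_iff, MulAction.mem_stabilizer_iff, mul_smul, mul_smul,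
    inv_smul_eq_iff]

/-- inertia group of an arbitrary place, elementwise -/
theorem transitive_mem_inertia_iff (A : ValuationSubring Qbar) (g : GQ) :
    g ∈ A.inertiaSubgroupIn ℚ ↔
      g ∈ A.decompositionSubgroup ℚ ∧ ∀ x ∈ A, g x - x ∈ A.nonunits := by
  unfold ValuationSubring.inertiaSubgroupIn
  rw [Subgroup.mem_map]
  constructor
  · rintro ⟨⟨g', hg'⟩, hker, rfl⟩
    refine ⟨hg', fun x hxA => ?_⟩
    rw [ValuationSubring.inertiaSubgroup, MonoidHom.mem_ker] at hker
    have h1 := congrArg (fun e : RingAut _ => e (IsLocalRing.residue A ⟨x, hxA⟩)) hker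
    simp only [MulSemiringAction.toRingAut_apply, RingAut.one_apply] at h1
    have h2 : (⟨g', hg'⟩ : A.decompositionSubgroup ℚ) •
        IsLocalRing.residue A ⟨x, hxA⟩ = IsLocalRing.residue A ⟨x, hxA⟩ := h1
    rw [← IsLocalRing.ResidueField.residue_smul, ← sub_eq_zero, ← map_sub,
      IsLocalRing.residue_eq_zero_iff, ← ValuationSubring.coe_mem_nonunits_iff] at h2
    exact h2
  · rintro ⟨hg, h⟩
    refine ⟨⟨g, hg⟩, ?_, rfl⟩
    rw [ValuationSubring.inertiaSubgroup, MonoidHom.mem_ker]
    ext y
    obtain ⟨⟨x, hxA⟩, rfl⟩ := IsLocalRing.residue_surjective y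
    show (⟨g, hg⟩ : A.decompositionSubgroup ℚ) •
        IsLocalRing.residue A ⟨x, hxA⟩ = IsLocalRing.residue A ⟨x, hxA⟩
    rw [← IsLocalRing.ResidueField.residue_smul, ← sub_eq_zero, ← map_sub,
      IsLocalRing.residue_eq_zero_iff, ← ValuationSubring.coe_mem_nonunits_iff]
    exact h x hxA

theorem mem_inertia_smul_iff (A : ValuationSubring Qbar) (g h : GQ) :
    h ∈ (g • A).inertiaSubgroupIn ℚ ↔ g⁻¹ * h * g ∈ A.inertiaSubgroupIn ℚ := by
  rw [transitive_mem_inertia_iff, transitive_mem_inertia_iff, mem_decomposition_smul_iff]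
  refine and_congr_right fun _ => ?_
  constructor
  · intro H x hx
    have h1 := H (g x) (by rw [transitive_mem_smul_iff]; simpa using hx)
    rw [transitive_mem_nonunits_smul_iff, map_sub] at h1
    simpa [AlgEquiv.mul_apply] using h1
  · intro H x hx
    rw [transitive_mem_smul_iff] at hx
    have h1 := H _ hx
    rw [transitive_mem_nonunits_smul_iff, map_sub]
    simpa [AlgEquiv.mul_apply] using h1

/-- reformulation of the Prelude notion: `F` is unramified outside `S` iff all conjugates of the
standard inertia groups `Iq l`, `l ∉ S`, fix `F`. -/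
theorem isUnramifiedOutside_iff (F : NF) (S : Finset Nat.Primes) :
    F.IsUnramifiedOutside S ↔ FiniteDimensional ℚ F ∧
      ∀ l : Nat.Primes, l ∉ S → ∀ (g h : GQ),
        (haveI : Fact (l : ℕ).Prime := ⟨l.2⟩; h ∈ Iq (l : ℕ)) → g * h * g⁻¹ ∈ F.fixingSubgroup := by
  unfold IntermediateField.IsUnramifiedOutside
  refine and_congr_right fun _ => ?_
  constructor
  · intro H l hl g h hh
    have : Fact (l : ℕ).Prime := ⟨l.2⟩
    refine H l hl (g • padicPlace (l : ℕ)) (liesOver_smul _ g (padicPlace_liesOverPrime _)) ?_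
    rw [mem_inertia_smul_iff]
    have : g⁻¹ * (g * h * g⁻¹) * g = h := by group
    rw [this]
    exact hh
  · intro H l hl A hA σ hσ
    have : Fact (l : ℕ).Prime := ⟨l.2⟩
    obtain ⟨g, rfl⟩ := exists_smul_padicPlace_eq (l : ℕ) A hA
    rw [mem_inertia_smul_iff] at hσ
    have h1 := H l hl g _ hσ
    have : g * (g⁻¹ * σ * g) * g⁻¹ = σ := by group
    rwa [this] at h1

end

end Fermat.Agent.S55.Places
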