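import Fermat.Agent.S55.Places.Norm

/-! # S55 (P), task P-Residue (= P14 + Frobenius): action of `Dq` on residue fields, in the language
`x ≡ y  :⇔  nrm q (x - y) < 1` (for `x, y` of `nrm ≤ 1`).
Tools: `Fermat.Agent.S54` (`Zbar`, `zbarAction`, `zbar_isInvariant`, `zbar_continuousSMul`,
`zbarCenter`, `exists_fraction`, `exists_isFrobeniusAt`, `mem_decomposition_of_smul_center_eq`),
Mathlib `Ideal.Quotient.stabilizerHom_surjective_of_profinite`, Galois theory of finite fields. -/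

set_option autoImplicit false

open scoped Pointwise

namespace Fermat.Agent.S55.Places

noncomputable section

variable (q : ℕ) [Fact q.Prime]

/-- `φ` is a Frobenius element at the standard place -/
def IsFrob (φ : GQ) : Prop := φ ∈ Dq q ∧ ∀ x : Qbar, nrm q x ≤ 1 → nrm q (φ x - x ^ q) < 1

/-- the residue field of the standard place -/
abbrev ResidueKq : Type := IsLocalRing.ResidueField (padicPlace q)

/-- residue class of an element of norm `≤ 1` -/
def residueRes (x : Qbar) (hx : nrm q x ≤ 1) : ResidueKq q :=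
  IsLocalRing.residue (padicPlace q) ⟨x, (mem_padicPlace_iff_nrm q).2 hx⟩

theorem residueRes_eq_iff {x y : Qbar} (hx : nrm q x ≤ 1) (hy : nrm q y ≤ 1) :
    residueRes q x hx = residueRes q y hy ↔ nrm q (x - y) < 1 := by
  unfold residueRes
  rw [← sub_eq_zero, ← map_sub, IsLocalRing.residue_eq_zero_iff,
    ← ValuationSubring.coe_mem_nonunits_iff, mem_nonunits_iff_nrm]
  rfl

theorem residueRes_surjective (y : ResidueKq q) :
    ∃ (x : Qbar) (hx : nrm q x ≤ 1), residueRes q x hx = y := by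
  obtain ⟨⟨x, hxA⟩, rfl⟩ := IsLocalRing.residue_surjective y
  exact ⟨x, (mem_padicPlace_iff_nrm q).1 hxA, rfl⟩

theorem residue_nrm_pow_le_one {x : Qbar} (hx : nrm q x ≤ 1) (n : ℕ) : nrm q (x ^ n) ≤ 1 := by
  rw [nrm_pow]
  exact pow_le_one₀ (nrm_nonneg q x) hx

theorem residueRes_pow {x : Qbar} (hx : nrm q x ≤ 1) (n : ℕ) :
    residueRes q (x ^ n) (residue_nrm_pow_le_one q hx n) = residueRes q x hx ^ n := by
  unfold residueRes
  rw [← map_pow]
  rfl

theorem residueRes_smul {g : GQ} (hg : g ∈ Dq q) {x : Qbar} (hx : nrm q x ≤ 1) :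
    (⟨g, hg⟩ : (padicPlace q).decompositionSubgroup ℚ) • residueRes q x hx =
      residueRes q (g x) (by rw [nrm_map_of_mem_Dq q hg]; exact hx) := by
  unfold residueRes
  rw [← IsLocalRing.ResidueField.residue_smul]
  rfl

instance residueKq_charP : CharP (ResidueKq q) q := by
  rw [CharP.charP_iff_prime_eq_zero (Fact.out : q.Prime)]
  have h : ((q : ResidueKq q)) = IsLocalRing.residue (padicPlace q) (q : padicPlace q) := by simp
  rw [h, IsLocalRing.residue_eq_zero_iff, ← ValuationSubring.coe_mem_nonunits_iff]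
  exact padicPlace_liesOverPrime q

/-- from `S54.exists_isFrobeniusAt` -/
theorem exists_isFrob : ∃ φ : GQ, IsFrob q φ := by
  obtain ⟨φ, hφ, h⟩ := Fermat.Agent.S54.exists_isFrobeniusAt q Fact.out (padicPlace q)
    (padicPlace_liesOverPrime q)
  refine ⟨φ, hφ, fun x hx => ?_⟩
  have h1 := h (residueRes q x hx)
  have h2 := residueRes_smul q (g := φ) hφ hx
  rw [h2, ← residueRes_pow, residueRes_eq_iff] at h1
  exact h1

variable {q}

theorem IsFrob.pow {φ : GQ} (h : IsFrob q φ) (k : ℕ) {x : Qbar} (hx : nrm q x ≤ 1) :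
    nrm q ((φ ^ k) x - x ^ (q ^ k)) < 1 := by
  induction k with
  | zero => simp
  | succ k ih =>
    have h1 : (φ ^ (k + 1)) x - x ^ (q ^ (k + 1)) =
        φ ((φ ^ k) x - x ^ (q ^ k)) + (φ (x ^ (q ^ k)) - (x ^ (q ^ k)) ^ q) := by
      rw [pow_succ' φ k, AlgEquiv.mul_apply, map_sub, ← pow_mul, ← pow_succ]
      ring
    rw [h1]
    refine (nrm_add_le_max q _ _).trans_lt (max_lt ?_ ?_)
    · rw [nrm_map_of_mem_Dq q h.1]; exact ih
    · exact h.2 _ (residue_nrm_pow_le_one q hx _)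

/-- Frobenius `x ↦ x^q` is injective on the residue field -/
theorem nrm_sub_lt_one_of_pow {x y : Qbar} (hx : nrm q x ≤ 1) (hy : nrm q y ≤ 1) (k : ℕ)
    (h : nrm q (x ^ (q ^ k) - y ^ (q ^ k)) < 1) : nrm q (x - y) < 1 := by
  rw [← residueRes_eq_iff q (residue_nrm_pow_le_one q hx _) (residue_nrm_pow_le_one q hy _), residueRes_pow q hx,
    residueRes_pow q hy] at h
  rw [← residueRes_eq_iff q hx hy]
  exact iterateFrobenius_inj (ResidueKq q) q k h

theorem nrm_pow_sub_pow_lt_one {x y : Qbar} (hx : nrm q x ≤ 1) (hy : nrm q y ≤ 1) (k : ℕ)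
    (h : nrm q (x - y) < 1) : nrm q (x ^ k - y ^ k) < 1 := by
  rw [← residueRes_eq_iff q hx hy] at h
  rw [← residueRes_eq_iff q (residue_nrm_pow_le_one q hx _) (residue_nrm_pow_le_one q hy _), residueRes_pow q hx,
    residueRes_pow q hy, h]

/-- some positive power of any `φ` fixes a given number field pointwise -/
theorem residue_exists_pow_mem_fixingSubgroup (E : NF) [FiniteDimensional ℚ E] (φ : GQ) :
    ∃ m : ℕ, 0 < m ∧ φ ^ m ∈ E.fixingSubgroup := by
  obtain ⟨i, j, hij, h⟩ := Finite.exists_ne_map_eq_of_infinite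
    (fun i : ℕ => ((φ ^ i : GQ) : Qbar →ₐ[ℚ] Qbar).comp E.val)
  have key : ∀ i j : ℕ, i < j →
      ((φ ^ i : GQ) : Qbar →ₐ[ℚ] Qbar).comp E.val = ((φ ^ j : GQ) : Qbar →ₐ[ℚ] Qbar).comp E.val →
      ∃ m : ℕ, 0 < m ∧ φ ^ m ∈ E.fixingSubgroup := by
    intro i j hij h
    refine ⟨j - i, by omega, ?_⟩
    rw [IntermediateField.mem_fixingSubgroup_iff]
    intro x hx
    have h1 : (φ ^ i) x = (φ ^ j) x := DFunLike.congr_fun h ⟨x, hx⟩
    have h2 : φ ^ j = φ ^ i * φ ^ (j - i) := by rw [← pow_add]; congr 1; omega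
    rw [h2, AlgEquiv.mul_apply] at h1
    exact ((φ ^ i).injective h1).symm
  rcases lt_or_gt_of_ne hij with h' | h'
  · exact key i j h' h
  · exact key j i h' h.symm

variable (q)

/-- the residue field of a number field is finite: there is `f > 0` such that
`x^(q^j) ≡ x` on `E ∩ A_q` iff `f ∣ j`. -/
theorem exists_residue_degree (E : NF) [FiniteDimensional ℚ E] :
    ∃ f : ℕ, 0 < f ∧ ∀ j : ℕ,
      (∀ x ∈ E, nrm q x ≤ 1 → nrm q (x ^ (q ^ j) - x) < 1) ↔ f ∣ j := by
  classical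
  set J : ℕ → Prop := fun j => ∀ x ∈ E, nrm q x ≤ 1 → nrm q (x ^ (q ^ j) - x) < 1 with hJ
  have hadd : ∀ a b, J a → J b → J (a + b) := by
    intro a b ha hb x hxE hx
    have h1 : x ^ (q ^ (a + b)) - x = ((x ^ (q ^ a)) ^ (q ^ b) - x ^ (q ^ b)) + (x ^ (q ^ b) - x) := by
      rw [← pow_mul, ← pow_add]; ring
    rw [h1]
    exact (nrm_add_le_max q _ _).trans_lt (max_lt
      (nrm_pow_sub_pow_lt_one (residue_nrm_pow_le_one q hx _) hx _ (ha x hxE hx)) (hb x hxE hx))
  have hsub : ∀ a b, J (a + b) → J a → J b := by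
    intro a b hab ha x hxE hx
    apply nrm_sub_lt_one_of_pow (residue_nrm_pow_le_one q hx _) hx a
    have h1 : (x ^ (q ^ b)) ^ (q ^ a) - x ^ (q ^ a) =
        (x ^ (q ^ (a + b)) - x) - (x ^ (q ^ a) - x) := by
      rw [← pow_mul, ← pow_add, add_comm b a]; ring
    rw [h1]
    exact (nrm_sub_le_max q _ _).trans_lt (max_lt (hab x hxE hx) (ha x hxE hx))
  have hex : ∃ m : ℕ, 0 < m ∧ J m := by
    obtain ⟨φ, hφ⟩ := exists_isFrob q
    obtain ⟨m, hm, hfix⟩ := residue_exists_pow_mem_fixingSubgroup E φ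
    refine ⟨m, hm, fun x hxE hx => ?_⟩
    have h1 := hφ.pow m hx
    rw [IntermediateField.mem_fixingSubgroup_iff] at hfix
    rw [hfix x hxE, nrm_sub_comm] at h1
    exact h1
  have h0 : J 0 := by
    intro x _ _
    simp
  refine ⟨Nat.find hex, (Nat.find_spec hex).1, fun j => ?_⟩
  set f := Nat.find hex with hf
  have hJf : J f := (Nat.find_spec hex).2
  have hmul : ∀ n, J (f * n) := by
    intro n
    induction n with
    | zero => simpa using h0
    | succ n ih => rw [Nat.mul_succ]; exact hadd _ _ ih hJf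
  constructor
  · intro hj
    have h1 : J (j % f) := by
      apply hsub (f * (j / f)) (j % f) _ (hmul _)
      rw [Nat.div_add_mod]
      exact hj
    by_contra hnd
    have h2 : 0 < j % f := Nat.pos_of_ne_zero (fun h => hnd (Nat.dvd_of_mod_eq_zero h))
    exact Nat.find_min hex (Nat.mod_lt j (Nat.find_spec hex).1) ⟨h2, h1⟩
  · rintro ⟨n, rfl⟩
    exact hmul n

variable {q}

/-- every ring endomorphism of the residue field is a power of Frobenius on the solutions of
`y ^ (q ^ f) = y`. -/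
theorem residue_exists_pow_of_ringHom (γ : ResidueKq q →+* ResidueKq q) {f : ℕ} (hf : 0 < f) :
    ∃ k : ℕ, ∀ y : ResidueKq q, y ^ (q ^ f) = y → γ y = y ^ (q ^ k) := by
  classical
  let L : Subfield (ResidueKq q) :=
    (iterateFrobenius (ResidueKq q) q f).eqLocusField (RingHom.id (ResidueKq q))
  have hmem : ∀ y : ResidueKq q, y ∈ L ↔ y ^ (q ^ f) = y := fun y => Iff.rfl
  have hfin : Finite L := by
    have h1 : (Polynomial.X ^ q ^ f - Polynomial.X : Polynomial (ResidueKq q)) ≠ 0 :=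
      FiniteField.X_pow_card_pow_sub_X_ne_zero _ hf.ne' (Fact.out : q.Prime).one_lt
    refine Set.Finite.subset (Polynomial.finite_setOfPred_isRoot h1) ?_
    intro y hy
    have := (hmem y).1 hy
    simp [Polynomial.IsRoot, this]
  have hmap : ∀ y : L, (γ.comp L.subtype) y ∈ L := by
    intro y
    rw [hmem]
    have := (hmem y.1).1 y.2
    simp only [RingHom.comp_apply, Subfield.coe_subtype]
    rw [← map_pow, this]
  let ψ : L →+* L := (γ.comp L.subtype).codRestrict L hmap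
  let _ : Algebra (ZMod q) L := ZMod.algebra L q
  let ψ' : L →ₐ[ZMod q] L :=
    { ψ with
      commutes' := fun r =>
        RingHom.congr_fun (Subsingleton.elim (ψ.comp (algebraMap (ZMod q) L)) (algebraMap _ _)) r }
  obtain ⟨n, hn⟩ := (FiniteField.bijective_frobeniusAlgHom_pow (ZMod q) L).2 ψ'
  refine ⟨n.1, fun y hy => ?_⟩
  have h1 := DFunLike.congr_fun hn (⟨y, (hmem y).2 hy⟩ : L)
  simp only [AlgHom.coe_pow, FiniteField.coe_frobeniusAlgHom, pow_iterate, ZMod.card] at h1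
  have h2 := congrArg Subtype.val h1
  exact h2.symm

/-- every `g ∈ Dq` acts on the residue field of a number field as a power of Frobenius.
(wlog `E/ℚ` Galois; then `g` induces an automorphism of the finite field `O_E / (m ∩ O_E)`.) -/
theorem exists_pow_frob_on (E : NF) [FiniteDimensional ℚ E] {g : GQ} (hg : g ∈ Dq q) :
    ∃ k : ℕ, ∀ x ∈ E, nrm q x ≤ 1 → nrm q (g x - x ^ (q ^ k)) < 1 := by
  obtain ⟨f, hf, hJ⟩ := exists_residue_degree q E
  have hJf := (hJ f).2 dvd_rfl
  obtain ⟨k, hk⟩ := residue_exists_pow_of_ringHom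
    (MulSemiringAction.toRingHom ((padicPlace q).decompositionSubgroup ℚ) (ResidueKq q) ⟨g, hg⟩) hf
  refine ⟨k, fun x hxE hx => ?_⟩
  have h1 := hk (residueRes q x hx) (by
    rw [← residueRes_pow q hx, residueRes_eq_iff]
    exact hJf x hxE hx)
  rw [MulSemiringAction.toRingHom_apply, residueRes_smul q hg hx, ← residueRes_pow q hx,
    residueRes_eq_iff] at h1
  exact h1


open Fermat.Agent.S54 in
/-- inertia can be tested on algebraic integers -/
theorem residue_mem_Iq_of_isIntegral {g : GQ} (hg : g ∈ Dq q)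
    (h : ∀ b : Qbar, IsIntegral ℤ b → nrm q (g b - b) < 1) : g ∈ Iq q := by
  rw [mem_Iq_iff]
  refine ⟨hg, fun x hx => ?_⟩
  obtain ⟨b, s, hs, hxs⟩ := exists_fraction (padicPlace q) x ((mem_padicPlace_iff_nrm q).2 hx)
  have hs1 : nrm q (s : Qbar) = 1 := by
    rw [mem_nonunits_iff_nrm, not_lt] at hs
    exact le_antisymm (nrm_le_one_of_isIntegral q s.2) hs
  have h1 : (g x - x) * g s = (g b - b) - x * (g s - s) := by
    rw [← hxs, map_mul]; ring
  have h2 : nrm q ((g x - x) * g s) < 1 := by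
    rw [h1]
    refine (nrm_sub_le_max q _ _).trans_lt (max_lt (h _ b.2) ?_)
    rw [nrm_mul]
    calc nrm q x * nrm q (g s - s) ≤ 1 * nrm q (g s - s) := by
          gcongr
          exact nrm_nonneg q _
      _ < 1 := by rw [one_mul]; exact h _ s.2
  rwa [nrm_mul, nrm_map_of_mem_Dq q hg, hs1, mul_one] at h2

section P14

open Fermat.Agent.S54

attribute [local instance] isAlgClosure_Qbar zbarAction zbarTop zbar_discrete zbar_continuousSMul

theorem residue_mem_zbarCenter_iff (b : Zbar) :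
    b ∈ zbarCenter (padicPlace q) ↔ nrm q (b : Qbar) < 1 := by
  rw [mem_zbarCenter, mem_nonunits_iff_nrm]

theorem residue_smul_zbarCenter {g : GQ} (hg : g ∈ Dq q) :
    g • zbarCenter (padicPlace q) = zbarCenter (padicPlace q) := by
  ext b
  rw [Ideal.mem_pointwise_smul_iff_inv_smul_mem, residue_mem_zbarCenter_iff,
    residue_mem_zbarCenter_iff, zbar_coe_smul, nrm_map_of_mem_Dq q ((Dq q).inv_mem hg)]

/-- **P14**: `Dq ∩ Gal(Qbar/E) → Gal(k(A_q)/k(A_q ∩ E))` is onto.  In elementary terms: an element of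
`Dq` which acts trivially on the residue field of `E` is the product of an element of
`Dq ∩ Gal(Qbar/E)` and an element of the inertia group. -/
theorem exists_mem_fixing_mul_inertia (E : NF) [FiniteDimensional ℚ E] {g : GQ} (hg : g ∈ Dq q)
    (h : ∀ x ∈ E, nrm q x ≤ 1 → nrm q (g x - x) < 1) :
    ∃ h ∈ Dq q ⊓ E.fixingSubgroup, h⁻¹ * g ∈ Iq q := by
  let G : Subgroup GQ := E.fixingSubgroup
  let Q : Ideal Zbar := zbarCenter (padicPlace q)
  let A' : Subring Zbar := FixedPoints.subring Zbar G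
  have hcomp : CompactSpace G :=
    isCompact_iff_compactSpace.mp (IntermediateField.fixingSubgroup_isClosed E).isCompact
  have hinv : Algebra.IsInvariant A' Zbar G := ⟨fun b hb => ⟨⟨b, hb⟩, rfl⟩⟩
  have hsc : SMulCommClass G A' Zbar := ⟨fun σ a b => by
    show σ • ((a : Zbar) * b) = (a : Zbar) * σ • b
    rw [smul_mul', a.2 σ]⟩
  let P : Ideal A' := Q.under A'
  have hover : Q.LiesOver P := ⟨rfl⟩
  have hgQ : g • Q = Q := residue_smul_zbarCenter hg
  -- the automorphism of `Zbar ⧸ Q` induced by `g`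
  let e0 : (Zbar ⧸ Q) ≃ₐ[ℤ ⧸ Q.under ℤ] (Zbar ⧸ Q) :=
    Ideal.Quotient.stabilizerHom Q (Q.under ℤ) GQ ⟨g, hgQ⟩
  have he0 : ∀ b : Zbar, e0 (Ideal.Quotient.mk Q b) = Ideal.Quotient.mk Q (g • b) := fun b => rfl
  have hfixE : ∀ a : A', ((a : Zbar) : Qbar) ∈ E := by
    intro a
    rw [← InfiniteGalois.fixedField_fixingSubgroup E, IntermediateField.mem_fixedField_iff]
    intro σ hσ
    exact congrArg Subtype.val (a.2 ⟨σ, hσ⟩)
  let e : (Zbar ⧸ Q) ≃ₐ[A' ⧸ P] (Zbar ⧸ Q) :=
    AlgEquiv.ofRingEquiv (f := e0.toRingEquiv) (by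
      intro r
      obtain ⟨a, rfl⟩ := Ideal.Quotient.mk_surjective r
      have h1 : algebraMap (A' ⧸ P) (Zbar ⧸ Q) (Ideal.Quotient.mk P a) =
          Ideal.Quotient.mk Q (a : Zbar) := rfl
      rw [h1]
      show e0 (Ideal.Quotient.mk Q (a : Zbar)) = _
      rw [he0, Ideal.Quotient.eq, residue_mem_zbarCenter_iff]
      exact h _ (hfixE a) (nrm_le_one_of_isIntegral q (a : Zbar).2))
  obtain ⟨⟨⟨h0, h0E⟩, hstab⟩, hh⟩ :=
    Ideal.Quotient.stabilizerHom_surjective_of_profinite (G := G) P Q e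
  have hstab' : h0 • Q = Q := hstab
  have h0D : h0 ∈ Dq q := mem_decomposition_of_smul_center_eq _ h0 hstab'
  refine ⟨h0, ⟨h0D, h0E⟩, ?_⟩
  apply residue_mem_Iq_of_isIntegral ((Dq q).mul_mem ((Dq q).inv_mem h0D) hg)
  intro b hb
  have h2 := DFunLike.congr_fun hh (Ideal.Quotient.mk Q ⟨b, hb⟩)
  have h3 : Ideal.Quotient.mk Q (h0 • (⟨b, hb⟩ : Zbar)) = Ideal.Quotient.mk Q (g • (⟨b, hb⟩ : Zbar)) :=
    h2
  rw [Ideal.Quotient.eq, residue_mem_zbarCenter_iff] at h3
  have h4 : nrm q (h0 b - g b) < 1 := h3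
  have h5 : (h0⁻¹ * g) b - b = h0⁻¹ (g b - h0 b) := by
    rw [map_sub, AlgEquiv.mul_apply]
    congr 1
    rw [← AlgEquiv.mul_apply, inv_mul_cancel, AlgEquiv.one_apply]
  rw [h5, nrm_map_of_mem_Dq q ((Dq q).inv_mem h0D), nrm_sub_comm]
  exact h4

end P14

end

end Fermat.Agent.S55.Places
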