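import Fermat.Agent.S55.Places.Norm

/-! # S55 (P), task P-Dense (= P2): the image `Dq'` of the Prelude local Galois group is dense in
the decomposition group `Dq`; the fixed field `Qh` is `{x | emb x ∈ ℚ_q}`; `ℚ` is dense in `Qh`. -/

set_option autoImplicit false

namespace Fermat.Agent.S55.Places

noncomputable section

variable (q : ℕ) [Fact q.Prime]

/-- Galois theory of `PadicAlgCl q / ℚ_[q]` (`IsGalois`, `InfiniteGalois.fixedField_bot`-type
lemma) + `padicEmbedding_localGaloisToGlobal` + injectivity of `padicEmbedding`. -/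
theorem mem_Fix_Dq'_iff {x : Qbar} :
    x ∈ Fix (Dq' q) ↔ padicEmbedding q x ∈ (algebraMap ℚ_[q] (PadicAlgCl q)).range := by
  rw [mem_Fix_iff]
  constructor
  · intro h
    have h1 : ∀ τ : PadicAlgCl q ≃ₐ[ℚ_[q]] PadicAlgCl q, τ (padicEmbedding q x) = padicEmbedding q x := by
      intro τ
      rw [← padicEmbedding_localGaloisToGlobal, h _ ⟨τ, rfl⟩]
    exact (InfiniteGalois.mem_range_algebraMap_iff_fixed (k := ℚ_[q]) (K := PadicAlgCl q) _).mpr h1
  · rintro ⟨a, ha⟩ _ ⟨τ, rfl⟩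
    apply (padicEmbedding q).injective
    show padicEmbedding q (localGaloisToGlobal q τ x) = padicEmbedding q x
    rw [padicEmbedding_localGaloisToGlobal, ← ha, AlgEquiv.commutes]

/-- `ℚ` is dense in `ℚ_[q]` -/
theorem exists_rat_near_of_emb_mem {x : Qbar}
    (hx : padicEmbedding q x ∈ (algebraMap ℚ_[q] (PadicAlgCl q)).range) {ε : ℝ} (hε : 0 < ε) :
    ∃ r : ℚ, nrm q (x - (r : Qbar)) < ε := by
  obtain ⟨a, ha⟩ := hx
  obtain ⟨r, hr⟩ := Padic.rat_dense q a hε
  refine ⟨r, ?_⟩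
  rw [nrm, map_sub, map_ratCast, ← ha]
  have h1 : ((r : ℚ) : PadicAlgCl q) = algebraMap ℚ_[q] (PadicAlgCl q) (r : ℚ_[q]) := by
    rw [map_ratCast]
  rw [h1, ← map_sub, PadicAlgCl.norm_extends]
  exact hr

/-- `x = lim r_n`, `g` isometry fixing `ℚ`: `|g x - x| ≤ max |g (x - r)| |r - x| < ε`. -/
theorem mem_Qh_iff {x : Qbar} :
    x ∈ Qh q ↔ padicEmbedding q x ∈ (algebraMap ℚ_[q] (PadicAlgCl q)).range := by
  constructor
  · intro h
    rw [← mem_Fix_Dq'_iff, mem_Fix_iff]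
    intro g hg
    exact (mem_Fix_iff.mp h) g (Dq'_le_Dq q hg)
  · intro h
    rw [mem_Fix_iff]
    intro g hg
    rw [← sub_eq_zero, ← nrm_eq_zero_iff q]
    refine le_antisymm (le_of_forall_pos_lt_add fun ε hε => ?_) (nrm_nonneg q _)
    obtain ⟨r, hr⟩ := exists_rat_near_of_emb_mem q h hε
    have h1 : g x - x = g (x - (r : Qbar)) + ((r : Qbar) - x) := by
      rw [map_sub, map_ratCast]; ring
    rw [h1, zero_add]
    refine lt_of_le_of_lt (nrm_add_le_max q _ _) (max_lt ?_ ?_)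
    · rw [nrm_map_of_mem_Dq q hg]; exact hr
    · rw [nrm_sub_comm]; exact hr

theorem Fix_Dq'_eq : Fix (Dq' q) = Qh q := by
  ext x
  rw [mem_Fix_Dq'_iff, mem_Qh_iff]

theorem exists_rat_near {x : Qbar} (hx : x ∈ Qh q) {ε : ℝ} (hε : 0 < ε) :
    ∃ r : ℚ, nrm q (x - (r : Qbar)) < ε :=
  exists_rat_near_of_emb_mem q ((mem_Qh_iff q).mp hx) hε

/-- value group of `Qh` -/
theorem nrm_Qh {x : Qbar} (hx : x ∈ Qh q) (h0 : x ≠ 0) : ∃ k : ℤ, nrm q x = (q : ℝ) ^ k := by
  obtain ⟨a, ha⟩ := (mem_Qh_iff q).mp hx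
  have ha0 : a ≠ 0 := by
    rintro rfl
    rw [map_zero] at ha
    exact h0 ((map_eq_zero (padicEmbedding q)).mp ha.symm)
  refine ⟨-a.valuation, ?_⟩
  rw [nrm, ← ha, PadicAlgCl.norm_extends, Padic.norm_eq_zpow_neg_valuation ha0]

attribute [local instance] isAlgClosureQbar in
/-- Density at finite level (finite Galois theory: pass to the Galois closure `E'` of `E`; the images
of `Dq'` and `Dq` in `Gal(E'/ℚ)` have the same fixed field `E' ∩ Qh`, so they coincide). -/
theorem Dq'_dense {g : GQ} (hg : g ∈ Dq q) (E : NF) [FiniteDimensional ℚ E] :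
    ∃ τ ∈ Dq' q, ∀ x ∈ E, τ x = g x := by
  let E' : NF := IntermediateField.normalClosure ℚ E Qbar
  have hEE' : E ≤ E' := IntermediateField.le_normalClosure E
  have hnorm : Normal ℚ E' := normalClosure.normal ℚ E Qbar
  have hfd : FiniteDimensional ℚ E' := normalClosure.is_finiteDimensional ℚ E Qbar
  let res : GQ →* (E' ≃ₐ[ℚ] E') := AlgEquiv.restrictNormalHom E'
  have hres : ∀ (σ : GQ) (x : E'), ((res σ x : E') : Qbar) = σ (x : Qbar) := fun σ x =>
    AlgEquiv.restrictNormal_commutes σ E' x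
  have hfix : ∀ H : Subgroup GQ, ∀ x : E',
      x ∈ IntermediateField.fixedField (H.map res) ↔ (x : Qbar) ∈ Fix H := by
    intro H x
    rw [IntermediateField.mem_fixedField_iff, mem_Fix_iff]
    constructor
    · intro h σ hσ
      rw [← hres, h _ ⟨σ, hσ, rfl⟩]
    · rintro h _ ⟨σ, hσ, rfl⟩
      apply Subtype.ext
      rw [hres, h σ hσ]
  have heq : IntermediateField.fixedField ((Dq' q).map res)
      = IntermediateField.fixedField ((Dq q).map res) := by
    ext x
    rw [hfix, hfix, Fix_Dq'_eq]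
  have hmap : (Dq' q).map res = (Dq q).map res := by
    rw [← IntermediateField.fixingSubgroup_fixedField ((Dq' q).map res), heq,
      IntermediateField.fixingSubgroup_fixedField]
  have hgm : res g ∈ (Dq' q).map res := by
    rw [hmap]
    exact ⟨g, hg, rfl⟩
  obtain ⟨τ, hτ, hτg⟩ := hgm
  refine ⟨τ, hτ, fun x hx => ?_⟩
  have := hres τ ⟨x, hEE' hx⟩
  rw [hτg, hres] at this
  exact this.symm

/-- same statement with the source group of the Prelude -/
theorem exists_local_lift {g : GQ} (hg : g ∈ Dq q) (E : NF) [FiniteDimensional ℚ E] :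
    ∃ τ : PadicAlgCl q ≃ₐ[ℚ_[q]] PadicAlgCl q, (localGaloisToGlobal q τ)⁻¹ * g ∈ E.fixingSubgroup := by
  obtain ⟨_, ⟨τ, rfl⟩, h⟩ := Dq'_dense q hg E
  refine ⟨τ, ?_⟩
  rw [IntermediateField.mem_fixingSubgroup_iff]
  intro x hx
  rw [AlgEquiv.mul_apply, ← h x hx]
  exact (localGaloisToGlobal q τ).symm_apply_apply x

end

end Fermat.Agent.S55.Places
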