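import Mathlib
import Fermat.Prelude.Def_GroupCohomology_ContinuousUnramified
import Fermat.Agent.S54.Frobenius

/-!
# S55, module (P): places of `Qbar`, decomposition groups, henselisations.  Definitions.

Everything lives inside `Qbar = AlgebraicClosure ℚ` and `GQ = Gal(Qbar/ℚ)`.
-/

set_option autoImplicit false

open scoped Pointwise

namespace Fermat.Agent.S55.Places

noncomputable section

/-- the algebraic closure of `ℚ` used by the Prelude -/
abbrev Qbar : Type := AlgebraicClosure ℚ

/-- the absolute Galois group of `ℚ` used by the Prelude -/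
abbrev GQ : Type := Qbar ≃ₐ[ℚ] Qbar

/-- `Qbar` is an algebraic closure for the algebra structure used in the Prelude statements.
Use `attribute [local instance] isAlgClosureQbar`. -/
theorem isAlgClosureQbar : IsAlgClosure ℚ Qbar := Fermat.Agent.S54.isAlgClosure_Qbar

/-- number fields inside `Qbar` -/
abbrev NF : Type := IntermediateField ℚ Qbar

/-- `W` is open in `H` (for the level structure `{H ∩ Fix E}`, `E` a number field). -/
def IsOpenIn (H W : Subgroup GQ) : Prop :=
  W ≤ H ∧ ∃ E : NF, FiniteDimensional ℚ E ∧ H ⊓ E.fixingSubgroup ≤ W

/-- fixed field of a subgroup -/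
abbrev Fix (H : Subgroup GQ) : NF := IntermediateField.fixedField H

variable (q : ℕ) [Fact q.Prime]

/-- the `q`-adic absolute value on `Qbar` attached to the Prelude embedding `padicEmbedding q`. -/
def nrm (x : Qbar) : ℝ := ‖padicEmbedding q x‖

/-- decomposition group of the standard place `padicPlace q` -/
def Dq : Subgroup GQ := (padicPlace q).decompositionSubgroup ℚ

/-- image of the Prelude local Galois group -/
def Dq' : Subgroup GQ := (localGaloisToGlobal q).range

/-- inertia group of the standard place -/
def Iq : Subgroup GQ := (padicPlace q).inertiaSubgroupIn ℚ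

/-- the henselisation `ℚ^h` of `ℚ` at the standard place -/
abbrev Qh : NF := Fix (Dq q)

/-- the valuation ring of `Fix W` as a subring of `Fix W` -/
def ringOf (W : Subgroup GQ) : Subring (Fix W) where
  carrier := {x | nrm q (x : Qbar) ≤ 1}
  mul_mem' := by
    intro a b ha hb
    simp only [Set.mem_ofPred_eq, nrm] at *
    rw [MulMemClass.coe_mul, map_mul, norm_mul]
    exact mul_le_one₀ ha (norm_nonneg _) hb
  one_mem' := by simp [nrm]
  add_mem' := by
    intro a b ha hb
    simp only [Set.mem_ofPred_eq, nrm] at *
    rw [AddMemClass.coe_add, map_add]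
    exact (PadicAlgCl.isNonarchimedean q _ _).trans (max_le ha hb)
  zero_mem' := by simp [nrm]
  neg_mem' := by
    intro a ha
    simp only [Set.mem_ofPred_eq, nrm] at *
    rw [NegMemClass.coe_neg, map_neg, norm_neg]
    exact ha

/-- local degree exponent: `[D_q : W]` if `q = p`, `0` otherwise -/
def locExp (p : ℕ) (W : Subgroup GQ) : ℕ :=
  if q = p then (W.subgroupOf (Dq q)).index else 0

end

end Fermat.Agent.S55.Places
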