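import Fermat.Agent.S55.Places.Roots

/-! # S55 (P), task P-UnramQuot: `W / (W ∩ Iq)` is procyclic (`≅ Ẑ`) for `W` open in `Dq`. -/

set_option autoImplicit false

namespace Fermat.Agent.S55.Places

noncomputable section

variable {q : ℕ} [Fact q.Prime]

namespace UnramQuot

/-- `s ∈ Dq` acts on the residue field as `x ↦ x^(q^j)`. -/
def ActsAs (q : ℕ) [Fact q.Prime] (s : GQ) (j : ℕ) : Prop :=
  s ∈ Dq q ∧ ∀ x : Qbar, nrm q x ≤ 1 → nrm q (s x - x ^ (q ^ j)) < 1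

lemma nrm_sub_lt_one_trans {x y z : Qbar} (h1 : nrm q (x - y) < 1) (h2 : nrm q (y - z) < 1) :
    nrm q (x - z) < 1 := by
  have : x - z = (x - y) + (y - z) := by ring
  rw [this]
  exact (nrm_add_le_max q _ _).trans_lt (max_lt h1 h2)

lemma ActsAs.mul {s s' : GQ} {j j' : ℕ} (h : ActsAs q s j) (h' : ActsAs q s' j') :
    ActsAs q (s * s') (j + j') := by
  refine ⟨(Dq q).mul_mem h.1 h'.1, fun x hx => ?_⟩
  have h1 := h'.2 x hx
  have h2 : nrm q (s (s' x) - s (x ^ (q ^ j'))) < 1 := by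
    rw [← map_sub, nrm_map_of_mem_Dq q h.1]; exact h1
  have h3 := h.2 (x ^ (q ^ j')) (by rw [nrm_pow]; exact pow_le_one₀ (nrm_nonneg q x) hx)
  have h4 : (x ^ (q ^ j')) ^ (q ^ j) = x ^ (q ^ (j + j')) := by
    rw [← pow_mul, ← pow_add, add_comm]
  rw [h4] at h3
  exact nrm_sub_lt_one_trans h2 h3

lemma actsAs_of_mem_Iq {i : GQ} (hi : i ∈ Iq q) : ActsAs q i 0 := by
  rw [mem_Iq_iff] at hi
  exact ⟨hi.1, fun x hx => by simpa using hi.2 x hx⟩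

lemma ActsAs.pow {s : GQ} {j : ℕ} (h : ActsAs q s j) (k : ℕ) : ActsAs q (s ^ k) (j * k) := by
  induction k with
  | zero => simpa using actsAs_of_mem_Iq (Iq q).one_mem
  | succ k ih =>
    rw [pow_succ, Nat.mul_succ]
    exact ih.mul h

lemma ActsAs.inv_mul_mem_Iq {s s' : GQ} {j : ℕ} (h : ActsAs q s j) (h' : ActsAs q s' j) :
    s'⁻¹ * s ∈ Iq q := by
  rw [mem_Iq_iff]
  refine ⟨(Dq q).mul_mem ((Dq q).inv_mem h'.1) h.1, fun x hx => ?_⟩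
  rw [← nrm_map_of_mem_Dq q h'.1, map_sub]
  have h0 : s' ((s'⁻¹ * s) x) = s x := by
    rw [← AlgEquiv.mul_apply, mul_inv_cancel_left]
  rw [h0]
  have h1 := h.2 x hx
  have h2 := h'.2 x hx
  rw [nrm_sub_comm] at h2
  exact nrm_sub_lt_one_trans h1 h2

lemma actsAs_of_isFrob {φ : GQ} (h : IsFrob q φ) : ActsAs q φ 1 :=
  ⟨h.1, fun x hx => by simpa using h.2 x hx⟩

lemma actsAs_frob_pow {φ : GQ} (h : IsFrob q φ) (k : ℕ) : ActsAs q (φ ^ k) k := by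
  simpa using (actsAs_of_isFrob h).pow k

lemma ActsAs.pow_mem_Nur_iff {s : GQ} {j : ℕ} (h : ActsAs q s j) {M : ℕ} (hM : 0 < M) (k : ℕ) :
    s ^ k ∈ Nur q M ↔ M ∣ j * k := by
  obtain ⟨φ, hφ⟩ := exists_isFrob q
  have h2 := (h.pow k).inv_mul_mem_Iq (actsAs_frob_pow hφ (j * k))
  have h3 := Iq_le_Nur hM h2
  rw [← hφ.pow_mem_Nur_iff hM]
  constructor
  · intro hs
    have := (Nur q M).mul_mem hs ((Nur q M).inv_mem h3)
    simpa using this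
  · intro hs
    have := (Nur q M).mul_mem hs h3
    simpa using this

/-- the subgroup `W * Iq`. -/
def WI (q : ℕ) [Fact q.Prime] (W : Subgroup GQ) (hW : W ≤ Dq q) : Subgroup GQ where
  carrier := {g | ∃ w ∈ W, w⁻¹ * g ∈ Iq q}
  one_mem' := ⟨1, W.one_mem, by simp [(Iq q).one_mem]⟩
  mul_mem' := by
    rintro a b ⟨w, hw, hi⟩ ⟨w', hw', hi'⟩
    refine ⟨w * w', W.mul_mem hw hw', ?_⟩
    have h1 : (w * w')⁻¹ * (a * b) = (w'⁻¹ * (w⁻¹ * a) * w'⁻¹⁻¹) * (w'⁻¹ * b) := by group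
    rw [h1]
    exact (Iq q).mul_mem (Iq_conj_mem q ((Dq q).inv_mem (hW hw')) hi) hi'
  inv_mem' := by
    rintro a ⟨w, hw, hi⟩
    refine ⟨w⁻¹, W.inv_mem hw, ?_⟩
    have h1 : w⁻¹⁻¹ * a⁻¹ = w * (w⁻¹ * a)⁻¹ * w⁻¹ := by group
    rw [h1]
    exact Iq_conj_mem q (hW hw) ((Iq q).inv_mem hi)

/-- the exponents `k` with `s ^ k` in a subgroup are the multiples of the least positive one. -/
lemma exists_order {G : Type*} [Group G] (V : Subgroup G) (s : G)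
    (hex : ∃ f, 0 < f ∧ s ^ f ∈ V) : ∃ f, 0 < f ∧ ∀ k : ℕ, s ^ k ∈ V ↔ f ∣ k := by
  classical
  have hf := Nat.find_spec hex
  refine ⟨Nat.find hex, hf.1, fun k => ⟨fun hk => ?_, ?_⟩⟩
  · by_contra hnd
    have hr : 0 < k % Nat.find hex := Nat.pos_of_ne_zero (fun h => hnd (Nat.dvd_of_mod_eq_zero h))
    have hlt : k % Nat.find hex < Nat.find hex := Nat.mod_lt _ hf.1
    have : s ^ (k % Nat.find hex) ∈ V := by
      have h1 : s ^ k = (s ^ Nat.find hex) ^ (k / Nat.find hex) * s ^ (k % Nat.find hex) := by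
        rw [← pow_mul, ← pow_add, Nat.div_add_mod]
      have h2 : s ^ (k % Nat.find hex) = ((s ^ Nat.find hex) ^ (k / Nat.find hex))⁻¹ * s ^ k := by
        rw [h1]; group
      rw [h2]
      exact V.mul_mem (V.inv_mem (V.pow_mem hf.2 _)) hk
    exact Nat.find_min hex hlt ⟨hr, this⟩
  · rintro ⟨a, rfl⟩
    rw [pow_mul]
    exact V.pow_mem hf.2 a

/-- a quotient which is cyclic of order `n` gives a surjective character to `ℤ/n`. -/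
lemma exists_char_of_cyclic {G : Type*} [Group G] (N : Subgroup G) [N.Normal] (s : G) (n : ℕ)
    (h1 : ∀ k : ℕ, s ^ k ∈ N ↔ n ∣ k) (h2 : ∀ g : G, ∃ k : ℕ, (s ^ k)⁻¹ * g ∈ N) :
    ∃ χ : G →* Multiplicative (ZMod n), Function.Surjective χ ∧ χ.ker = N := by
  have hgen : ∀ x : G ⧸ N, x ∈ Subgroup.zpowers (s : G ⧸ N) := by
    intro x
    induction x using QuotientGroup.induction_on with
    | H g =>
      obtain ⟨k, hk⟩ := h2 g
      refine ⟨(k : ℤ), ?_⟩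
      simp only [zpow_natCast]
      rw [← QuotientGroup.mk_pow]
      exact QuotientGroup.eq.2 hk
  have hc : IsCyclic (G ⧸ N) := ⟨⟨(s : G ⧸ N), hgen⟩⟩
  have hord : orderOf (s : G ⧸ N) = n := by
    have key : ∀ k : ℕ, orderOf (s : G ⧸ N) ∣ k ↔ n ∣ k := by
      intro k
      rw [orderOf_dvd_iff_pow_eq_one, ← QuotientGroup.mk_pow, QuotientGroup.eq_one_iff, h1]
    exact Nat.dvd_antisymm ((key n).2 dvd_rfl) ((key _).1 dvd_rfl)
  have hcard : Nat.card (G ⧸ N) = n := by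
    rw [← orderOf_eq_card_of_forall_mem_zpowers hgen, hord]
  obtain ⟨e⟩ : Nonempty (G ⧸ N ≃* Multiplicative (ZMod n)) := by
    rw [← hcard]; exact ⟨(zmodCyclicMulEquiv hc).symm⟩
  refine ⟨e.toMonoidHom.comp (QuotientGroup.mk' N),
    e.surjective.comp (QuotientGroup.mk'_surjective N), ?_⟩
  ext g
  rw [MonoidHom.mem_ker]
  simp only [MonoidHom.comp_apply, MulEquiv.coe_toMonoidHom, QuotientGroup.mk'_apply,
    EmbeddingLike.map_eq_one_iff, QuotientGroup.eq_one_iff]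

end UnramQuot

open UnramQuot

/-- every open subgroup `N ⊇ W ∩ Iq` of `W` contains `W ∩ Nur q m` for all sufficiently divisible `m`.
(`N ⊇ Dq ∩ Gal(Qbar/E)`; `n` = residue degree of `E`; `g ∈ W ∩ Nur q m` acts trivially on
`𝔽_{q^m} ⊇ k(E)`, so `g = h i` by P14, `h ∈ Dq ∩ Gal(Qbar/E) ≤ N`, `i = h⁻¹ g ∈ W ∩ Iq ≤ N`.) -/
theorem exists_Nur_le {W N : Subgroup GQ} (hW : IsOpenIn (Dq q) W) (hN : IsOpenIn W N)
    (hI : W ⊓ Iq q ≤ N) : ∃ n : ℕ, 0 < n ∧ ∀ m : ℕ, 0 < m → n ∣ m → W ⊓ Nur q m ≤ N := by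
  obtain ⟨-, E, hE, hEN⟩ := hW.trans hN
  obtain ⟨f, hf, hfj⟩ := exists_residue_degree q E
  refine ⟨f, hf, fun m hm hd g hg => ?_⟩
  have hg2 := (mem_Nur_iff' hm).1 hg.2
  obtain ⟨h, hh, hi⟩ := exists_mem_fixing_mul_inertia E hg2.1
    (fun x hxE hx => hg2.2 x hx ((hfj m).2 hd x hxE hx))
  have hhN : h ∈ N := hEN hh
  have h1 : h⁻¹ * g ∈ N := hI ⟨W.mul_mem (W.inv_mem (hN.1 hhN)) hg.1, hi⟩
  have := N.mul_mem hhN h1
  simpa using this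

/-- a Frobenius element of `W`: a topological generator of `W / (W ∩ Iq)`; it acts on the residue field
as `x ↦ x^(q^f)`. -/
theorem exists_frobenius_of_open {W : Subgroup GQ} (hW : IsOpenIn (Dq q) W) :
    ∃ s ∈ W, ∃ f : ℕ, 0 < f ∧ (∀ x : Qbar, nrm q x ≤ 1 → nrm q (s x - x ^ (q ^ f)) < 1) ∧
      ∀ N : Subgroup GQ, IsOpenIn W N → W ⊓ Iq q ≤ N → ∀ g ∈ W, ∃ k : ℕ, (s ^ k)⁻¹ * g ∈ N := by
  obtain ⟨φ, hφ⟩ := exists_isFrob q
  set V := WI q W hW.1 with hV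
  have hWV : W ≤ V := fun w hw => ⟨w, hw, by simp [(Iq q).one_mem]⟩
  have hIV : Iq q ≤ V := fun i hi => ⟨1, W.one_mem, by simpa using hi⟩
  have hVD : V ≤ Dq q := by
    rintro g ⟨w, hw, hi⟩
    have := (Dq q).mul_mem (hW.1 hw) (Iq_le_Dq q hi)
    simpa using this
  have hVo : IsOpenIn (Dq q) V := hW.of_le hWV hVD
  obtain ⟨n, hn, hnle⟩ := exists_Nur_le (IsOpenIn.refl (Dq q)) hVo (inf_le_right.trans hIV)
  have hNV : ∀ m, 0 < m → n ∣ m → Nur q m ≤ V :=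
    fun m hm hd g hg => hnle m hm hd ⟨(mem_Nur_iff.1 hg).1, hg⟩
  obtain ⟨f, hf, hfk⟩ := exists_order V φ
    ⟨n, hn, hNV n hn dvd_rfl ((hφ.pow_mem_Nur_iff hn n).2 dvd_rfl)⟩
  obtain ⟨s, hsW, hsI⟩ := (hfk f).2 dvd_rfl
  have hsA : ActsAs q s f := by
    have h1 : s = φ ^ f * (s⁻¹ * φ ^ f)⁻¹ := by group
    have h2 := (actsAs_frob_pow hφ f).mul (actsAs_of_mem_Iq ((Iq q).inv_mem hsI))
    rw [← h1] at h2
    exact h2
  refine ⟨s, hsW, f, hf, hsA.2, fun N hN hI g hg => ?_⟩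
  obtain ⟨n', hn', hn'le⟩ := exists_Nur_le hW hN hI
  have hM : 0 < n * n' := Nat.mul_pos hn hn'
  obtain ⟨k0, hk0⟩ := hφ.exists_pow_mul_mem_Nur hM (hW.1 hg)
  have h1 : φ ^ k0 ∈ V := by
    have h2 : φ ^ k0 = g * ((φ ^ k0)⁻¹ * g)⁻¹ := by group
    rw [h2]
    exact V.mul_mem (hWV hg) (V.inv_mem (hNV _ hM (dvd_mul_right _ _) hk0))
  obtain ⟨a, rfl⟩ := (hfk k0).1 h1
  refine ⟨a, hn'le _ hM (dvd_mul_left _ _) ⟨W.mul_mem (W.inv_mem (W.pow_mem hsW a)) hg, ?_⟩⟩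
  have h3 : (s ^ a)⁻¹ * φ ^ (f * a) ∈ Iq q :=
    ActsAs.inv_mul_mem_Iq (actsAs_frob_pow hφ (f * a)) (hsA.pow a)
  have h4 : (s ^ a)⁻¹ * g = ((s ^ a)⁻¹ * φ ^ (f * a)) * ((φ ^ (f * a))⁻¹ * g) := by group
  rw [h4]
  exact (Nur q _).mul_mem (Iq_le_Nur hM h3) hk0

/-- subgroups between `W ∩ Iq` and `W` are normal in `W` -/
theorem conj_mem_of_inertia_le {W N : Subgroup GQ} (hW : IsOpenIn (Dq q) W) (hN : IsOpenIn W N)
    (hI : W ⊓ Iq q ≤ N) {g h : GQ} (hg : g ∈ W) (hh : h ∈ N) : g * h * g⁻¹ ∈ N := by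
  obtain ⟨n, hn, hnle⟩ := exists_Nur_le hW hN hI
  have : NeZero n := ⟨hn.ne'⟩
  obtain ⟨χ, -, hχ, -⟩ := exists_degChar (q := q) n
  have hgD := hW.1 hg
  have hhW := hN.1 hh
  have hhD := hW.1 hhW
  have h1 : g * h * g⁻¹ * h⁻¹ ∈ Nur q n := by
    have hx1 : χ ((⟨g, hgD⟩ : Dq q) * ⟨h, hhD⟩ * (⟨g, hgD⟩ : Dq q)⁻¹ * (⟨h, hhD⟩ : Dq q)⁻¹) = 1 := by
      simp only [map_mul, map_inv]
      rw [mul_comm (χ ⟨g, hgD⟩) (χ ⟨h, hhD⟩)]; simp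
    have h0 := (hχ _).1 hx1
    simpa only [Subgroup.coe_mul, Subgroup.coe_inv] using h0
  have h2 : g * h * g⁻¹ * h⁻¹ ∈ N := hnle n hn dvd_rfl
    ⟨W.mul_mem (W.mul_mem (W.mul_mem hg hhW) (W.inv_mem hg)) (W.inv_mem hhW), h1⟩
  have := N.mul_mem h2 hh
  simpa using this

/-- unramified characters of every order on every open subgroup -/
theorem exists_unramified_char {W : Subgroup GQ} (hW : IsOpenIn (Dq q) W) (n : ℕ) [NeZero n] :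
    ∃ χ : W →* Multiplicative (ZMod n), Function.Surjective χ ∧
      IsOpenIn W (χ.ker.map W.subtype) ∧ W ⊓ Iq q ≤ χ.ker.map W.subtype := by
  obtain ⟨s, hsW, f, hf, hsf, hgen⟩ := exists_frobenius_of_open hW
  have hsA : ActsAs q s f := ⟨hW.1 hsW, hsf⟩
  have hn : 0 < n := Nat.pos_of_ne_zero (NeZero.ne n)
  have hM : 0 < f * n := Nat.mul_pos hf hn
  set N : Subgroup GQ := W ⊓ Nur q (f * n) with hNdef
  have hNo : IsOpenIn W N := (isOpenIn_Nur hM).inf_left W hW.1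
  have hNI : W ⊓ Iq q ≤ N := inf_le_inf le_rfl (Iq_le_Nur hM)
  have : (N.subgroupOf W).Normal := ⟨fun h hh g => by
    rw [Subgroup.mem_subgroupOf] at hh ⊢
    exact conj_mem_of_inertia_le hW hNo hNI g.2 hh⟩
  obtain ⟨χ, hχs, hχk⟩ := exists_char_of_cyclic (N.subgroupOf W) (⟨s, hsW⟩ : W) n
    (fun k => by
      rw [Subgroup.mem_subgroupOf]
      change s ^ k ∈ N ↔ _
      rw [hNdef, Subgroup.mem_inf, hsA.pow_mem_Nur_iff hM k, Nat.mul_dvd_mul_iff_left hf]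
      exact ⟨fun h => h.2, fun h => ⟨W.pow_mem hsW k, h⟩⟩)
    (fun g => by
      obtain ⟨k, hk⟩ := hgen N hNo hNI g g.2
      exact ⟨k, by rw [Subgroup.mem_subgroupOf]; exact hk⟩)
  have hmap : χ.ker.map W.subtype = N := by
    rw [hχk, Subgroup.subgroupOf_map_subtype, inf_eq_left]
    exact inf_le_left
  refine ⟨χ, hχs, ?_, ?_⟩
  · rw [hmap]; exact hNo
  · rw [hmap]; exact hNI

/-- (used in (UR)) given `N ⊇ W ∩ Iq` open in `W` and `m > 0`: a smaller `N' ⊇ W ∩ Iq`, with `W / N'` cyclic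
generated by `s`, of order `f'` divisible by `m * [W : N]`. -/
theorem exists_unramified_refinement {W N : Subgroup GQ} (hW : IsOpenIn (Dq q) W)
    (hN : IsOpenIn W N) (hI : W ⊓ Iq q ≤ N) (m : ℕ) (hm : 0 < m) :
    ∃ N' : Subgroup GQ, IsOpenIn W N' ∧ N' ≤ N ∧ W ⊓ Iq q ≤ N' ∧
      ∃ s ∈ W, ∃ f f' : ℕ, 0 < f ∧ 0 < f' ∧ m * f ∣ f' ∧
        (∀ k : ℕ, s ^ k ∈ N ↔ f ∣ k) ∧ (∀ k : ℕ, s ^ k ∈ N' ↔ f' ∣ k) ∧
        (∀ g ∈ W, ∃ k : ℕ, (s ^ k)⁻¹ * g ∈ N') := by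
  obtain ⟨s, hsW, f0, hf0, hsf, hgen⟩ := exists_frobenius_of_open hW
  have hsA : ActsAs q s f0 := ⟨hW.1 hsW, hsf⟩
  obtain ⟨n0, hn0, hn0le⟩ := exists_Nur_le hW hN hI
  obtain ⟨f, hf, hfk⟩ := exists_order N s ⟨n0, hn0, hn0le n0 hn0 dvd_rfl
    ⟨W.pow_mem hsW n0, (hsA.pow_mem_Nur_iff hn0 n0).2 (dvd_mul_left _ _)⟩⟩
  have hf' : 0 < n0 * (m * f) := Nat.mul_pos hn0 (Nat.mul_pos hm hf)
  have hM : 0 < f0 * (n0 * (m * f)) := Nat.mul_pos hf0 hf'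
  refine ⟨W ⊓ Nur q (f0 * (n0 * (m * f))), (isOpenIn_Nur hM).inf_left W hW.1,
    hn0le _ hM (Dvd.dvd.mul_left (dvd_mul_right n0 (m * f)) f0), inf_le_inf le_rfl (Iq_le_Nur hM),
    s, hsW, f, n0 * (m * f), hf, hf', dvd_mul_left _ _, hfk, fun k => ?_, fun g hg => ?_⟩
  · rw [Subgroup.mem_inf, hsA.pow_mem_Nur_iff hM k, Nat.mul_dvd_mul_iff_left hf0]
    exact ⟨fun h => h.2, fun h => ⟨W.pow_mem hsW k, h⟩⟩
  · exact hgen _ ((isOpenIn_Nur hM).inf_left W hW.1) (inf_le_inf le_rfl (Iq_le_Nur hM)) g hg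

end

end Fermat.Agent.S55.Places
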