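import Fermat.Agent.S55.Places.Norm

/-! # S55 (P), task P-PthPower (= P5, P6): Krasner's trick and `p`-th powers near `1`.
Everything is stated in `Qbar` with `nrm q`; `p` is any prime (`q = p` allowed).
The condition `|x| < e₁ = |1 - ζ_p|` of the blueprint is written `|x|^(p-1) < |p|`, and
`|u - 1| < |p| e₁` is written `|u - 1|^(p-1) < |p|^p`: no roots of unity are needed. -/

set_option autoImplicit false

namespace Fermat.Agent.S55.Places

noncomputable section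

variable {q : ℕ} [Fact q.Prime]

/-- elements of `W` commute with evaluation of polynomials over `Fix W` -/
theorem aeval_map_of_mem {W : Subgroup GQ} (f : Polynomial (Fix W)) {g : GQ} (hg : g ∈ W)
    (α : Qbar) : Polynomial.aeval (g α) f = g (Polynomial.aeval α f) := by
  rw [Polynomial.aeval_eq_sum_range, Polynomial.aeval_eq_sum_range, map_sum]
  refine Finset.sum_congr rfl fun i _ => ?_
  rw [Algebra.smul_def, Algebra.smul_def, map_mul, map_pow]
  congr 1
  exact (mem_Fix_iff.1 (f.coeff i).2 g hg).symm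

/-- P5 (Krasner's trick).  `f` a polynomial over `Fix W`, `W ≤ Dq`, `c ∈ Fix W`, `α` a root which is
strictly closer to `c` than every other root: then `α ∈ Fix W`.
(`g ∈ W`: `g α` is a root with `|g α - c| = |g (α - c)| = |α - c|`.) -/
theorem krasner {W : Subgroup GQ} (hW : W ≤ Dq q) (f : Polynomial (Fix W)) {c α : Qbar}
    (hc : c ∈ Fix W) (hα : Polynomial.aeval α f = 0)
    (h : ∀ β : Qbar, Polynomial.aeval β f = 0 → β ≠ α → nrm q (α - c) < nrm q (β - c)) :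
    α ∈ Fix W := by
  rw [mem_Fix_iff]
  intro g hg
  by_contra hne
  have h1 := h (g α) (by rw [aeval_map_of_mem f hg, hα, map_zero]) hne
  have h2 : g α - c = g (α - c) := by rw [map_sub, mem_Fix_iff.1 hc g hg]
  rw [h2, nrm_map_of_mem_Dq q (hW hg)] at h1
  exact lt_irrefl _ h1

variable {p : ℕ}

theorem nrm_prime_pos (hp : p.Prime) : 0 < nrm q (p : Qbar) :=
  (nrm_pos_iff q).2 (by exact_mod_cast hp.ne_zero)

theorem nrm_lt_one_of_pow_lt (_hp : p.Prime) {x : Qbar}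
    (hx : nrm q x ^ (p - 1) < nrm q (p : Qbar)) : nrm q x < 1 := by
  have h1 : nrm q x ^ (p - 1) < 1 := hx.trans_le (nrm_natCast_le_one q p)
  by_contra hcon
  rw [not_lt] at hcon
  exact absurd (one_le_pow₀ hcon) (not_le.2 h1)

/-- binomial expansion + dominant term: `(1+x)^p - 1 = p x + ∑_{2 ≤ k < p} C(p,k) x^k + x^p`, with
`p ∣ C(p,k)`. -/
theorem nrm_one_add_pow_sub_one (hp : p.Prime) {x : Qbar}
    (hx : nrm q x ^ (p - 1) < nrm q (p : Qbar)) :
    nrm q ((1 + x) ^ p - 1) = nrm q (p : Qbar) * nrm q x := by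
  by_cases h0 : x = 0
  · subst h0; simp
  have hx0 : 0 < nrm q x := (nrm_pos_iff q).2 h0
  have hx1 : nrm q x < 1 := nrm_lt_one_of_pow_lt hp hx
  have hp0 : 0 < nrm q (p : Qbar) := nrm_prime_pos hp
  obtain ⟨r, hr⟩ : ∃ r, p = r + 2 := ⟨p - 2, by have := hp.two_le; omega⟩
  have hexp : (1 + x) ^ p - 1 = (p : Qbar) * x +
      ∑ m ∈ Finset.range (r + 1), x ^ (m + 2) * ((p.choose (m + 2) : ℕ) : Qbar) := by
    rw [add_comm 1 x, add_pow]
    have hp' : p + 1 = (r + 1) + 1 + 1 := by omega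
    rw [hp', Finset.sum_range_succ', Finset.sum_range_succ']
    simp only [one_pow, mul_one, pow_zero, Nat.choose_zero_right, Nat.cast_one, zero_add, pow_one,
      Nat.choose_one_right]
    ring
  set C : ℝ := max (nrm q (p : Qbar) * nrm q x ^ 2) (nrm q x ^ p) with hC
  have hClt : C < nrm q (p : Qbar) * nrm q x := by
    apply max_lt
    · apply mul_lt_mul_of_pos_left _ hp0
      calc nrm q x ^ 2 = nrm q x * nrm q x := sq _
        _ < 1 * nrm q x := by gcongr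
        _ = nrm q x := one_mul _
    · have : p = (p - 1) + 1 := by have := hp.two_le; omega
      calc nrm q x ^ p = nrm q x ^ (p - 1) * nrm q x := by
            conv_lhs => rw [this, pow_succ]
        _ < nrm q (p : Qbar) * nrm q x := by gcongr
  have hrest : nrm q (∑ m ∈ Finset.range (r + 1), x ^ (m + 2) * ((p.choose (m + 2) : ℕ) : Qbar))
      ≤ C := by
    apply nrm_sum_le q _ _ C (le_max_of_le_right (by positivity))
    intro m hm
    rw [Finset.mem_range] at hm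
    rw [nrm_mul, nrm_pow]
    by_cases hmp : m + 2 = p
    · rw [hmp, Nat.choose_self, Nat.cast_one, nrm_one, mul_one]
      exact le_max_right _ _
    · have hlt : m + 2 < p := by omega
      obtain ⟨t, ht⟩ := hp.dvd_choose_self (by omega : m + 2 ≠ 0) hlt
      rw [ht, Nat.cast_mul, nrm_mul]
      refine le_trans ?_ (le_max_left _ _)
      calc nrm q x ^ (m + 2) * (nrm q (p : Qbar) * nrm q (t : Qbar))
          ≤ nrm q x ^ 2 * (nrm q (p : Qbar) * 1) := by
            apply mul_le_mul (pow_le_pow_of_le_one hx0.le hx1.le (by omega)) _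
              (mul_nonneg hp0.le (nrm_nonneg q _)) (by positivity)
            exact mul_le_mul_of_nonneg_left (nrm_natCast_le_one q t) hp0.le
        _ = nrm q (p : Qbar) * nrm q x ^ 2 := by ring
  have hmain : nrm q ((p : Qbar) * x) = nrm q (p : Qbar) * nrm q x := nrm_mul q _ _
  rw [hexp, nrm_add_eq_max_of_ne q (by rw [hmain]; exact (hrest.trans_lt hClt).ne'), hmain]
  exact max_eq_left (hrest.trans hClt.le)

theorem nrm_pow_sub_one (hp : p.Prime) {α : Qbar}
    (hα : nrm q (α - 1) ^ (p - 1) < nrm q (p : Qbar)) :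
    nrm q (α ^ p - 1) = nrm q (p : Qbar) * nrm q (α - 1) := by
  have := nrm_one_add_pow_sub_one hp hα
  rwa [add_sub_cancel] at this

theorem nrm_eq_one_of_sub_one_lt {β : Qbar} (h : nrm q (β - 1) < 1) : nrm q β = 1 := by
  have h1 : β = (β - 1) + 1 := by ring
  rw [h1, nrm_add_eq_max_of_ne q (by rw [nrm_one]; exact h.ne), nrm_one]
  exact max_eq_right h.le

/-- uniqueness of `p`-th roots close to `1` -/
theorem eq_of_pow_eq_pow (hp : p.Prime) {α β : Qbar} (h : α ^ p = β ^ p)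
    (hα : nrm q (α - 1) ^ (p - 1) < nrm q (p : Qbar))
    (hβ : nrm q (β - 1) ^ (p - 1) < nrm q (p : Qbar)) : α = β := by
  have hβ1 : nrm q β = 1 := nrm_eq_one_of_sub_one_lt (nrm_lt_one_of_pow_lt hp hβ)
  have hβ0 : β ≠ 0 := by
    rw [← nrm_pos_iff q, hβ1]; exact one_pos
  have hγ : α / β - 1 = ((α - 1) - (β - 1)) / β := by field_simp; ring
  have hγn : nrm q (α / β - 1) ≤ max (nrm q (α - 1)) (nrm q (β - 1)) := by
    rw [hγ, nrm_div, hβ1, div_one]
    exact nrm_sub_le_max q _ _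
  have hγp : nrm q (α / β - 1) ^ (p - 1) < nrm q (p : Qbar) := by
    rcases le_max_iff.1 hγn with h1 | h1
    · exact (pow_le_pow_left₀ (nrm_nonneg q _) h1 _).trans_lt hα
    · exact (pow_le_pow_left₀ (nrm_nonneg q _) h1 _).trans_lt hβ
  have h1 := nrm_pow_sub_one hp hγp
  rw [div_pow, h, div_self (pow_ne_zero _ hβ0), sub_self, nrm_zero] at h1
  have h2 : nrm q (α / β - 1) = 0 := by
    rcases mul_eq_zero.1 h1.symm with h3 | h3
    · exact absurd h3 (nrm_prime_pos hp).ne'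
    · exact h3
  rw [nrm_eq_zero_iff, sub_eq_zero, div_eq_one_iff_eq hβ0] at h2
  exact h2

/-- existence in `Qbar`: `1 - u = ∏ (1 - αᵢ)` over the `p` roots of `X^p - u`, so some root has
`|1 - α|^p ≤ |1 - u|`. -/
theorem exists_pow_eq_near_one (hp : p.Prime) {u : Qbar}
    (hu : nrm q (u - 1) ^ (p - 1) < nrm q (p : Qbar) ^ p) :
    ∃ α : Qbar, α ^ p = u ∧ nrm q (α - 1) ^ (p - 1) < nrm q (p : Qbar) ∧
      nrm q (u - 1) = nrm q (p : Qbar) * nrm q (α - 1) := by
  have : NeZero (p : Qbar) := ⟨by exact_mod_cast hp.ne_zero⟩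
  obtain ⟨ζ, hζ⟩ := HasEnoughRootsOfUnity.exists_primitiveRoot Qbar p
  obtain ⟨α₀, hα₀⟩ := IsAlgClosed.exists_pow_nat_eq u hp.pos
  have hprod := hζ.pow_sub_pow_eq_prod_sub_mul (1 : Qbar) α₀ hp.pos
  rw [one_pow, hα₀] at hprod
  have hne : (Polynomial.nthRootsFinset p (1 : Qbar)).Nonempty :=
    ⟨1, by rw [Polynomial.mem_nthRootsFinset hp.pos]; exact one_pow _⟩
  obtain ⟨ξ, hξ, hmin⟩ := Finset.exists_min_image (Polynomial.nthRootsFinset p (1 : Qbar))
    (fun ξ => nrm q (1 - ξ * α₀)) hne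
  have hξp : ξ ^ p = 1 := (Polynomial.mem_nthRootsFinset hp.pos _).1 hξ
  have hle : nrm q (1 - ξ * α₀) ^ p ≤ nrm q (1 - u) := by
    rw [hprod, nrm_prod]
    calc nrm q (1 - ξ * α₀) ^ p
        = ∏ _i ∈ Polynomial.nthRootsFinset p (1 : Qbar), nrm q (1 - ξ * α₀) := by
          rw [Finset.prod_const, hζ.card_nthRootsFinset]
      _ ≤ _ := Finset.prod_le_prod (fun _ _ => nrm_nonneg q _) hmin
  have hαp : (ξ * α₀) ^ p = u := by rw [mul_pow, hξp, one_mul, hα₀]
  have hlt : nrm q (ξ * α₀ - 1) ^ (p - 1) < nrm q (p : Qbar) := by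
    rw [nrm_sub_comm]
    apply lt_of_pow_lt_pow_left₀ p (nrm_nonneg q _)
    calc (nrm q (1 - ξ * α₀) ^ (p - 1)) ^ p = (nrm q (1 - ξ * α₀) ^ p) ^ (p - 1) := by
          rw [← pow_mul, ← pow_mul, Nat.mul_comm]
      _ ≤ nrm q (1 - u) ^ (p - 1) := pow_le_pow_left₀ (pow_nonneg (nrm_nonneg q _) _) hle _
      _ = nrm q (u - 1) ^ (p - 1) := by rw [nrm_sub_comm]
      _ < _ := hu
  refine ⟨ξ * α₀, hαp, hlt, ?_⟩
  rw [← nrm_pow_sub_one hp hlt, hαp]

/-- P6: the root lies in `Fix W` -/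
theorem exists_pow_eq_mem_Fix (hp : p.Prime) {W : Subgroup GQ} (hW : W ≤ Dq q) {u : Qbar}
    (huW : u ∈ Fix W) (hu : nrm q (u - 1) ^ (p - 1) < nrm q (p : Qbar) ^ p) :
    ∃ α ∈ Fix W, α ^ p = u ∧ nrm q (α - 1) ^ (p - 1) < nrm q (p : Qbar) ∧
      nrm q (u - 1) = nrm q (p : Qbar) * nrm q (α - 1) := by
  obtain ⟨α, h1, h2, h3⟩ := exists_pow_eq_near_one hp hu
  refine ⟨α, ?_, h1, h2, h3⟩
  rw [mem_Fix_iff]
  intro g hg
  apply eq_of_pow_eq_pow hp _ _ h2
  · rw [← map_pow, h1, mem_Fix_iff.1 huW g hg]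
  · have : g α - 1 = g (α - 1) := by rw [map_sub, map_one]
    rw [this, nrm_map_of_mem_Dq q (hW hg)]
    exact h2

/-- iterated version (used for `1 + p^(n+1) R = (1 + p R)^(p^n)`, `p` odd):
if `|u - 1| ≤ |p|^(n+1)`, `p ≠ 2`, then `u = α^(p^n)` with `α ∈ Fix W`, `|α - 1| ≤ |p|`. -/
theorem exists_pow_pow_eq_mem_Fix (hp : p.Prime) (hp2 : p ≠ 2) {W : Subgroup GQ} (hW : W ≤ Dq q)
    (n : ℕ) {u : Qbar} (huW : u ∈ Fix W) (h1 : nrm q (u - 1) < 1)
    (hu : nrm q (u - 1) ≤ nrm q (p : Qbar) ^ (n + 1)) :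
    ∃ α ∈ Fix W, α ^ (p ^ n) = u ∧ nrm q (α - 1) < 1 ∧ nrm q (α - 1) ≤ nrm q (p : Qbar) := by
  have hp0 : 0 < nrm q (p : Qbar) := nrm_prime_pos hp
  have hp1 : nrm q (p : Qbar) ≤ 1 := nrm_natCast_le_one q p
  have hp3 : 3 ≤ p := by have := hp.two_le; omega
  induction n generalizing u with
  | zero => exact ⟨u, huW, by simp, h1, by simpa using hu⟩
  | succ n ih =>
    have hcond : nrm q (u - 1) ^ (p - 1) < nrm q (p : Qbar) ^ p := by
      rcases eq_or_lt_of_le hp1 with hpe | hplt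
      · rw [hpe, one_pow]
        exact pow_lt_one₀ (nrm_nonneg q _) h1 (by omega)
      · calc nrm q (u - 1) ^ (p - 1) ≤ (nrm q (p : Qbar) ^ (n + 1 + 1)) ^ (p - 1) :=
              pow_le_pow_left₀ (nrm_nonneg q _) hu _
          _ = nrm q (p : Qbar) ^ ((n + 1 + 1) * (p - 1)) := by rw [← pow_mul]
          _ < nrm q (p : Qbar) ^ p := by
              apply pow_lt_pow_right_of_lt_one₀ hp0 hplt
              have : 2 * (p - 1) ≤ (n + 1 + 1) * (p - 1) := Nat.mul_le_mul_right _ (by omega)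
              omega
    obtain ⟨β, hβW, hβp, hβlt, hβeq⟩ := exists_pow_eq_mem_Fix hp hW huW hcond
    have hβ1 : nrm q (β - 1) < 1 := nrm_lt_one_of_pow_lt hp hβlt
    have hβle : nrm q (β - 1) ≤ nrm q (p : Qbar) ^ (n + 1) := by
      rw [hβeq, pow_succ' _ (n + 1)] at hu
      exact le_of_mul_le_mul_left hu hp0
    obtain ⟨α, hαW, hαp, hα1, hαle⟩ := ih hβW hβ1 hβle
    exact ⟨α, hαW, by rw [pow_succ, pow_mul, hαp, hβp], hα1, hαle⟩

/-- `q ≠ p`: every `u` with `|u - 1| < 1` in `Fix W` is a `p`-th power in `Fix W`. -/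
theorem exists_pow_eq_of_ne (hp : p.Prime) (hqp : q ≠ p) {W : Subgroup GQ} (hW : W ≤ Dq q)
    {u : Qbar} (huW : u ∈ Fix W) (hu : nrm q (u - 1) < 1) :
    ∃ α ∈ Fix W, α ^ p = u ∧ nrm q (α - 1) < 1 := by
  have hpe : nrm q (p : Qbar) = 1 :=
    nrm_natCast_eq_one q ((Nat.coprime_primes hp (Fact.out : q.Prime)).2 (Ne.symm hqp))
  have hcond : nrm q (u - 1) ^ (p - 1) < nrm q (p : Qbar) ^ p := by
    rw [hpe, one_pow]
    exact pow_lt_one₀ (nrm_nonneg q _) hu (by have := hp.two_le; omega)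
  obtain ⟨α, h1, h2, h3, -⟩ := exists_pow_eq_mem_Fix hp hW huW hcond
  exact ⟨α, h1, h2, nrm_lt_one_of_pow_lt hp h3⟩

end

end Fermat.Agent.S55.Places
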