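import Mathlib

/-! # S55 (P), task P-QIndex: the quotient `Q(A) = [A : A^p] / #A[p]` of a commutative group
(pure algebra, Mathlib only).  `IsQ p A m` means: `A[p]` is finite, `A^p` has finite index and
`[A : A^p] = #A[p] * m`. -/

set_option autoImplicit false

namespace Fermat.Agent.S55.Places

/-- `[A : A^p] = #A[p] * m`, all finite. -/
def IsQ (p : ℕ) (A : Type*) [CommGroup A] (m : ℕ) : Prop :=
  Finite (powMonoidHom p : A →* A).ker ∧ (powMonoidHom p : A →* A).range.index ≠ 0 ∧
    (powMonoidHom p : A →* A).range.index = Nat.card (powMonoidHom p : A →* A).ker * m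

variable {p : ℕ} {A B : Type*} [CommGroup A] [CommGroup B]

/-- image of `B[p]` under an injective hom -/
theorem qIndex_map_ker (i : B →* A) (hi : Function.Injective i) :
    (powMonoidHom p : B →* B).ker.map i = i.range ⊓ (powMonoidHom p : A →* A).ker := by
  ext x
  simp only [Subgroup.mem_map, MonoidHom.mem_ker, powMonoidHom_apply, Subgroup.mem_inf,
    MonoidHom.mem_range]
  constructor
  · rintro ⟨b, hb, rfl⟩
    exact ⟨⟨b, rfl⟩, by rw [← map_pow, hb, map_one]⟩
  · rintro ⟨⟨b, rfl⟩, hb⟩
    exact ⟨b, hi (by rw [map_pow, hb, map_one]), rfl⟩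

/-- image of `B^p` under a hom -/
theorem qIndex_map_range (i : B →* A) :
    (powMonoidHom p : B →* B).range.map i = i.range.map (powMonoidHom p : A →* A) := by
  ext x
  simp only [Subgroup.mem_map, MonoidHom.mem_range, powMonoidHom_apply]
  constructor
  · rintro ⟨_, ⟨b, rfl⟩, rfl⟩
    exact ⟨i b, ⟨b, rfl⟩, by rw [map_pow]⟩
  · rintro ⟨_, ⟨b, rfl⟩, rfl⟩
    exact ⟨b ^ p, ⟨b, rfl⟩, by rw [map_pow]⟩

theorem qIndex_card_ker (i : B →* A) (hi : Function.Injective i) :
    Nat.card (powMonoidHom p : B →* B).ker =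
      Nat.card (i.range ⊓ (powMonoidHom p : A →* A).ker : Subgroup A) := by
  rw [← qIndex_map_ker i hi]
  exact (Nat.card_congr ((powMonoidHom p : B →* B).ker.equivMapOfInjective i hi).toEquiv)

theorem qIndex_index_range (i : B →* A) (hi : Function.Injective i) :
    (powMonoidHom p : B →* B).range.index =
      (i.range.map (powMonoidHom p : A →* A)).relIndex i.range := by
  rw [← qIndex_map_range i, ← Subgroup.relIndex_top_right,
    ← Subgroup.relIndex_map_map_of_injective _ _ hi, ← MonoidHom.range_eq_map]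

theorem IsQ.of_mulEquiv (e : A ≃* B) {m : ℕ} (h : IsQ p A m) : IsQ p B m := by
  obtain ⟨h1, h2, h3⟩ := h
  have hk : Nat.card (powMonoidHom p : A →* A).ker = Nat.card (powMonoidHom p : B →* B).ker := by
    rw [qIndex_card_ker (p := p) e.toMonoidHom e.injective,
      MonoidHom.range_eq_top.mpr e.surjective, top_inf_eq]
  have hr : (powMonoidHom p : A →* A).range.index = (powMonoidHom p : B →* B).range.index := by
    rw [qIndex_index_range (p := p) e.toMonoidHom e.injective,
      MonoidHom.range_eq_top.mpr e.surjective, Subgroup.relIndex_top_right,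
      ← MonoidHom.range_eq_map]
  refine ⟨?_, hr ▸ h2, ?_⟩
  · apply Nat.finite_of_card_ne_zero
    rw [← hk]
    exact Nat.card_pos.ne'
  · rw [← hr, ← hk, h3]

/-- a finite group has `Q = 1` -/
theorem isQ_of_finite [Finite A] : IsQ p A 1 := by
  refine ⟨inferInstance, Subgroup.index_ne_zero_of_finite, ?_⟩
  have h1 := Subgroup.card_mul_index (powMonoidHom p : A →* A).ker
  have h2 := Subgroup.card_mul_index (powMonoidHom p : A →* A).range
  rw [Subgroup.index_ker] at h1
  rw [mul_one]
  have hpos : 0 < Nat.card (powMonoidHom p : A →* A).range := Nat.card_pos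
  apply Nat.eq_of_mul_eq_mul_left hpos
  rw [h2, ← h1, mul_comm]

/-- multiplicativity in short exact sequences (snake lemma count):
`1 → B[p] → A[p] → C[p] → B/B^p → A/A^p → C/C^p → 1`. -/
theorem IsQ.of_exact {C : Type*} [CommGroup C] (i : B →* A) (π : A →* C)
    (hi : Function.Injective i) (hπ : Function.Surjective π) (hex : i.range = π.ker)
    {m n : ℕ} (hB : IsQ p B m) (hC : IsQ p C n) : IsQ p A (m * n) := by
  obtain ⟨hB1, hB2, hB3⟩ := hB
  obtain ⟨hC1, hC2, hC3⟩ := hC
  set f : A →* A := powMonoidHom p with hf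
  set S : Subgroup A := i.range with hS
  set P : Subgroup A := f.range with hP
  set Kf : Subgroup A := f.ker with hKf
  set E : Subgroup A := S.comap f with hE
  -- the four numbers
  set u := P.relIndex S with hu
  set t := (S.map f).relIndex (P ⊓ S) with ht
  set r := S.relIndex Kf with hr
  have hkB : Nat.card (powMonoidHom p : B →* B).ker = Nat.card (S ⊓ Kf : Subgroup A) :=
    qIndex_card_ker i hi
  have hcB : (powMonoidHom p : B →* B).range.index = t * u := by
    rw [qIndex_index_range i hi, ht, hu, ← Subgroup.inf_relIndex_right (H := P) (K := S)]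
    refine (Subgroup.relIndex_mul_relIndex _ _ _ ?_ inf_le_right).symm
    refine le_inf (Subgroup.map_le_range f S) ?_
    rintro _ ⟨s, hs, rfl⟩
    exact S.pow_mem hs p
  have hkA : Nat.card Kf = Nat.card (S ⊓ Kf : Subgroup A) * r := by
    rw [← Subgroup.relIndex_bot_left, ← Subgroup.relIndex_bot_left, hr,
      ← Subgroup.inf_relIndex_right (H := S) (K := Kf)]
    exact (Subgroup.relIndex_mul_relIndex _ _ _ bot_le inf_le_right).symm
  have hcomapR : (powMonoidHom p : C →* C).range.comap π = P ⊔ S := by
    ext x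
    rw [Subgroup.mem_comap, Subgroup.mem_sup]
    constructor
    · rintro ⟨c, hc⟩
      obtain ⟨a, rfl⟩ := hπ c
      refine ⟨a ^ p, ⟨a, rfl⟩, (a ^ p)⁻¹ * x, ?_, by group⟩
      rw [hex, MonoidHom.mem_ker, map_mul, map_inv, ← hc, powMonoidHom_apply, map_pow,
        inv_mul_cancel]
    · rintro ⟨_, ⟨a, rfl⟩, s, hs, rfl⟩
      rw [hex, MonoidHom.mem_ker] at hs
      exact ⟨π a, by rw [map_mul, hs, mul_one, hf, powMonoidHom_apply, powMonoidHom_apply, map_pow]⟩
  have hcC : (powMonoidHom p : C →* C).range.index = (P ⊔ S).index := by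
    rw [← hcomapR, Subgroup.index_comap_of_surjective _ hπ]
  have hcA : P.index = u * (powMonoidHom p : C →* C).range.index := by
    rw [hcC, hu, ← Subgroup.relIndex_sup_left (K := P) (H := S)]
    exact (Subgroup.relIndex_mul_index le_sup_left).symm
  have hcomapK : (powMonoidHom p : C →* C).ker.comap π = E := by
    ext x
    rw [Subgroup.mem_comap, MonoidHom.mem_ker, hE, Subgroup.mem_comap, hex, MonoidHom.mem_ker,
      hf, powMonoidHom_apply, powMonoidHom_apply, map_pow]
  have hKE : Kf ≤ E := by
    intro x hx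
    rw [hE, Subgroup.mem_comap, (MonoidHom.mem_ker).mp hx]
    exact S.one_mem
  have hSE : S ≤ E := by
    intro x hx
    rw [hE, Subgroup.mem_comap]
    exact S.pow_mem hx p
  have ht' : t = (S ⊔ Kf).relIndex E := by
    rw [ht, ← Subgroup.map_comap_eq f S, Subgroup.relIndex_map_map, ← hE, ← hKf,
      sup_eq_left.mpr hKE]
  have hkC : Nat.card (powMonoidHom p : C →* C).ker = r * t := by
    rw [← Subgroup.relIndex_bot_left,
      ← Subgroup.map_comap_eq_self_of_surjective hπ (powMonoidHom p : C →* C).ker,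
      ← Subgroup.relIndex_comap, hcomapK, MonoidHom.comap_bot, ← hex, ht', hr,
      ← Subgroup.relIndex_sup_left (K := S) (H := Kf)]
    exact (Subgroup.relIndex_mul_relIndex _ _ _ le_sup_left (sup_le hSE hKE)).symm
  have hkBpos : Nat.card (powMonoidHom p : B →* B).ker ≠ 0 := Nat.card_pos.ne'
  have hkCpos : Nat.card (powMonoidHom p : C →* C).ker ≠ 0 := Nat.card_pos.ne'
  have hr0 : r ≠ 0 := fun h => hkCpos (by rw [hkC, h, zero_mul])
  have hu0 : u ≠ 0 := fun h => hB2 (by rw [hcB, h, mul_zero])
  refine ⟨?_, ?_, ?_⟩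
  · apply Nat.finite_of_card_ne_zero
    rw [hkA, ← hkB]
    exact mul_ne_zero hkBpos hr0
  · rw [hcA]
    exact mul_ne_zero hu0 hC2
  · rw [hcA, hC3, hkC, hkA, ← hkB]
    have : t * u = Nat.card (powMonoidHom p : B →* B).ker * m := by rw [← hcB, hB3]
    calc u * (r * t * n) = (t * u) * (r * n) := by ring
      _ = Nat.card (powMonoidHom p : B →* B).ker * m * (r * n) := by rw [this]
      _ = Nat.card (powMonoidHom p : B →* B).ker * r * (m * n) := by ring

/-- subgroup version -/
theorem IsQ.of_subgroup (S : Subgroup A) {m n : ℕ} (hB : IsQ p S m) (hC : IsQ p (A ⧸ S) n) :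
    IsQ p A (m * n) :=
  IsQ.of_exact S.subtype (QuotientGroup.mk' S) S.subtype_injective (QuotientGroup.mk'_surjective S)
    (by rw [Subgroup.range_subtype, QuotientGroup.ker_mk']) hB hC

/-- if `x ↦ x^p` is injective on `A` with image the subgroup `S` then `Q(A) = [A : S]`. -/
theorem isQ_of_injective (S : Subgroup A) (hinj : Function.Injective (powMonoidHom p : A →* A))
    (hS : (powMonoidHom p : A →* A).range = S) (hfin : S.index ≠ 0) : IsQ p A S.index := by
  have hk : (powMonoidHom p : A →* A).ker = ⊥ := (MonoidHom.ker_eq_bot_iff _).mpr hinj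
  refine ⟨?_, hS ▸ hfin, ?_⟩
  · rw [hk]; infer_instance
  · rw [hS, hk, Subgroup.card_bot, one_mul]

/-- `Q(ℤ) = p` -/
theorem isQ_int (hp : p ≠ 0) : IsQ p (Multiplicative ℤ) p := by
  have hinj : Function.Injective (powMonoidHom p : Multiplicative ℤ →* Multiplicative ℤ) := by
    intro x y hxy
    have h : p • Multiplicative.toAdd x = p • Multiplicative.toAdd y := by
      simpa [powMonoidHom_apply] using congrArg Multiplicative.toAdd hxy
    have h' : (p : ℤ) * Multiplicative.toAdd x = (p : ℤ) * Multiplicative.toAdd y := by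
      simpa using h
    exact Multiplicative.toAdd.injective (mul_left_cancel₀ (by exact_mod_cast hp) h')
  have hidx : (powMonoidHom p : Multiplicative ℤ →* Multiplicative ℤ).range.index = p := by
    have h1 : (powMonoidHom p : Multiplicative ℤ →* Multiplicative ℤ).range =
        AddSubgroup.toSubgroup (AddSubgroup.zmultiples (p : ℤ)) := by
      ext x
      constructor
      · rintro ⟨y, rfl⟩
        change Multiplicative.toAdd (y ^ p) ∈ AddSubgroup.zmultiples (p : ℤ)
        rw [toAdd_pow, Int.mem_zmultiples_iff]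
        exact ⟨Multiplicative.toAdd y, by simp⟩
      · intro hx
        change Multiplicative.toAdd x ∈ AddSubgroup.zmultiples (p : ℤ) at hx
        rw [Int.mem_zmultiples_iff] at hx
        obtain ⟨c, hc⟩ := hx
        refine ⟨Multiplicative.ofAdd c, ?_⟩
        apply Multiplicative.toAdd.injective
        rw [powMonoidHom_apply, toAdd_pow, toAdd_ofAdd, hc]
        simp
    rw [h1]
    change (AddSubgroup.zmultiples (p : ℤ)).index = p
    rw [Int.index_zmultiples]
    simp
  have := isQ_of_injective _ hinj rfl (by rw [hidx]; exact hp)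
  rwa [hidx] at this

end Fermat.Agent.S55.Places
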