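import Fermat.Agent.S55.Places.Ring
import Fermat.Agent.S55.Places.PthPower
import Fermat.Agent.S55.Places.QIndex

/-! # S55 (P), task P-Loc1: the counting input `Q((Fix W)ˣ) = p^(1 + n_W)`.

`F = Fix W`, `W` open in `Dq q`.  `Fˣ ⊇ Rˣ = ker v ⊇ U a = {|u - 1| ≤ q^-a}`.
* `Fˣ / Rˣ ≅ ℤ` (`exists_valuation_hom`), `Q(ℤ) = p`;
* `Rˣ / U a` is finite (it embeds in `(R / q^a R)ˣ`, `card_ringOf_quot`), `Q = 1`;
* for `a ≥ 2`: `x ↦ x^p` is a bijection `U a → U (a + v)`, `|p| = q^-v` (`v = 1` if `q = p`, else `0`)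
  (`nrm_pow_sub_one`, `eq_of_pow_eq_pow`, `exists_pow_eq_mem_Fix`);
* `[U a : U (a+v)] = [ball a : ball (a+v)]` (`u ~ u'` iff `|u - u'| ≤ q^-(a+v)`) `= q^(v [Dq:W])`. -/

set_option autoImplicit false

namespace Fermat.Agent.S55.Places

noncomputable section

variable {q : ℕ} [Fact q.Prime]

theorem loc1_nrm_mul_sub_one_le {u v : Qbar} {r : ℝ} (hu : nrm q u = 1) (hu1 : nrm q (u - 1) ≤ r)
    (hv1 : nrm q (v - 1) ≤ r) : nrm q (u * v - 1) ≤ r := by
  have h : u * v - 1 = u * (v - 1) + (u - 1) := by ring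
  rw [h]
  refine (nrm_add_le_max q _ _).trans (max_le ?_ hu1)
  rw [nrm_mul, hu, one_mul]
  exact hv1

theorem loc1_nrm_inv_mul_sub_one {u v : Qbar} (hu : nrm q u = 1) :
    nrm q (u⁻¹ * v - 1) = nrm q (v - u) := by
  have hu0 : u ≠ 0 := by
    rw [← nrm_pos_iff q, hu]; exact one_pos
  have h : u⁻¹ * v - 1 = (v - u) / u := by field_simp
  rw [h, nrm_div, hu, div_one]

/-- higher unit groups -/
def unitBall (q : ℕ) [Fact q.Prime] (W : Subgroup GQ) (a : ℕ) : Subgroup (Fix W)ˣ where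
  carrier := {u | nrm q (((u : Fix W) : Qbar) - 1) ≤ ((q : ℝ)⁻¹) ^ a ∧
    nrm q ((u : Fix W) : Qbar) = 1}
  mul_mem' := by
    rintro u v ⟨hu1, hu⟩ ⟨hv1, hv⟩
    refine ⟨?_, ?_⟩
    · rw [Units.val_mul, MulMemClass.coe_mul]
      exact loc1_nrm_mul_sub_one_le hu hu1 hv1
    · rw [Units.val_mul, MulMemClass.coe_mul, nrm_mul, hu, hv, one_mul]
  one_mem' := by
    refine ⟨?_, ?_⟩
    · rw [Units.val_one, OneMemClass.coe_one, sub_self, nrm_zero]
      positivity
    · rw [Units.val_one, OneMemClass.coe_one, nrm_one]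
  inv_mem' := by
    rintro u ⟨hu1, hu⟩
    have h : (((u⁻¹ : (Fix W)ˣ) : Fix W) : Qbar) = ((u : Fix W) : Qbar)⁻¹ := by
      rw [Units.val_inv_eq_inv_val]; rfl
    refine ⟨?_, ?_⟩
    · rw [h]
      have := loc1_nrm_inv_mul_sub_one (q := q) (u := ((u : Fix W) : Qbar)) (v := 1) hu
      rw [mul_one] at this
      rw [this, nrm_sub_comm]
      exact hu1
    · rw [h, nrm_inv, hu, inv_one]

/-- units of the valuation ring -/
def unitGroup (q : ℕ) [Fact q.Prime] (W : Subgroup GQ) : Subgroup (Fix W)ˣ where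
  carrier := {u | nrm q ((u : Fix W) : Qbar) = 1}
  mul_mem' := by
    intro u v hu hv
    show nrm q (((u * v : (Fix W)ˣ) : Fix W) : Qbar) = 1
    rw [Units.val_mul, MulMemClass.coe_mul, nrm_mul]
    rw [show nrm q ((u : Fix W) : Qbar) = 1 from hu, show nrm q ((v : Fix W) : Qbar) = 1 from hv,
      one_mul]
  one_mem' := by
    show nrm q (((1 : (Fix W)ˣ) : Fix W) : Qbar) = 1
    rw [Units.val_one, OneMemClass.coe_one, nrm_one]
  inv_mem' := by
    intro u hu
    show nrm q (((u⁻¹ : (Fix W)ˣ) : Fix W) : Qbar) = 1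
    have h : (((u⁻¹ : (Fix W)ˣ) : Fix W) : Qbar) = ((u : Fix W) : Qbar)⁻¹ := by
      rw [Units.val_inv_eq_inv_val]; rfl
    rw [h, nrm_inv, show nrm q ((u : Fix W) : Qbar) = 1 from hu, inv_one]

theorem mem_unitBall {W : Subgroup GQ} {a : ℕ} {u : (Fix W)ˣ} :
    u ∈ unitBall q W a ↔ nrm q (((u : Fix W) : Qbar) - 1) ≤ ((q : ℝ)⁻¹) ^ a ∧
      nrm q ((u : Fix W) : Qbar) = 1 := Iff.rfl

theorem mem_unitGroup {W : Subgroup GQ} {u : (Fix W)ˣ} :
    u ∈ unitGroup q W ↔ nrm q ((u : Fix W) : Qbar) = 1 := Iff.rfl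

theorem mem_ball {W : Subgroup GQ} {a : ℕ} {x : Fix W} :
    x ∈ ball q W a ↔ nrm q (x : Qbar) ≤ ((q : ℝ)⁻¹) ^ a := Iff.rfl

theorem unitBall_le_unitGroup (W : Subgroup GQ) (a : ℕ) : unitBall q W a ≤ unitGroup q W :=
  fun _ h => h.2

theorem loc1_inv_q_lt_one : ((q : ℝ)⁻¹) < 1 := by
  have : (1 : ℝ) < q := by exact_mod_cast (Fact.out : q.Prime).one_lt
  exact inv_lt_one_of_one_lt₀ this

theorem loc1_inv_q_pos : 0 < ((q : ℝ)⁻¹) := by
  have : (0 : ℝ) < q := by exact_mod_cast (Fact.out : q.Prime).pos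
  positivity

theorem loc1_coe_inv_mul {W : Subgroup GQ} (u v : (Fix W)ˣ) :
    (((u⁻¹ * v : (Fix W)ˣ) : Fix W) : Qbar) = ((u : Fix W) : Qbar)⁻¹ * ((v : Fix W) : Qbar) := by
  rw [Units.val_mul, Units.val_inv_eq_inv_val]; rfl

/-- `u ↦ u - 1` -/
def unitBallEquiv (W : Subgroup GQ) (a : ℕ) (ha : 1 ≤ a) : unitBall q W a ≃ ball q W a where
  toFun u := ⟨(u : (Fix W)ˣ) - 1, u.2.1⟩
  invFun x := ⟨Units.mk0 (1 + (x : Fix W)) (by
      intro h
      have h1 : nrm q ((x : Fix W) : Qbar) < 1 :=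
        lt_of_le_of_lt x.2 (pow_lt_one₀ loc1_inv_q_pos.le loc1_inv_q_lt_one (by omega))
      have h2 : ((x : Fix W) : Qbar) = -1 := by
        have := congrArg (fun t : Fix W => (t : Qbar)) h
        simp only [AddMemClass.coe_add, OneMemClass.coe_one, ZeroMemClass.coe_zero] at this
        linear_combination this
      rw [h2, nrm_neg, nrm_one] at h1
      exact lt_irrefl _ h1), by
      have h1 : nrm q ((x : Fix W) : Qbar) < 1 :=
        lt_of_le_of_lt x.2 (pow_lt_one₀ loc1_inv_q_pos.le loc1_inv_q_lt_one (by omega))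
      rw [mem_unitBall]
      simp only [Units.val_mk0, AddMemClass.coe_add, OneMemClass.coe_one, add_sub_cancel_left]
      refine ⟨x.2, ?_⟩
      apply nrm_eq_one_of_sub_one_lt
      rw [add_sub_cancel_left]
      exact h1⟩
  left_inv u := by
    apply Subtype.ext
    apply Units.ext
    simp
  right_inv x := by
    apply Subtype.ext
    simp

theorem unitBall_relIndex {W : Subgroup GQ} (hW : IsOpenIn (Dq q) W) (a b : ℕ) (ha : 1 ≤ a) :
    (unitBall q W (a + b)).relIndex (unitBall q W a) = q ^ (b * (W.subgroupOf (Dq q)).index) := by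
  rw [← ball_relIndex hW a b]
  unfold Subgroup.relIndex AddSubgroup.relIndex Subgroup.index AddSubgroup.index
  apply Nat.card_congr
  refine Quotient.congr (unitBallEquiv W a ha) ?_
  intro u v
  show QuotientGroup.leftRel _ u v ↔ QuotientAddGroup.leftRel _ _ _
  rw [QuotientGroup.leftRel_apply, QuotientAddGroup.leftRel_apply, Subgroup.mem_subgroupOf,
    AddSubgroup.mem_addSubgroupOf, mem_unitBall, mem_ball]
  have h1 : (((((u⁻¹ * v : unitBall q W a) : (Fix W)ˣ)) : Fix W) : Qbar) =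
      (((u : (Fix W)ˣ) : Fix W) : Qbar)⁻¹ * (((v : (Fix W)ˣ) : Fix W) : Qbar) :=
    loc1_coe_inv_mul _ _
  have h2 : ((((-(unitBallEquiv W a ha u) + unitBallEquiv W a ha v : ball q W a)) : Fix W) : Qbar) =
      (((v : (Fix W)ˣ) : Fix W) : Qbar) - (((u : (Fix W)ˣ) : Fix W) : Qbar) := by
    simp only [unitBallEquiv, Equiv.coe_fn_mk,
      AddMemClass.coe_add, NegMemClass.coe_neg, AddSubgroupClass.coe_sub, OneMemClass.coe_one]
    ring
  rw [h1, h2, loc1_nrm_inv_mul_sub_one u.2.2, nrm_mul, nrm_inv, u.2.2, v.2.2]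
  simp

theorem unitBall_relIndex_unitGroup_ne_zero {W : Subgroup GQ} (hW : IsOpenIn (Dq q) W) (a : ℕ) :
    (unitBall q W a).relIndex (unitGroup q W) ≠ 0 := by
  have hfin : Finite (ball q W 0 ⧸ (ball q W a).addSubgroupOf (ball q W 0)) := by
    rw [← AddSubgroup.index_ne_zero_iff_finite]
    have := ball_relIndex hW 0 a
    rw [zero_add] at this
    show (ball q W a).relIndex (ball q W 0) ≠ 0
    rw [this]
    exact pow_ne_zero _ (Fact.out : q.Prime).ne_zero
  show ((unitBall q W a).subgroupOf (unitGroup q W)).index ≠ 0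
  rw [Subgroup.index_ne_zero_iff_finite]
  let f0 : unitGroup q W → ball q W 0 := fun u => ⟨((u : (Fix W)ˣ) : Fix W), by
    rw [mem_ball, pow_zero]; exact le_of_eq u.2⟩
  have key : ∀ u v : unitGroup q W,
      (QuotientGroup.leftRel ((unitBall q W a).subgroupOf (unitGroup q W))) u v ↔
      (QuotientAddGroup.leftRel ((ball q W a).addSubgroupOf (ball q W 0))) (f0 u) (f0 v) := by
    intro u v
    rw [QuotientGroup.leftRel_apply, QuotientAddGroup.leftRel_apply, Subgroup.mem_subgroupOf,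
      AddSubgroup.mem_addSubgroupOf, mem_unitBall, mem_ball]
    have h1 : (((((u⁻¹ * v : unitGroup q W) : (Fix W)ˣ)) : Fix W) : Qbar) =
        (((u : (Fix W)ˣ) : Fix W) : Qbar)⁻¹ * (((v : (Fix W)ˣ) : Fix W) : Qbar) :=
      loc1_coe_inv_mul _ _
    have h2 : ((((-(f0 u) + f0 v : ball q W 0)) : Fix W) : Qbar) =
        (((v : (Fix W)ˣ) : Fix W) : Qbar) - (((u : (Fix W)ˣ) : Fix W) : Qbar) := by
      simp only [f0,
        AddMemClass.coe_add, NegMemClass.coe_neg]
      ring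
    have hu : nrm q (((u : (Fix W)ˣ) : Fix W) : Qbar) = 1 := u.2
    have hv : nrm q (((v : (Fix W)ˣ) : Fix W) : Qbar) = 1 := v.2
    rw [h1, h2, loc1_nrm_inv_mul_sub_one hu, nrm_mul, nrm_inv, hu, hv]
    simp
  let f : (unitGroup q W ⧸ (unitBall q W a).subgroupOf (unitGroup q W)) →
      (ball q W 0 ⧸ (ball q W a).addSubgroupOf (ball q W 0)) :=
    Quotient.map' f0 (fun u v h => (key u v).1 h)
  apply Finite.of_injective f
  intro x y
  induction x using Quotient.inductionOn' with | _ u => ?_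
  induction y using Quotient.inductionOn' with | _ v => ?_
  intro h
  exact Quotient.sound' ((key u v).2 (Quotient.exact' h))

variable {p : ℕ}

/-- `v = 1` if `q = p`, `0` otherwise -/
def locV (q p : ℕ) : ℕ := if q = p then 1 else 0

theorem nrm_prime_eq (hp : p.Prime) : nrm q (p : Qbar) = ((q : ℝ)⁻¹) ^ locV q p := by
  unfold locV
  split_ifs with h
  · subst h; rw [nrm_natCast_self, pow_one]
  · rw [pow_zero]
    exact nrm_natCast_eq_one q ((Nat.coprime_primes hp (Fact.out : q.Prime)).2 (Ne.symm h))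

theorem loc1_pow_lt (hp : p.Prime) {x : Qbar} (hx : nrm q x ≤ ((q : ℝ)⁻¹) ^ 2) :
    nrm q x ^ (p - 1) < nrm q (p : Qbar) := by
  have h2 := hp.two_le
  rw [nrm_prime_eq hp]
  calc nrm q x ^ (p - 1) ≤ (((q : ℝ)⁻¹) ^ 2) ^ (p - 1) := pow_le_pow_left₀ (nrm_nonneg q _) hx _
    _ = ((q : ℝ)⁻¹) ^ (2 * (p - 1)) := by rw [← pow_mul]
    _ < ((q : ℝ)⁻¹) ^ locV q p := by
      apply pow_lt_pow_right_of_lt_one₀ loc1_inv_q_pos loc1_inv_q_lt_one
      unfold locV
      split_ifs <;> omega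

theorem loc1_pow_lt' (hp : p.Prime) {x : Qbar} (hx : nrm q x ≤ ((q : ℝ)⁻¹) ^ (2 + locV q p)) :
    nrm q x ^ (p - 1) < nrm q (p : Qbar) ^ p := by
  have h2 := hp.two_le
  rw [nrm_prime_eq hp]
  calc nrm q x ^ (p - 1) ≤ (((q : ℝ)⁻¹) ^ (2 + locV q p)) ^ (p - 1) :=
        pow_le_pow_left₀ (nrm_nonneg q _) hx _
    _ = ((q : ℝ)⁻¹) ^ ((2 + locV q p) * (p - 1)) := by rw [← pow_mul]
    _ < ((q : ℝ)⁻¹) ^ (locV q p * p) := by
      apply pow_lt_pow_right_of_lt_one₀ loc1_inv_q_pos loc1_inv_q_lt_one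
      unfold locV
      split_ifs
      · obtain ⟨r, rfl⟩ : ∃ r, p = r + 2 := ⟨p - 2, by omega⟩
        simp only [show r + 2 - 1 = r + 1 by omega]
        omega
      · simp only [zero_mul, add_zero]
        omega
    _ = (((q : ℝ)⁻¹) ^ locV q p) ^ p := by rw [← pow_mul]

theorem isQ_unitBall (hp : p.Prime) {W : Subgroup GQ} (hW : IsOpenIn (Dq q) W) :
    IsQ p (unitBall q W 2) (p ^ locExp q p W) := by
  have hidx : ((unitBall q W (2 + locV q p)).subgroupOf (unitBall q W 2)).index =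
      p ^ locExp q p W := by
    have := unitBall_relIndex hW 2 (locV q p) (by norm_num)
    rw [Subgroup.relIndex] at this
    rw [this]
    unfold locV locExp
    split_ifs with h
    · subst h; rw [one_mul]
    · simp
  rw [← hidx]
  apply isQ_of_injective
  · intro u v huv
    apply Subtype.ext
    apply Units.ext
    apply Subtype.ext
    apply eq_of_pow_eq_pow (q := q) hp _ (loc1_pow_lt hp u.2.1) (loc1_pow_lt hp v.2.1)
    have := congrArg (fun t : unitBall q W 2 => (((t : (Fix W)ˣ) : Fix W) : Qbar)) huv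
    simpa using this
  · ext w
    rw [Subgroup.mem_subgroupOf, MonoidHom.mem_range]
    constructor
    · rintro ⟨u, rfl⟩
      rw [mem_unitBall]
      have h1 : ((((powMonoidHom p u : unitBall q W 2) : (Fix W)ˣ) : Fix W) : Qbar) =
          ((((u : (Fix W)ˣ) : Fix W)) : Qbar) ^ p := by simp
      rw [h1, nrm_pow_sub_one hp (loc1_pow_lt hp u.2.1), nrm_pow, u.2.2, one_pow,
        nrm_prime_eq hp, add_comm 2, pow_add]
      refine ⟨?_, rfl⟩
      exact mul_le_mul_of_nonneg_left u.2.1 (pow_nonneg loc1_inv_q_pos.le _)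
    · intro hw
      rw [mem_unitBall] at hw
      obtain ⟨α, hαW, hαp, hαlt, hαeq⟩ := exists_pow_eq_mem_Fix hp hW.1
        (((w : (Fix W)ˣ) : Fix W)).2 (loc1_pow_lt' hp hw.1)
      have hα1 : nrm q α = 1 := nrm_eq_one_of_sub_one_lt (nrm_lt_one_of_pow_lt hp hαlt)
      have hα0 : (⟨α, hαW⟩ : Fix W) ≠ 0 := by
        intro h
        have : α = 0 := congrArg Subtype.val h
        rw [this, nrm_zero] at hα1
        exact zero_ne_one hα1
      have hαle : nrm q (α - 1) ≤ ((q : ℝ)⁻¹) ^ 2 := by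
        have h3 := hw.1
        rw [hαeq, nrm_prime_eq hp, add_comm 2, pow_add] at h3
        exact le_of_mul_le_mul_left h3 (pow_pos loc1_inv_q_pos _)
      refine ⟨⟨Units.mk0 ⟨α, hαW⟩ hα0, ⟨hαle, hα1⟩⟩, ?_⟩
      apply Subtype.ext
      apply Units.ext
      apply Subtype.ext
      simpa using hαp
  · rw [hidx]
    exact pow_ne_zero _ hp.ne_zero

theorem isQ_unitGroup (hp : p.Prime) {W : Subgroup GQ} (hW : IsOpenIn (Dq q) W) :
    IsQ p (unitGroup q W) (p ^ locExp q p W) := by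
  have h1 : IsQ p ((unitBall q W 2).subgroupOf (unitGroup q W)) (p ^ locExp q p W) :=
    (isQ_unitBall hp hW).of_mulEquiv
      (Subgroup.subgroupOfEquivOfLe (unitBall_le_unitGroup W 2)).symm
  have hfin : Finite (unitGroup q W ⧸ (unitBall q W 2).subgroupOf (unitGroup q W)) := by
    rw [← Subgroup.index_ne_zero_iff_finite]
    exact unitBall_relIndex_unitGroup_ne_zero hW 2
  have h2 : IsQ p (unitGroup q W ⧸ (unitBall q W 2).subgroupOf (unitGroup q W)) 1 :=
    isQ_of_finite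
  have := IsQ.of_subgroup _ h1 h2
  rwa [mul_one] at this

/-- **Loc1** -/
theorem isQ_units (hp : p.Prime) {W : Subgroup GQ} (hW : IsOpenIn (Dq q) W) :
    IsQ p (Fix W)ˣ (p ^ (1 + locExp q p W)) := by
  obtain ⟨v, hv, hker⟩ := exists_valuation_hom hW
  have := IsQ.of_exact (unitGroup q W).subtype v (Subgroup.subtype_injective _) hv (by
    ext x
    rw [Subgroup.range_subtype, MonoidHom.mem_ker, hker, mem_unitGroup])
    (isQ_unitGroup hp hW) (isQ_int hp.ne_zero)
  rwa [add_comm, pow_succ]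

/-- **Loc1**, explicit form -/
theorem loc1 (hp : p.Prime) {W : Subgroup GQ} (hW : IsOpenIn (Dq q) W) :
    (powMonoidHom p : (Fix W)ˣ →* (Fix W)ˣ).range.index =
      Nat.card (powMonoidHom p : (Fix W)ˣ →* (Fix W)ˣ).ker * p ^ (1 + locExp q p W) :=
  (isQ_units hp hW).2.2

end

end Fermat.Agent.S55.Places
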