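import Fermat.Agent.S55.Places.Residue
import Fermat.Agent.S55.Places.Galois

/-! # S55 (P), task P-Roots (= P8, Loc2): roots of unity of order prime to `q`, the unramified
levels `Nur q n = Dq ∩ Gal(Qbar/ℚ(μ_{q^n-1}))`, the degree characters `Dq → ℤ/n`. -/

set_option autoImplicit false

namespace Fermat.Agent.S55.Places

noncomputable section

variable {q : ℕ} [Fact q.Prime]

/-- strict ultrametric inequality for finite sums -/
theorem Roots_nrm_sum_lt_one {ι : Type*} (s : Finset ι) (f : ι → Qbar)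
    (h : ∀ i ∈ s, nrm q (f i) < 1) : nrm q (∑ i ∈ s, f i) < 1 := by
  classical
  induction s using Finset.induction_on with
  | empty => simp
  | insert a s ha ih =>
    rw [Finset.sum_insert ha]
    exact (nrm_add_le_max q _ _).trans_lt (max_lt (h a (Finset.mem_insert_self a s))
      (ih fun i hi => h i (Finset.mem_insert_of_mem hi)))

theorem Roots_pos_of_coprime {m : ℕ} (hm : Nat.Coprime m q) : m ≠ 0 := by
  rintro rfl
  rw [Nat.coprime_zero_left] at hm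
  exact (Fact.out : q.Prime).one_lt.ne' hm

/-- reduction is injective on `μ_m`, `(m, q) = 1`:  `m = ∏_{ζ ≠ 1} (1 - ζ)`. -/
theorem eq_of_nrm_sub_lt_one {m : ℕ} (hm : Nat.Coprime m q) {ζ ζ' : Qbar} (h : ζ ^ m = 1)
    (h' : ζ' ^ m = 1) (hlt : nrm q (ζ - ζ') < 1) : ζ = ζ' := by
  by_contra hne
  have hm0 : m ≠ 0 := Roots_pos_of_coprime hm
  have h1 : nrm q ζ = 1 := nrm_eq_one_of_pow_eq_one q hm0 h
  have h1' : nrm q ζ' = 1 := nrm_eq_one_of_pow_eq_one q hm0 h'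
  have hgeom : (∑ i ∈ Finset.range m, ζ ^ i * ζ' ^ (m - 1 - i)) * (ζ - ζ') = ζ ^ m - ζ' ^ m :=
    (Commute.all ζ ζ').geom_sum₂_mul m
  rw [h, h', sub_self] at hgeom
  have hsum : ∑ i ∈ Finset.range m, ζ ^ i * ζ' ^ (m - 1 - i) = 0 := by
    rcases mul_eq_zero.1 hgeom with h0 | h0
    · exact h0
    · exact absurd (sub_eq_zero.1 h0) hne
  have hsum2 : ∑ i ∈ Finset.range m, (ζ' ^ i - ζ ^ i) * ζ' ^ (m - 1 - i) =
      (m : Qbar) * ζ' ^ (m - 1) := by
    have e1 : ∀ i ∈ Finset.range m, (ζ' ^ i - ζ ^ i) * ζ' ^ (m - 1 - i) =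
        ζ' ^ (m - 1) - ζ ^ i * ζ' ^ (m - 1 - i) := by
      intro i hi
      have hi' : i ≤ m - 1 := by
        have := Finset.mem_range.1 hi
        omega
      rw [sub_mul, ← pow_add, Nat.add_sub_cancel' hi']
    rw [Finset.sum_congr rfl e1, Finset.sum_sub_distrib, hsum, sub_zero, Finset.sum_const,
      Finset.card_range, nsmul_eq_mul]
  have hlt2 : nrm q (∑ i ∈ Finset.range m, (ζ' ^ i - ζ ^ i) * ζ' ^ (m - 1 - i)) < 1 := by
    apply Roots_nrm_sum_lt_one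
    intro i _
    rw [nrm_mul, nrm_pow q ζ', h1', one_pow, mul_one]
    apply nrm_pow_sub_pow_lt_one h1'.le h1.le
    rwa [nrm_sub_comm]
  rw [hsum2, nrm_mul, nrm_pow, h1', one_pow, mul_one, nrm_natCast_eq_one q hm] at hlt2
  exact lt_irrefl _ hlt2

theorem map_root_of_mem_Iq {m : ℕ} (hm : Nat.Coprime m q) {ζ : Qbar} (h : ζ ^ m = 1) {g : GQ}
    (hg : g ∈ Iq q) : g ζ = ζ := by
  have hm0 : m ≠ 0 := Roots_pos_of_coprime hm
  apply eq_of_nrm_sub_lt_one hm _ h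
  · exact ((mem_Iq_iff q).1 hg).2 ζ (nrm_eq_one_of_pow_eq_one q hm0 h).le
  · rw [← map_pow, h, map_one]

theorem IsFrob.map_root {φ : GQ} (hφ : IsFrob q φ) {m : ℕ} (hm : Nat.Coprime m q) {ζ : Qbar}
    (h : ζ ^ m = 1) : φ ζ = ζ ^ q := by
  have hm0 : m ≠ 0 := Roots_pos_of_coprime hm
  apply eq_of_nrm_sub_lt_one hm
  · rw [← map_pow, h, map_one]
  · rw [← pow_mul, mul_comm, pow_mul, h, one_pow]
  · exact hφ.2 ζ (nrm_eq_one_of_pow_eq_one q hm0 h).le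

theorem Roots_finite_roots {m : ℕ} (hm : m ≠ 0) : Set.Finite {ζ : Qbar | ζ ^ m = 1} := by
  have hp : (Polynomial.X ^ m - 1 : Polynomial Qbar) ≠ 0 :=
    Polynomial.X_pow_sub_C_ne_zero (Nat.pos_of_ne_zero hm) (1 : Qbar)
  refine ((Polynomial.X ^ m - 1 : Polynomial Qbar).roots.toFinset.finite_toSet).subset ?_
  intro ζ hζ
  simp only [Set.mem_ofPred_eq] at hζ
  simp only [Finset.mem_coe, Multiset.mem_toFinset]
  rw [Polynomial.mem_roots hp]
  simp [Polynomial.IsRoot, hζ]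

theorem Roots_finiteDimensional_adjoin {m : ℕ} (hm : m ≠ 0) :
    FiniteDimensional ℚ (IntermediateField.adjoin ℚ {ζ : Qbar | ζ ^ m = 1}) := by
  have : Finite {ζ : Qbar | ζ ^ m = 1} := (Roots_finite_roots hm).to_subtype
  apply IntermediateField.finiteDimensional_adjoin
  intro x hx
  exact (IsIntegral.of_pow (Nat.pos_of_ne_zero hm) (by rw [hx]; exact isIntegral_one))

/-- P8 -/
theorem map_root_of_mem_Dq {m : ℕ} (hm : Nat.Coprime m q) {g : GQ} (hg : g ∈ Dq q) :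
    ∃ j : ℕ, ∀ ζ : Qbar, ζ ^ m = 1 → g ζ = ζ ^ (q ^ j) := by
  have hm0 : m ≠ 0 := Roots_pos_of_coprime hm
  have := Roots_finiteDimensional_adjoin hm0
  obtain ⟨k, hk⟩ := exists_pow_frob_on (IntermediateField.adjoin ℚ {ζ : Qbar | ζ ^ m = 1}) hg
  refine ⟨k, fun ζ h => ?_⟩
  apply eq_of_nrm_sub_lt_one hm
  · rw [← map_pow, h, map_one]
  · rw [← pow_mul, mul_comm, pow_mul, h, one_pow]
  · exact hk ζ (IntermediateField.subset_adjoin ℚ _ h) (nrm_eq_one_of_pow_eq_one q hm0 h).le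

theorem Roots_one_le_nrm_prod (x : Qbar) (s : Multiset Qbar) (h : ∀ a ∈ s, 1 ≤ nrm q (x - a)) :
    1 ≤ nrm q ((s.map fun a => x - a).prod) := by
  induction s using Multiset.induction_on with
  | empty => simp
  | cons a s ih =>
    rw [Multiset.map_cons, Multiset.prod_cons, nrm_mul]
    exact one_le_mul_of_one_le_of_one_le (h a (Multiset.mem_cons_self a s))
      (ih fun b hb => h b (Multiset.mem_cons_of_mem hb))

theorem Roots_one_lt_pow {n : ℕ} (hn : 0 < n) : 1 < q ^ n :=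
  Nat.one_lt_pow hn.ne' (Fact.out : q.Prime).one_lt

theorem Roots_coprime {n : ℕ} (hn : 0 < n) : Nat.Coprime (q ^ n - 1) q := by
  have hq : q.Prime := Fact.out
  rw [Nat.coprime_comm, Nat.Prime.coprime_iff_not_dvd hq]
  intro hd
  have h1 : 1 < q ^ n := Roots_one_lt_pow hn
  have h2 : q ∣ q ^ n := dvd_pow_self q hn.ne'
  have h3 : q ∣ q ^ n - (q ^ n - 1) := Nat.dvd_sub h2 hd
  have h4 : q ^ n - (q ^ n - 1) = 1 := by omega
  rw [h4] at h3
  exact hq.one_lt.ne' (Nat.dvd_one.1 h3)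

/-- Teichmüller representatives: `X^(q^n) - X = X ∏_{ζ ∈ μ_{q^n-1}} (X - ζ)`. -/
theorem exists_root_near {n : ℕ} (hn : 0 < n) {x : Qbar} (h1 : nrm q x = 1)
    (h : nrm q (x ^ (q ^ n) - x) < 1) : ∃ ζ : Qbar, ζ ^ (q ^ n - 1) = 1 ∧ nrm q (x - ζ) < 1 := by
  by_contra hcon
  push Not at hcon
  have hN1 : 1 < q ^ n := Roots_one_lt_pow hn
  have hN0 : 0 < q ^ n - 1 := by omega
  have hp : (Polynomial.X ^ (q ^ n - 1) - Polynomial.C 1 : Polynomial Qbar) ≠ 0 :=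
    Polynomial.X_pow_sub_C_ne_zero hN0 (1 : Qbar)
  have hmonic : (Polynomial.X ^ (q ^ n - 1) - Polynomial.C 1 : Polynomial Qbar).Monic :=
    Polynomial.monic_X_pow_sub_C (1 : Qbar) hN0.ne'
  have heval := (IsAlgClosed.splits
    (Polynomial.X ^ (q ^ n - 1) - Polynomial.C 1 : Polynomial Qbar)).eval_eq_prod_roots_of_monic
      hmonic x
  have hle : 1 ≤ nrm q (((Polynomial.X ^ (q ^ n - 1) - Polynomial.C 1 :
      Polynomial Qbar).roots.map fun a => x - a).prod) := by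
    apply Roots_one_le_nrm_prod
    intro a ha
    rw [Polynomial.mem_roots hp] at ha
    apply hcon a
    have : a ^ (q ^ n - 1) - 1 = 0 := by simpa [Polynomial.IsRoot] using ha
    exact sub_eq_zero.1 this
  rw [← heval] at hle
  have e1 : x ^ (q ^ n) - x = x * (x ^ (q ^ n - 1) - 1) := by
    rw [mul_sub, mul_one, ← pow_succ', Nat.sub_add_cancel hN1.le]
  rw [e1, nrm_mul, h1, one_mul] at h
  simp only [Polynomial.eval_sub, Polynomial.eval_pow, Polynomial.eval_X, Polynomial.eval_C] at hle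
  exact absurd h (not_lt.2 hle)

variable (q)

/-- `ℚ(μ_{q^n-1})` -/
def Eur (n : ℕ) : NF := IntermediateField.adjoin ℚ {ζ : Qbar | ζ ^ (q ^ n - 1) = 1}

/-- the unramified level of degree `n` -/
def Nur (n : ℕ) : Subgroup GQ := Dq q ⊓ (Eur q n).fixingSubgroup

variable {q}

theorem finiteDimensional_Eur {n : ℕ} (hn : 0 < n) : FiniteDimensional ℚ (Eur q n) := by
  have hN1 : 1 < q ^ n := Roots_one_lt_pow hn
  exact Roots_finiteDimensional_adjoin (by omega)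

theorem Roots_mem_fixingSubgroup_adjoin {S : Set Qbar} {g : GQ} :
    g ∈ (IntermediateField.adjoin ℚ S).fixingSubgroup ↔ ∀ x ∈ S, g x = x := by
  rw [IntermediateField.mem_fixingSubgroup_iff]
  constructor
  · intro h x hx
    exact h x (IntermediateField.subset_adjoin ℚ S hx)
  · intro h x hx
    induction hx using IntermediateField.adjoin_induction with
    | mem x hx => exact h x hx
    | algebraMap x => exact g.commutes x
    | add x y _ _ hx hy => rw [map_add, hx, hy]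
    | inv x _ hx => rw [map_inv₀, hx]
    | mul x y _ _ hx hy => rw [map_mul, hx, hy]

theorem mem_Nur_iff {n : ℕ} {g : GQ} :
    g ∈ Nur q n ↔ g ∈ Dq q ∧ ∀ ζ : Qbar, ζ ^ (q ^ n - 1) = 1 → g ζ = ζ := by
  unfold Nur Eur
  rw [Subgroup.mem_inf, Roots_mem_fixingSubgroup_adjoin]
  rfl

/-- `Nur q n` = elements of `Dq` acting trivially on `𝔽_{q^n}` -/
theorem mem_Nur_iff' {n : ℕ} (hn : 0 < n) {g : GQ} :
    g ∈ Nur q n ↔ g ∈ Dq q ∧
      ∀ x : Qbar, nrm q x ≤ 1 → nrm q (x ^ (q ^ n) - x) < 1 → nrm q (g x - x) < 1 := by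
  have hN1 : 1 < q ^ n := Roots_one_lt_pow hn
  rw [mem_Nur_iff]
  constructor
  · rintro ⟨hg, hfix⟩
    refine ⟨hg, fun x hx hxx => ?_⟩
    rcases lt_or_eq_of_le hx with hlt | heq
    · refine (nrm_sub_le_max q _ _).trans_lt (max_lt ?_ hlt)
      rwa [nrm_map_of_mem_Dq q hg]
    · obtain ⟨ζ, hζ, hnear⟩ := exists_root_near hn heq hxx
      have e : g x - x = g (x - ζ) - (x - ζ) := by
        rw [map_sub, hfix ζ hζ]; ring
      rw [e]
      refine (nrm_sub_le_max q _ _).trans_lt (max_lt ?_ hnear)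
      rwa [nrm_map_of_mem_Dq q hg]
  · rintro ⟨hg, hres⟩
    refine ⟨hg, fun ζ hζ => ?_⟩
    have hN0 : q ^ n - 1 ≠ 0 := by omega
    apply eq_of_nrm_sub_lt_one (Roots_coprime hn) _ hζ
    · apply hres ζ (nrm_eq_one_of_pow_eq_one q hN0 hζ).le
      have e1 : ζ ^ (q ^ n) - ζ = ζ * (ζ ^ (q ^ n - 1) - 1) := by
        rw [mul_sub, mul_one, ← pow_succ', Nat.sub_add_cancel hN1.le]
      rw [e1, hζ, sub_self, mul_zero, nrm_zero]
      exact zero_lt_one
    · rw [← map_pow, hζ, map_one]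

theorem isOpenIn_Nur {n : ℕ} (hn : 0 < n) : IsOpenIn (Dq q) (Nur q n) := by
  have := finiteDimensional_Eur (q := q) hn
  exact isOpenIn_inf_fixingSubgroup (Dq q) (Eur q n)

theorem Iq_le_Nur {n : ℕ} (hn : 0 < n) : Iq q ≤ Nur q n := by
  intro g hg
  rw [mem_Nur_iff]
  exact ⟨Iq_le_Dq q hg, fun ζ hζ => map_root_of_mem_Iq (Roots_coprime hn) hζ hg⟩

theorem Nur_conj_mem {n : ℕ} {g h : GQ} (hg : g ∈ Dq q) (hh : h ∈ Nur q n) :
    g * h * g⁻¹ ∈ Nur q n := by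
  rw [mem_Nur_iff] at hh ⊢
  refine ⟨(Dq q).mul_mem ((Dq q).mul_mem hg hh.1) ((Dq q).inv_mem hg), fun ζ hζ => ?_⟩
  have h1 : h (g⁻¹ ζ) = g⁻¹ ζ := hh.2 _ (by rw [← map_pow, hζ, map_one])
  rw [AlgEquiv.mul_apply, AlgEquiv.mul_apply, h1, ← AlgEquiv.mul_apply, mul_inv_cancel,
    AlgEquiv.one_apply]

theorem Nur_le_of_dvd {n m : ℕ} (h : n ∣ m) : Nur q m ≤ Nur q n := by
  intro g hg
  rw [mem_Nur_iff] at hg ⊢
  refine ⟨hg.1, fun ζ hζ => hg.2 ζ ?_⟩
  obtain ⟨c, hc⟩ := Nat.pow_sub_one_dvd_pow_sub_one q h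
  rw [hc, pow_mul, hζ, one_pow]

theorem IsFrob.Roots_pow_map_root {φ : GQ} (hφ : IsFrob q φ) {m : ℕ} (hm : Nat.Coprime m q)
    (k : ℕ) {ζ : Qbar} (h : ζ ^ m = 1) : (φ ^ k) ζ = ζ ^ (q ^ k) := by
  induction k with
  | zero => simp
  | succ k ih =>
    rw [pow_succ', AlgEquiv.mul_apply, ih, map_pow, hφ.map_root hm h, ← pow_mul, pow_succ']

theorem Roots_pow_sub_one_dvd_iff {n : ℕ} (_hn : 0 < n) (k : ℕ) :
    q ^ n - 1 ∣ q ^ k - 1 ↔ n ∣ k := by
  constructor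
  · intro h
    have h1 := Nat.pow_sub_one_gcd_pow_sub_one q n k
    rw [Nat.gcd_eq_left h] at h1
    have hq1 : 1 < q := (Fact.out : q.Prime).one_lt
    have h2 : 1 ≤ q ^ n := Nat.one_le_pow _ _ (by omega)
    have h3 : 1 ≤ q ^ (Nat.gcd n k) := Nat.one_le_pow _ _ (by omega)
    have h4 : q ^ n = q ^ (Nat.gcd n k) := by omega
    have h5 : n = Nat.gcd n k := Nat.pow_right_injective hq1 h4
    rw [h5]
    exact Nat.gcd_dvd_right n k
  · intro h
    exact Nat.pow_sub_one_dvd_pow_sub_one q h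

theorem IsFrob.pow_mem_Nur_iff {φ : GQ} (hφ : IsFrob q φ) {n : ℕ} (hn : 0 < n) (k : ℕ) :
    φ ^ k ∈ Nur q n ↔ n ∣ k := by
  have hN1 : 1 < q ^ n := Roots_one_lt_pow hn
  have hq0 : 0 < q := (Fact.out : q.Prime).pos
  have hk1 : 1 ≤ q ^ k := Nat.one_le_pow _ _ hq0
  rw [mem_Nur_iff, ← Roots_pow_sub_one_dvd_iff (q := q) hn k]
  constructor
  · rintro ⟨_, hfix⟩
    have : NeZero (q ^ n - 1) := ⟨by omega⟩
    obtain ⟨ζ, hζ⟩ := HasEnoughRootsOfUnity.exists_primitiveRoot Qbar (q ^ n - 1)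
    have h1 := hfix ζ hζ.pow_eq_one
    rw [hφ.Roots_pow_map_root (Roots_coprime hn) k hζ.pow_eq_one] at h1
    apply hζ.dvd_of_pow_eq_one
    have hζ0 : ζ ≠ 0 := hζ.ne_zero (by omega)
    apply mul_left_cancel₀ hζ0
    rw [← pow_succ', Nat.sub_add_cancel hk1, h1, mul_one]
  · intro hd
    refine ⟨(Dq q).pow_mem hφ.1 k, fun ζ hζ => ?_⟩
    rw [hφ.Roots_pow_map_root (Roots_coprime hn) k hζ]
    obtain ⟨c, hc⟩ := hd
    have : q ^ k = (q ^ n - 1) * c + 1 := by omega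
    rw [this, pow_succ, pow_mul, hζ, one_pow, one_mul]

/-- `Dq / Nur q n` is cyclic of order `n` generated by any Frobenius -/
theorem IsFrob.exists_pow_mul_mem_Nur {φ : GQ} (hφ : IsFrob q φ) {n : ℕ} (hn : 0 < n) {g : GQ}
    (hg : g ∈ Dq q) : ∃ k : ℕ, (φ ^ k)⁻¹ * g ∈ Nur q n := by
  obtain ⟨j, hj⟩ := map_root_of_mem_Dq (Roots_coprime hn) hg
  refine ⟨j, ?_⟩
  rw [mem_Nur_iff]
  refine ⟨(Dq q).mul_mem ((Dq q).inv_mem ((Dq q).pow_mem hφ.1 j)) hg, fun ζ hζ => ?_⟩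
  rw [AlgEquiv.mul_apply, hj ζ hζ, ← hφ.Roots_pow_map_root (Roots_coprime hn) j hζ,
    ← AlgEquiv.mul_apply, inv_mul_cancel, AlgEquiv.one_apply]

theorem Roots_pow_pow_eq_self {n : ℕ} (hn : 0 < n) {k : ℕ} (hk : n ∣ k) {ζ : Qbar}
    (hζ : ζ ^ (q ^ n - 1) = 1) : ζ ^ (q ^ k) = ζ := by
  have hq0 : 0 < q := (Fact.out : q.Prime).pos
  have hk1 : 1 ≤ q ^ k := Nat.one_le_pow _ _ hq0
  obtain ⟨c, hc⟩ := (Roots_pow_sub_one_dvd_iff (q := q) hn k).2 hk
  have : q ^ k = (q ^ n - 1) * c + 1 := by omega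
  rw [this, pow_succ, pow_mul, hζ, one_pow, one_mul]

theorem Roots_acts_unique {n : ℕ} (hn : 0 < n) {g : GQ} {a b : ℕ}
    (ha : ∀ ζ : Qbar, ζ ^ (q ^ n - 1) = 1 → g ζ = ζ ^ (q ^ a))
    (hb : ∀ ζ : Qbar, ζ ^ (q ^ n - 1) = 1 → g ζ = ζ ^ (q ^ b)) : (a : ZMod n) = b := by
  obtain ⟨φ, hφ⟩ := exists_isFrob q
  wlog hab : a ≤ b generalizing a b
  · exact (this hb ha (le_of_not_ge hab)).symm
  have hmem : φ ^ (b - a) ∈ Nur q n := by
    rw [mem_Nur_iff]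
    refine ⟨(Dq q).pow_mem hφ.1 _, fun ζ hζ => ?_⟩
    apply (φ ^ a).injective
    rw [← AlgEquiv.mul_apply, ← pow_add, Nat.add_sub_cancel' hab,
      hφ.Roots_pow_map_root (Roots_coprime hn) b hζ,
      hφ.Roots_pow_map_root (Roots_coprime hn) a hζ, ← ha ζ hζ, hb ζ hζ]
  rw [hφ.pow_mem_Nur_iff hn] at hmem
  exact (ZMod.natCast_eq_natCast_iff a b n).2 ((Nat.modEq_iff_dvd' hab).2 hmem)

/-- the degree character -/
theorem exists_degChar (n : ℕ) [NeZero n] :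
    ∃ χ : Dq q →* Multiplicative (ZMod n), Function.Surjective χ ∧
      (∀ g : Dq q, χ g = 1 ↔ (g : GQ) ∈ Nur q n) ∧
      (∀ φ : Dq q, IsFrob q (φ : GQ) → χ φ = Multiplicative.ofAdd 1) := by
  have hn : 0 < n := Nat.pos_of_ne_zero (NeZero.ne n)
  have hex : ∀ g : Dq q, ∃ j : ℕ, ∀ ζ : Qbar, ζ ^ (q ^ n - 1) = 1 → (g : GQ) ζ = ζ ^ (q ^ j) :=
    fun g => map_root_of_mem_Dq (Roots_coprime hn) g.2
  choose d hd using hex
  have huniq : ∀ (g : Dq q) (k : ℕ),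
      (∀ ζ : Qbar, ζ ^ (q ^ n - 1) = 1 → (g : GQ) ζ = ζ ^ (q ^ k)) → (d g : ZMod n) = k :=
    fun g k hk => Roots_acts_unique hn (hd g) hk
  let χ : Dq q →* Multiplicative (ZMod n) :=
    { toFun := fun g => Multiplicative.ofAdd (d g : ZMod n)
      map_one' := by
        rw [huniq 1 0 (by intro ζ _; simp)]
        simp
      map_mul' := by
        intro g h
        rw [← ofAdd_add, ← Nat.cast_add, huniq (g * h) (d g + d h) ?_]
        intro ζ hζ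
        rw [Subgroup.coe_mul, AlgEquiv.mul_apply, hd h ζ hζ, map_pow, hd g ζ hζ, ← pow_mul,
          ← pow_add] }
  refine ⟨χ, ?_, ?_, ?_⟩
  · obtain ⟨φ, hφ⟩ := exists_isFrob q
    intro a
    refine ⟨⟨φ ^ (Multiplicative.toAdd a).val, (Dq q).pow_mem hφ.1 _⟩, ?_⟩
    show Multiplicative.ofAdd (d _ : ZMod n) = a
    rw [huniq _ (Multiplicative.toAdd a).val
      (fun ζ hζ => hφ.Roots_pow_map_root (Roots_coprime hn) _ hζ), ZMod.natCast_zmod_val]
    rfl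
  · intro g
    show Multiplicative.ofAdd (d g : ZMod n) = 1 ↔ _
    rw [ofAdd_eq_one, ZMod.natCast_eq_zero_iff, mem_Nur_iff]
    constructor
    · intro hdvd
      refine ⟨g.2, fun ζ hζ => ?_⟩
      rw [hd g ζ hζ, Roots_pow_pow_eq_self hn hdvd hζ]
    · rintro ⟨_, hfix⟩
      have := huniq g 0 (fun ζ hζ => by rw [hfix ζ hζ]; simp)
      rwa [Nat.cast_zero, ZMod.natCast_eq_zero_iff] at this
  · intro φ hφ
    show Multiplicative.ofAdd (d φ : ZMod n) = Multiplicative.ofAdd 1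
    rw [huniq φ 1 (fun ζ hζ => by rw [pow_one]; exact hφ.map_root (Roots_coprime hn) hζ),
      Nat.cast_one]

/-- **Loc2** (for every `n`, in particular `n = p`): a surjective unramified level character. -/
theorem loc2 (n : ℕ) [NeZero n] :
    ∃ χ : Dq q →* Multiplicative (ZMod n), Function.Surjective χ ∧
      IsOpenIn (Dq q) (χ.ker.map (Dq q).subtype) ∧ Iq q ≤ χ.ker.map (Dq q).subtype := by
  have hn : 0 < n := Nat.pos_of_ne_zero (NeZero.ne n)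
  obtain ⟨χ, hsurj, hker, _⟩ := exists_degChar (q := q) n
  have heq : χ.ker.map (Dq q).subtype = Nur q n := by
    ext x
    rw [Subgroup.mem_map]
    constructor
    · rintro ⟨g, hg, rfl⟩
      exact (hker g).1 (MonoidHom.mem_ker.1 hg)
    · intro hx
      have hxD : x ∈ Dq q := (mem_Nur_iff.1 hx).1
      exact ⟨⟨x, hxD⟩, MonoidHom.mem_ker.2 ((hker ⟨x, hxD⟩).2 hx), rfl⟩
  refine ⟨χ, hsurj, ?_, ?_⟩
  · rw [heq]; exact isOpenIn_Nur hn
  · rw [heq]; exact Iq_le_Nur hn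

end

end Fermat.Agent.S55.Places
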