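import Fermat.Agent.S55.Places.Transitive
import Fermat.Agent.S55.Places.Value

/-! # S55 (P), task P-Primes (= P11): places `g • A_l` of `Qbar` restricted to a number field `K ⊆ Qbar`
versus primes of `𝓞 K` (Mathlib `HeightOneSpectrum`).  The place `g • padicPlace l` has absolute value
`x ↦ nrm l (g⁻¹ x)`. -/

set_option autoImplicit false

open IsDedekindDomain NumberField
open scoped Pointwise

namespace Fermat.Agent.S55.Places

noncomputable section

/-- `v` is the prime of `𝓞 K` below the place `g • padicPlace l` -/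
def IsBelow (K : NF) [NumberField K] (v : HeightOneSpectrum (𝓞 K)) (l : ℕ) [Fact l.Prime]
    (g : GQ) : Prop :=
  ∀ x : 𝓞 K, x ∈ v.asIdeal ↔ nrm l (g⁻¹ (((x : K) : Qbar))) < 1

namespace Primes

theorem nrm_le_one_of_integer (K : NF) [NumberField K] (l : ℕ) [Fact l.Prime] (g : GQ)
    (x : 𝓞 K) : nrm l (g⁻¹ (((x : K) : Qbar))) ≤ 1 := by
  apply nrm_le_one_of_isIntegral
  have h1 : IsIntegral ℤ (x : K) := x.isIntegral_coe
  have h2 : IsIntegral ℤ (((x : K) : Qbar)) := map_isIntegral_int (algebraMap K Qbar) h1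
  exact map_isIntegral_int (g⁻¹ : GQ).toRingEquiv.toRingHom h2

theorem nrm_natCast_self' (l : ℕ) [Fact l.Prime] (g : GQ) :
    nrm l (g⁻¹ ((l : ℕ) : Qbar)) = (l : ℝ)⁻¹ := by
  rw [map_natCast, nrm_natCast_self]

theorem inv_natCast_lt_one (l : ℕ) [Fact l.Prime] : ((l : ℝ))⁻¹ < 1 := by
  have : (1 : ℝ) < l := by exact_mod_cast (Fact.out : l.Prime).one_lt
  exact inv_lt_one_of_one_lt₀ this

theorem mem_nonunits_iff_inv_notMem (B : ValuationSubring Qbar) {x : Qbar} (h0 : x ≠ 0) :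
    x ∈ B.nonunits ↔ x⁻¹ ∉ B := by
  rw [ValuationSubring.mem_nonunits_iff, ← not_le, not_iff_not,
    ← ValuationSubring.valuation_le_one_iff, map_inv₀]
  have hv : B.valuation x ≠ 0 := by rwa [Ne, map_eq_zero]
  rw [inv_le_one₀ (zero_lt_iff.2 hv)]

theorem mem_nonunits_smul_iff (l : ℕ) [Fact l.Prime] (g : GQ) (x : Qbar) :
    x ∈ (g • padicPlace l).nonunits ↔ nrm l (g⁻¹ x) < 1 := by
  by_cases h0 : x = 0
  · subst h0
    simp only [map_zero, nrm_zero, zero_lt_one, iff_true]
    exact (g • padicPlace l).nonunits.zero_mem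
  rw [mem_nonunits_iff_inv_notMem _ h0, mem_smul_padicPlace_iff, map_inv₀, nrm_inv, not_le]
  have hpos : 0 < nrm l (g⁻¹ x) := (nrm_pos_iff l).2 (by simpa using h0)
  rw [one_lt_inv₀ hpos]

theorem smul_padicPlace_ne_top (l : ℕ) [Fact l.Prime] (g : GQ) : g • padicPlace l ≠ ⊤ := by
  intro h
  have h1 : ((l : ℕ) : Qbar)⁻¹ ∈ g • padicPlace l := by rw [h]; trivial
  rw [mem_smul_padicPlace_iff, map_inv₀, nrm_inv, nrm_natCast_self', inv_inv] at h1
  have : (1 : ℝ) < l := by exact_mod_cast (Fact.out : l.Prime).one_lt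
  linarith

end Primes

open Primes

theorem exists_heightOne_of_place (K : NF) [NumberField K] (l : ℕ) [Fact l.Prime] (g : GQ) :
    ∃ v : HeightOneSpectrum (𝓞 K), IsBelow K v l g := by
  let P : Ideal (𝓞 K) :=
    { carrier := {x | nrm l (g⁻¹ (((x : K) : Qbar))) < 1}
      add_mem' := by
        intro a b ha hb
        simp only [Set.mem_ofPred_eq] at *
        have : (((a + b : 𝓞 K) : K) : Qbar) = ((a : K) : Qbar) + ((b : K) : Qbar) := by
          push_cast; rfl
        rw [this, map_add]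
        exact (nrm_add_le_max l _ _).trans_lt (max_lt ha hb)
      zero_mem' := by
        simp only [Set.mem_ofPred_eq]
        have : (((0 : 𝓞 K) : K) : Qbar) = 0 := by push_cast; rfl
        rw [this, map_zero, nrm_zero]
        exact zero_lt_one
      smul_mem' := by
        intro c a ha
        simp only [Set.mem_ofPred_eq, smul_eq_mul] at *
        have : (((c * a : 𝓞 K) : K) : Qbar) = ((c : K) : Qbar) * ((a : K) : Qbar) := by
          push_cast; rfl
        rw [this, map_mul, nrm_mul]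
        have h1 := nrm_le_one_of_integer K l g c
        calc _ ≤ 1 * nrm l (g⁻¹ (((a : K) : Qbar))) :=
              mul_le_mul_of_nonneg_right h1 (nrm_nonneg l _)
          _ < 1 := by rwa [one_mul] }
  have hmem : ∀ x : 𝓞 K, x ∈ P ↔ nrm l (g⁻¹ (((x : K) : Qbar))) < 1 := fun x => Iff.rfl
  have hP : P.IsPrime := by
    constructor
    · intro h
      have h1 : (1 : 𝓞 K) ∈ P := by rw [h]; trivial
      rw [hmem] at h1
      have : (((1 : 𝓞 K) : K) : Qbar) = 1 := by push_cast; rfl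
      rw [this, map_one, nrm_one] at h1
      exact lt_irrefl _ h1
    · intro a b hab
      rw [hmem] at hab
      have : (((a * b : 𝓞 K) : K) : Qbar) = ((a : K) : Qbar) * ((b : K) : Qbar) := by
        push_cast; rfl
      rw [this, map_mul, nrm_mul] at hab
      by_contra hcon
      rw [not_or, hmem, hmem, not_lt, not_lt] at hcon
      have := one_le_mul_of_one_le_of_one_le hcon.1 hcon.2
      linarith
  have hP0 : P ≠ ⊥ := by
    intro h
    have h1 : ((l : ℕ) : 𝓞 K) ∈ P := by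
      rw [hmem]
      have : ((((l : ℕ) : 𝓞 K) : K) : Qbar) = ((l : ℕ) : Qbar) := by push_cast; rfl
      rw [this, nrm_natCast_self']
      exact inv_natCast_lt_one l
    rw [h, Ideal.mem_bot] at h1
    have : (l : ℕ) = 0 := by exact_mod_cast h1
    exact (Fact.out : l.Prime).ne_zero this
  exact ⟨⟨P, hP, hP0⟩, fun x => Iff.rfl⟩

theorem IsBelow.unique {K : NF} [NumberField K] {v v' : HeightOneSpectrum (𝓞 K)} {l : ℕ}
    [Fact l.Prime] {g : GQ} (h : IsBelow K v l g) (h' : IsBelow K v' l g) : v = v' := by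
  apply HeightOneSpectrum.ext
  ext x
  rw [h x, h' x]

theorem exists_place_of_heightOne (K : NF) [NumberField K] (v : HeightOneSpectrum (𝓞 K)) :
    ∃ (l : ℕ) (_ : Fact l.Prime) (g : GQ), IsBelow K v l g := by
  let f : 𝓞 K →+* Qbar := (algebraMap K Qbar).comp (algebraMap (𝓞 K) K)
  have hf : ∀ x : 𝓞 K, f x = ((x : K) : Qbar) := fun x => rfl
  have hfinj : Function.Injective f :=
    (algebraMap K Qbar).injective.comp (RingOfIntegers.coe_injective)
  let I : Ideal f.range := v.asIdeal.map f.rangeRestrict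
  have hI : I ≠ ⊤ := by
    intro h
    have h1 : (1 : f.range) ∈ I := by rw [h]; trivial
    rw [Ideal.mem_map_iff_of_surjective _ f.rangeRestrict_surjective] at h1
    obtain ⟨x, hx, hx1⟩ := h1
    have h2 : f x = 1 := congrArg Subtype.val hx1
    have h3 : x = 1 := hfinj (by rw [h2, map_one])
    rw [h3] at hx
    exact v.isPrime.ne_top ((Ideal.eq_top_iff_one _).2 hx)
  obtain ⟨B, -, hB⟩ := Ideal.image_subset_nonunits_valuationSubring I hI
  have hB' : ∀ x ∈ v.asIdeal, f x ∈ B.nonunits := by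
    intro x hx
    apply hB
    exact ⟨f.rangeRestrict x, Ideal.mem_map_of_mem _ hx, rfl⟩
  have hBtop : B ≠ ⊤ := by
    intro h
    obtain ⟨x, hx, hx0⟩ := Submodule.exists_mem_ne_zero_of_ne_bot v.ne_bot
    have h1 := hB' x hx
    have h2 : f x ≠ 0 := by
      intro h3; exact hx0 (hfinj (by rw [h3, map_zero]))
    rw [mem_nonunits_iff_inv_notMem _ h2, h] at h1
    exact h1 trivial
  obtain ⟨l, hl, hlB⟩ := exists_prime_liesOver B hBtop
  have : Fact l.Prime := ⟨hl⟩
  obtain ⟨g, hg⟩ := exists_smul_padicPlace_eq l B hlB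
  obtain ⟨v', hv'⟩ := exists_heightOne_of_place K l g
  have hle : v.asIdeal ≤ v'.asIdeal := by
    intro x hx
    rw [hv' x, ← mem_nonunits_smul_iff, hg]
    exact hB' x hx
  have heq : v.asIdeal = v'.asIdeal := v.isMaximal.eq_of_le v'.isPrime.ne_top hle
  have : v = v' := HeightOneSpectrum.ext heq
  exact ⟨l, ⟨hl⟩, g, this ▸ hv'⟩

/-- comparison of the valuations -/
theorem IsBelow.exists_nrm_eq {K : NF} [NumberField K] {v : HeightOneSpectrum (𝓞 K)} {l : ℕ}
    [Fact l.Prime] {g : GQ} (h : IsBelow K v l g) :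
    ∃ c : ℝ, 0 < c ∧ c < 1 ∧ ∀ x : K, x ≠ 0 →
      nrm l (g⁻¹ (x : Qbar)) = c ^ (- WithZero.log (v.valuation K x)) := by
  obtain ⟨π, hπ'⟩ := v.valuation_exists_uniformizer' K
  have hπ : v.valuation K (π : K) = WithZero.exp (-1 : ℤ) := hπ'
  have hπ0 : (π : K) ≠ 0 := by
    intro h0
    rw [h0, map_zero] at hπ
    exact WithZero.exp_ne_zero hπ.symm
  have hone : ∀ d : 𝓞 K, d ∉ v.asIdeal → nrm l (g⁻¹ (((d : K) : Qbar))) = 1 := by
    intro d hd
    rw [h d, not_lt] at hd
    exact le_antisymm (nrm_le_one_of_integer K l g d) hd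
  -- units
  have hunit : ∀ u : K, v.valuation K u = 1 → nrm l (g⁻¹ (u : Qbar)) = 1 := by
    intro u hu
    obtain ⟨n, d, hnd⟩ := v.exists_primeCompl_mul_eq_of_integer u hu.le
    have hd : (d : 𝓞 K) ∉ v.asIdeal := d.2
    have hn : n ∉ v.asIdeal := by
      rw [← v.valuation_eq_one_iff_notMem (K := K), ← hnd, map_mul, hu, one_mul,
        v.valuation_eq_one_iff_notMem]
      exact hd
    have h1 := hone _ hd
    have h2 := hone _ hn
    have h3 : (u : Qbar) * ((((d : 𝓞 K) : K)) : Qbar) = (((n : K)) : Qbar) :=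
      congrArg (fun y : K => (y : Qbar)) hnd
    rw [← h3, map_mul, nrm_mul, h1, mul_one] at h2
    exact h2
  refine ⟨nrm l (g⁻¹ (((π : K) : Qbar))), ?_, ?_, ?_⟩
  · rw [nrm_pos_iff]
    simpa using hπ0
  · rw [← h π, ← v.valuation_lt_one_iff_mem (K := K), hπ, ← WithZero.exp_zero,
      WithZero.exp_lt_exp]
    norm_num
  · intro x hx
    have hvx : v.valuation K x ≠ 0 := by rwa [Ne, map_eq_zero]
    set n : ℤ := - WithZero.log (v.valuation K x) with hn
    have hu : v.valuation K (x * ((π : K)) ^ (-n)) = 1 := by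
      rw [map_mul, map_zpow₀, hπ, ← WithZero.exp_zsmul, ← WithZero.exp_log hvx,
        ← WithZero.exp_add, WithZero.exp_eq_one]
      simp only [hn, smul_eq_mul]
      ring
    have h1 := hunit _ hu
    have h2 : ((x * ((π : K)) ^ (-n) : K) : Qbar) = (x : Qbar) * (((π : K) : Qbar)) ^ (-n) := by
      push_cast; rfl
    rw [h2, map_mul, map_zpow₀, nrm_mul, nrm_zpow, zpow_neg] at h1
    have hc : nrm l (g⁻¹ (((π : K) : Qbar))) ^ n ≠ 0 := by
      apply zpow_ne_zero
      rw [Ne, nrm_eq_zero_iff]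
      simpa using hπ0
    field_simp at h1
    exact h1

/-- two places of `Qbar` over `l` have the same restriction to `K` iff they are conjugate under
`Gal(Qbar/K)`, i.e. `g' ∈ Gal(Qbar/K) g D_l`. -/
theorem isBelow_iff_of_isBelow {K : NF} [NumberField K] {v : HeightOneSpectrum (𝓞 K)} {l : ℕ}
    [Fact l.Prime] {g : GQ} (h : IsBelow K v l g) (g' : GQ) :
    IsBelow K v l g' ↔ ∃ u ∈ K.fixingSubgroup, ∃ d ∈ Dq l, g' = u * g * d := by
  constructor
  · intro h'
    obtain ⟨c, hc0, hc1, hc⟩ := h.exists_nrm_eq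
    obtain ⟨c', hc0', hc1', hc'⟩ := h'.exists_nrm_eq
    have hres : ∀ x ∈ K, x ∈ g • padicPlace l ↔ x ∈ g' • padicPlace l := by
      intro x hx
      rw [mem_smul_padicPlace_iff, mem_smul_padicPlace_iff]
      by_cases h0 : x = 0
      · subst h0; simp
      have h0' : (⟨x, hx⟩ : K) ≠ 0 := by
        intro h1; exact h0 (congrArg Subtype.val h1)
      have e1 := hc ⟨x, hx⟩ h0'
      have e2 := hc' ⟨x, hx⟩ h0'
      simp only at e1 e2
      rw [e1, e2, zpow_le_one_iff_right_of_lt_one₀ hc0 hc1,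
        zpow_le_one_iff_right_of_lt_one₀ hc0' hc1']
    obtain ⟨u, hu, hu'⟩ := exists_smul_eq_of_restrict_eq K _ _ (smul_padicPlace_ne_top l g) hres
    refine ⟨u, hu, (u * g)⁻¹ * g', ?_, by group⟩
    unfold Dq
    rw [ValuationSubring.decompositionSubgroup, MulAction.mem_stabilizer_iff, mul_smul, ← hu',
      ← mul_smul, ← mul_smul]
    simp
  · rintro ⟨u, hu, d, hd, rfl⟩ x
    rw [h x]
    have h1 : (u * g * d)⁻¹ (((x : K) : Qbar)) = d⁻¹ (g⁻¹ (u⁻¹ (((x : K) : Qbar)))) := by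
      rw [mul_inv_rev, mul_inv_rev]; rfl
    have h2 : u⁻¹ (((x : K) : Qbar)) = ((x : K) : Qbar) := by
      have := (IntermediateField.mem_fixingSubgroup_iff K u⁻¹).1 (K.fixingSubgroup.inv_mem hu)
        _ (x : K).2
      exact this
    rw [h1, h2, nrm_map_of_mem_Dq l ((Dq l).inv_mem hd)]

theorem IsBelow.prime_unique {K : NF} [NumberField K] {v : HeightOneSpectrum (𝓞 K)} {l l' : ℕ}
    [Fact l.Prime] [Fact l'.Prime] {g g' : GQ} (h : IsBelow K v l g) (h' : IsBelow K v l' g') :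
    l = l' := by
  by_contra hne
  have hcop : Nat.Coprime l l' :=
    (Nat.coprime_primes (Fact.out : l.Prime) (Fact.out : l'.Prime)).2 hne
  have h1 : ((l : ℕ) : 𝓞 K) ∈ v.asIdeal := by
    rw [h]
    have : ((((l : ℕ) : 𝓞 K) : K) : Qbar) = ((l : ℕ) : Qbar) := by push_cast; rfl
    rw [this, nrm_natCast_self']
    exact inv_natCast_lt_one l
  have h2 : ((l' : ℕ) : 𝓞 K) ∈ v.asIdeal := by
    rw [h']
    have : ((((l' : ℕ) : 𝓞 K) : K) : Qbar) = ((l' : ℕ) : Qbar) := by push_cast; rfl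
    rw [this, nrm_natCast_self']
    exact inv_natCast_lt_one l'
  have h3 : IsCoprime (l : ℤ) (l' : ℤ) := Nat.isCoprime_iff_coprime.2 hcop
  obtain ⟨a, b, hab⟩ := h3
  have h4 : (1 : 𝓞 K) ∈ v.asIdeal := by
    have : (1 : 𝓞 K) = (a : 𝓞 K) * ((l : ℕ) : 𝓞 K) + (b : 𝓞 K) * ((l' : ℕ) : 𝓞 K) := by
      have := congrArg (fun z : ℤ => (z : 𝓞 K)) hab
      push_cast at this
      exact this.symm
    rw [this]
    exact v.asIdeal.add_mem (v.asIdeal.mul_mem_left _ h1) (v.asIdeal.mul_mem_left _ h2)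
  exact v.isPrime.ne_top ((Ideal.eq_top_iff_one _).2 h4)

end

end Fermat.Agent.S55.Places
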