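import Fermat.Agent.S55.Places.UnramQuot
import Fermat.Agent.S55.Places.Value

/-! # S55 (P), task P-Unram (= P9, P10, P14(b), P15). -/

set_option autoImplicit false

namespace Fermat.Agent.S55.Places

noncomputable section

attribute [local instance] isAlgClosureQbar

variable {q : ℕ} [Fact q.Prime]

/-- **P10** (Kummer, unramified): `β^n = u`, `u` a unit at `q`, `(n, q) = 1`; an element of the inertia group
fixing `u` fixes `β`.  [`ζ' = g β / β ∈ μ_n`, `|ζ' - 1| < 1`, `eq_of_nrm_sub_lt_one`.] -/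
theorem map_root_eq_of_mem_Iq {n : ℕ} (hn : Nat.Coprime n q) {u β : Qbar} (hu : nrm q u = 1)
    (hβ : β ^ n = u) {g : GQ} (hg : g ∈ Iq q) (hgu : g u = u) : g β = β := by
  have hq : q.Prime := Fact.out
  have hn0 : n ≠ 0 := by
    rintro rfl
    rw [Nat.coprime_zero_left] at hn
    exact hq.one_lt.ne' hn
  have hβ1 : nrm q β = 1 := by
    have h1 : nrm q β ^ n = 1 := by rw [← nrm_pow, hβ, hu]
    exact (pow_eq_one_iff_of_nonneg (nrm_nonneg q β) hn0).1 h1
  have hβ0 : β ≠ 0 := by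
    rw [← nrm_pos_iff q, hβ1]; exact one_pos
  have hlt : nrm q (g β - β) < 1 := ((mem_Iq_iff q).1 hg).2 β hβ1.le
  have h1 : (g β / β) ^ n = 1 := by
    rw [div_pow, ← map_pow, hβ, hgu, div_self]
    rw [← hβ]; exact pow_ne_zero _ hβ0
  have h2 : nrm q (g β / β - 1) < 1 := by
    have : g β / β - 1 = (g β - β) / β := by field_simp
    rw [this, nrm_div, hβ1, div_one]; exact hlt
  have h3 := eq_of_nrm_sub_lt_one hn h1 (one_pow n) h2
  rwa [div_eq_one_iff_eq hβ0] at h3

/-- variant: `u = c^n * unit` -/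
theorem map_root_eq_of_mem_Iq' {n : ℕ} (hn : Nat.Coprime n q) {u c β : Qbar} (hc : c ≠ 0)
    (hu : nrm q u = nrm q c ^ n) (hβ : β ^ n = u) {g : GQ} (hg : g ∈ Iq q) (hgu : g u = u)
    (hgc : g c = c) : g β = β := by
  have hcn : nrm q c ≠ 0 := by rw [Ne, nrm_eq_zero_iff]; exact hc
  have h := map_root_eq_of_mem_Iq (q := q) hn (u := u / c ^ n) (β := β / c)
    (by rw [nrm_div, nrm_pow, hu, div_self (pow_ne_zero _ hcn)])
    (by rw [div_pow, hβ]) hg (by rw [map_div₀, map_pow, hgu, hgc])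
  rw [map_div₀, hgc] at h
  exact (div_left_inj' hc).1 h

namespace Unram

/-- elements of the same coset of `W'` act in the same way on `Fix W'` -/
theorem map_eq_of_coset {W W' : Subgroup GQ} {z : Qbar} (hz : z ∈ Fix W') {a b : W}
    (h : (a : W ⧸ W'.subgroupOf W) = b) : (a : GQ) z = (b : GQ) z := by
  rw [QuotientGroup.eq, Subgroup.mem_subgroupOf] at h
  have h1 := (mem_Fix_iff).1 hz _ h
  have h2 : (b : GQ) z = (a : GQ) (((a⁻¹ * b : W) : GQ) z) := by
    show _ = ((a : GQ) * ((a⁻¹ * b : W) : GQ)) z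
    congr 1
    simp
  rw [h2, h1]

/-- the trace from `Fix W'` to `Fix W` -/
def tr (W W' : Subgroup GQ) [Fintype (W ⧸ W'.subgroupOf W)] (z : Qbar) : Qbar :=
  ∑ c : W ⧸ W'.subgroupOf W, ((Quotient.out c : W) : GQ) z

theorem tr_mem {W W' : Subgroup GQ} [Fintype (W ⧸ W'.subgroupOf W)] {z : Qbar}
    (hz : z ∈ Fix W') : tr W W' z ∈ Fix W := by
  rw [mem_Fix_iff]
  intro g hg
  unfold tr
  rw [map_sum]
  have key : ∀ c : W ⧸ W'.subgroupOf W,
      g (((Quotient.out c : W) : GQ) z) =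
        ((Quotient.out ((⟨g, hg⟩ : W) • c) : W) : GQ) z := by
    intro c
    have h1 : (((⟨g, hg⟩ : W) * Quotient.out c : W) : W ⧸ W'.subgroupOf W) =
        (Quotient.out ((⟨g, hg⟩ : W) • c) : W) := by
      rw [QuotientGroup.out_eq']
      conv_rhs => rw [← QuotientGroup.out_eq' c]
      rfl
    exact map_eq_of_coset hz h1
  rw [Finset.sum_congr rfl fun c _ => key c]
  exact Equiv.sum_comp (MulAction.toPerm (⟨g, hg⟩ : W))
    (fun c : W ⧸ W'.subgroupOf W => ((Quotient.out c : W) : GQ) z)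

/-- the residue field of the standard place -/
abbrev kq (q : ℕ) [Fact q.Prime] : Type := IsLocalRing.ResidueField (padicPlace q)

/-- reduction -/
def red (q : ℕ) [Fact q.Prime] (x : Qbar) (hx : nrm q x ≤ 1) : kq q :=
  IsLocalRing.residue (padicPlace q) ⟨x, (mem_padicPlace_iff_nrm q).2 hx⟩

theorem residue_eq_zero_iff (a : padicPlace q) :
    IsLocalRing.residue (padicPlace q) a = 0 ↔ nrm q (a : Qbar) < 1 := by
  rw [IsLocalRing.residue_eq_zero_iff, ← ValuationSubring.coe_mem_nonunits_iff,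
    mem_nonunits_iff_nrm]

/-- the character `ξ ↦ g ξ mod m` -/
def chi (W' : Subgroup GQ) (g : GQ) (hg : g ∈ Dq q) : ringOf q W' →* kq q where
  toFun ξ := red q (g ((ξ : Fix W') : Qbar)) (by rw [nrm_map_of_mem_Dq q hg]; exact ξ.2)
  map_one' := by
    unfold red
    rw [← map_one (IsLocalRing.residue (padicPlace q))]
    congr 1
    apply Subtype.ext
    simp
  map_mul' ξ η := by
    unfold red
    rw [← map_mul (IsLocalRing.residue (padicPlace q))]
    congr 1
    apply Subtype.ext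
    simp

/-- an element of `W` acting trivially on the residue field of `Fix W'` lies in `W'` -/
theorem mem_of_trivial_on_residue {W W' : Subgroup GQ} (hW : IsOpenIn (Dq q) W)
    (hW' : IsOpenIn W W') (hI : W ⊓ Iq q ≤ W') {γ : GQ} (hγ : γ ∈ W)
    (h : ∀ ξ ∈ Fix W', nrm q ξ ≤ 1 → nrm q (γ ξ - ξ) < 1) : γ ∈ W' := by
  obtain ⟨K, hK, hWK, hFix⟩ := (hW.trans hW').exists_numberField
  have hKle : K ≤ Fix W' := by rw [hFix]; exact le_sup_right
  obtain ⟨h', hh', hi⟩ := exists_mem_fixing_mul_inertia (q := q) K (hW.1 hγ)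
    (fun x hx h1 => h x (hKle hx) h1)
  rw [← hWK] at hh'
  have hiW : h'⁻¹ * γ ∈ W' := hI ⟨W.mul_mem (W.inv_mem (hW'.1 hh')) hγ, hi⟩
  have := W'.mul_mem hh' hiW
  rwa [mul_inv_cancel_left] at this

end Unram

/-- **P9**, relative form: an unramified extension has the same value group.
Suggested proof: by `exists_Nur_le` wlog `W' = W ∩ Nur q m`, so `Fix W' = (Fix W)(ζ)`, `ζ` a primitive
`(q^m-1)`-th root of unity; the `d = [W:W']` conjugates of `ζ` over `Fix W` are distinct mod `m`; for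
`x = ∑_{i<d} aᵢ ζ^i`, `aᵢ ∈ Fix W`: `|x| = max |aᵢ|` (Vandermonde with unit determinant:
`aᵢ` is an integral combination of the conjugates `g x`, all of absolute value `|x|`). -/
theorem exists_nrm_eq_of_unramified {W W' : Subgroup GQ} (hW : IsOpenIn (Dq q) W)
    (hW' : IsOpenIn W W') (hI : W ⊓ Iq q ≤ W') {x : Qbar} (hx : x ∈ Fix W') :
    ∃ y ∈ Fix W, nrm q y = nrm q x := by
  classical
  by_cases hx0 : x = 0
  · exact ⟨0, (Fix W).zero_mem, by rw [hx0]⟩
  have : (W'.subgroupOf W).FiniteIndex := ⟨hW'.finiteIndex⟩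
  let _ : Fintype (W ⧸ W'.subgroupOf W) := Fintype.ofFinite _
  have hxn : nrm q x ≠ 0 := by rw [Ne, nrm_eq_zero_iff]; exact hx0
  have hD : ∀ c : W ⧸ W'.subgroupOf W, ((Quotient.out c : W) : GQ) ∈ Dq q :=
    fun c => hW.1 (Quotient.out c : W).2
  -- the characters are distinct
  have hinj : Function.Injective
      (fun c : W ⧸ W'.subgroupOf W => Unram.chi (q := q) W' _ (hD c)) := by
    intro c d hcd
    rw [← QuotientGroup.out_eq' c, ← QuotientGroup.out_eq' d, QuotientGroup.eq,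
      Subgroup.mem_subgroupOf]
    refine Unram.mem_of_trivial_on_residue hW hW' hI (SetLike.coe_mem _) ?_
    intro ξ hξ h1
    have h2 := DFunLike.congr_fun hcd (⟨⟨ξ, hξ⟩, h1⟩ : ringOf q W')
    have h3 : nrm q (((Quotient.out d : W) : GQ) ξ - ((Quotient.out c : W) : GQ) ξ) < 1 := by
      have h4 := sub_eq_zero.2 h2.symm
      simp only [Unram.chi, Unram.red, MonoidHom.coe_mk, OneHom.coe_mk] at h4
      rw [← map_sub, Unram.residue_eq_zero_iff] at h4
      exact h4
    have h5 : (((Quotient.out c : W)⁻¹ * (Quotient.out d : W) : W) : GQ) ξ - ξ =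
        ((Quotient.out c : W) : GQ)⁻¹
          (((Quotient.out d : W) : GQ) ξ - ((Quotient.out c : W) : GQ) ξ) := by
      rw [map_sub]
      congr 1
      show ξ = (((Quotient.out c : W) : GQ)⁻¹ * ((Quotient.out c : W) : GQ)) ξ
      rw [inv_mul_cancel]; rfl
    rw [h5, nrm_map_of_mem_Dq q ((Dq q).inv_mem (hD c))]
    exact h3
  have hli : LinearIndependent (Unram.kq q)
      (fun c : W ⧸ W'.subgroupOf W =>
        (Unram.chi (q := q) W' _ (hD c) : ringOf q W' → Unram.kq q)) :=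
    (linearIndependent_monoidHom (ringOf q W') (Unram.kq q)).comp _ hinj
  -- coefficients
  have hu : ∀ c : W ⧸ W'.subgroupOf W, nrm q (((Quotient.out c : W) : GQ) x / x) = 1 := by
    intro c
    rw [nrm_div, nrm_map_of_mem_Dq q (hD c), div_self hxn]
  have hex : ∃ ξ : ringOf q W', ∑ c : W ⧸ W'.subgroupOf W,
      Unram.red q _ (hu c).le * Unram.chi (q := q) W' _ (hD c) ξ ≠ 0 := by
    by_contra hcon
    push Not at hcon
    have h0 : ∑ c : W ⧸ W'.subgroupOf W, Unram.red q _ (hu c).le •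
        (Unram.chi (q := q) W' _ (hD c) : ringOf q W' → Unram.kq q) = 0 := by
      funext ξ
      rw [Finset.sum_apply]
      simpa using hcon ξ
    have h1 := Fintype.linearIndependent_iff.1 hli _ h0 ((1 : W) : W ⧸ W'.subgroupOf W)
    unfold Unram.red at h1
    rw [Unram.residue_eq_zero_iff] at h1
    simp only at h1
    rw [hu] at h1
    exact lt_irrefl _ h1
  obtain ⟨ξ, hξ⟩ := hex
  have hz : x * ((ξ : Fix W') : Qbar) ∈ Fix W' := (Fix W').mul_mem hx (ξ : Fix W').2
  refine ⟨Unram.tr W W' (x * ((ξ : Fix W') : Qbar)), Unram.tr_mem hz, ?_⟩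
  simp only [Unram.chi, Unram.red, MonoidHom.coe_mk, OneHom.coe_mk] at hξ
  simp only [← map_mul, ← map_sum] at hξ
  rw [Ne, Unram.residue_eq_zero_iff, not_lt] at hξ
  have hcoe : ((∑ c : W ⧸ W'.subgroupOf W,
      (⟨((Quotient.out c : W) : GQ) x / x, (mem_padicPlace_iff_nrm q).2 (hu c).le⟩ : padicPlace q) *
      ⟨((Quotient.out c : W) : GQ) ((ξ : Fix W') : Qbar), (mem_padicPlace_iff_nrm q).2
        (by rw [nrm_map_of_mem_Dq q (hD c)]; exact ξ.2)⟩ : padicPlace q) : Qbar) =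
      Unram.tr W W' (x * ((ξ : Fix W') : Qbar)) / x := by
    unfold Unram.tr
    rw [Finset.sum_div]
    push_cast
    refine Finset.sum_congr rfl fun c _ => ?_
    rw [map_mul]
    ring
  have hle : nrm q (Unram.tr W W' (x * ((ξ : Fix W') : Qbar)) / x) ≤ 1 := by
    rw [← hcoe]
    exact (mem_padicPlace_iff_nrm q).1 (SetLike.coe_mem _)
  rw [hcoe] at hξ
  have heq := le_antisymm hle hξ
  rw [nrm_div, div_eq_one_iff_eq hxn] at heq
  exact heq

/-- **P9**, absolute form -/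
theorem nrm_of_unramified (E : NF) [FiniteDimensional ℚ E] (hI : Iq q ≤ E.fixingSubgroup)
    {x : Qbar} (hx : x ∈ E) (h0 : x ≠ 0) : ∃ k : ℤ, nrm q x = (q : ℝ) ^ k := by
  have hx' : x ∈ Fix (Dq q ⊓ E.fixingSubgroup) := by
    rw [mem_Fix_iff]
    intro g hg
    exact (IntermediateField.mem_fixingSubgroup_iff E g).1 hg.2 x hx
  obtain ⟨y, hy, hyx⟩ := exists_nrm_eq_of_unramified (q := q) (IsOpenIn.refl (Dq q))
    (isOpenIn_inf_fixingSubgroup (Dq q) E) (fun g hg => ⟨hg.1, hI hg.2⟩) hx'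
  have hy0 : y ≠ 0 := by
    rw [← nrm_pos_iff q, hyx, nrm_pos_iff]; exact h0
  obtain ⟨k, hk⟩ := nrm_Qh q hy hy0
  exact ⟨k, by rw [← hyx, hk]⟩

/-- **P14(b)**: if `W ∩ Iq` fixes an `n`-th root of `b ∈ Fix W` then `|b|` is an `n`-th power in the value
group of `Fix W`. -/
theorem exists_nrm_pow_of_root_fixed {W : Subgroup GQ} (hW : IsOpenIn (Dq q) W) {n : ℕ}
    {b β : Qbar} (hb : b ∈ Fix W) (hβ : β ^ n = b) (hfix : ∀ g ∈ W ⊓ Iq q, g β = β) :
    ∃ y ∈ Fix W, nrm q b = nrm q y ^ n := by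
  have hfd : FiniteDimensional ℚ (IntermediateField.adjoin ℚ {β}) :=
    IntermediateField.adjoin.finiteDimensional (Algebra.IsIntegral.isIntegral β)
  have hmem : ∀ g : GQ, g β = β → g ∈ (IntermediateField.adjoin ℚ {β}).fixingSubgroup := by
    intro g hg
    rw [IntermediateField.mem_fixingSubgroup_iff]
    intro x hx
    have hle : IntermediateField.adjoin ℚ {β} ≤ Fix (Subgroup.zpowers g) := by
      rw [IntermediateField.adjoin_simple_le_iff, mem_Fix_iff]
      intro k hk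
      obtain ⟨m, rfl⟩ := Subgroup.mem_zpowers_iff.1 hk
      have hstab : g ∈ MulAction.stabilizer GQ β := hg
      exact (MulAction.stabilizer GQ β).zpow_mem hstab m
    exact (mem_Fix_iff).1 (hle hx) g (Subgroup.mem_zpowers g)
  have hβ' : β ∈ Fix (W ⊓ (IntermediateField.adjoin ℚ {β}).fixingSubgroup) := by
    rw [mem_Fix_iff]
    intro g hg
    exact (IntermediateField.mem_fixingSubgroup_iff _ g).1 hg.2 β
      (IntermediateField.mem_adjoin_simple_self ℚ β)
  obtain ⟨y, hy, hyβ⟩ := exists_nrm_eq_of_unramified (q := q) hW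
    (isOpenIn_inf_fixingSubgroup W (IntermediateField.adjoin ℚ {β}))
    (fun g hg => ⟨hg.1, hmem g (hfix g hg)⟩) hβ'
  exact ⟨y, hy, by rw [← hβ, nrm_pow, hyβ]⟩

namespace Unram

/-- an algebraic number has an integral multiple -/
theorem exists_nat_mul_integral (δ : Qbar) :
    ∃ N : ℕ, N ≠ 0 ∧ IsIntegral ℤ ((N : Qbar) * δ) := by
  have halg : IsAlgebraic ℤ δ := by
    have h : IsAlgebraic ℚ δ := Algebra.IsAlgebraic.isAlgebraic δ
    exact (IsFractionRing.isAlgebraic_iff ℤ ℚ Qbar).2 h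
  obtain ⟨y, hy0, hy⟩ := halg.exists_integral_multiple
  refine ⟨y.natAbs, Int.natAbs_ne_zero.2 hy0, ?_⟩
  rcases Int.natAbs_eq y with h | h
  · have : ((y.natAbs : ℕ) : Qbar) * δ = y • δ := by
      rw [zsmul_eq_mul]; congr 1
      conv_rhs => rw [h]
      simp
    rw [this]; exact hy
  · have : ((y.natAbs : ℕ) : Qbar) * δ = -(y • δ) := by
      rw [zsmul_eq_mul, ← neg_mul]; congr 1
      conv_rhs => rw [h]
      simp
    rw [this]; exact hy.neg

theorem exists_nat_nrm_eq_one (δ : Qbar) (hδ : δ ≠ 0) :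
    ∃ N : ℕ, N ≠ 0 ∧ ∀ (l : ℕ) [Fact l.Prime], ¬ l ∣ N → nrm l δ = 1 := by
  obtain ⟨a, ha0, ha⟩ := exists_nat_mul_integral δ
  obtain ⟨b, hb0, hb⟩ := exists_nat_mul_integral δ⁻¹
  refine ⟨a * b, mul_ne_zero ha0 hb0, ?_⟩
  intro l _ hl
  have hlp : l.Prime := Fact.out
  have hla : Nat.Coprime a l := by
    rw [Nat.coprime_comm, hlp.coprime_iff_not_dvd]
    exact fun h => hl (h.mul_right b)
  have hlb : Nat.Coprime b l := by
    rw [Nat.coprime_comm, hlp.coprime_iff_not_dvd]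
    exact fun h => hl (h.mul_left a)
  have h1 := nrm_le_one_of_isIntegral l ha
  have h2 := nrm_le_one_of_isIntegral l hb
  rw [nrm_mul, nrm_natCast_eq_one l hla, one_mul] at h1
  rw [nrm_mul, nrm_natCast_eq_one l hlb, one_mul, nrm_inv] at h2
  have hpos : 0 < nrm l δ := (nrm_pos_iff l).2 hδ
  refine le_antisymm h1 ?_
  rwa [inv_le_one₀ hpos] at h2

theorem exists_nat_nrm_eq_one_finset (s : Finset Qbar) :
    ∃ N : ℕ, N ≠ 0 ∧ ∀ (l : ℕ) [Fact l.Prime], ¬ l ∣ N → ∀ δ ∈ s, δ ≠ 0 → nrm l δ = 1 := by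
  classical
  induction s using Finset.induction_on with
  | empty => exact ⟨1, one_ne_zero, fun l _ _ δ hδ => absurd hδ (Finset.notMem_empty δ)⟩
  | insert a s _ ih =>
    obtain ⟨N, hN0, hN⟩ := ih
    by_cases ha : a = 0
    · refine ⟨N, hN0, fun l _ hl δ hδ h0 => ?_⟩
      rcases Finset.mem_insert.1 hδ with rfl | h
      · exact absurd ha h0
      · exact hN l hl δ h h0
    · obtain ⟨M, hM0, hM⟩ := exists_nat_nrm_eq_one a ha
      refine ⟨N * M, mul_ne_zero hN0 hM0, fun l _ hl δ hδ h0 => ?_⟩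
      rcases Finset.mem_insert.1 hδ with rfl | h
      · exact hM l (fun h => hl (h.mul_left N))
      · exact hN l (fun h => hl (h.mul_right M)) δ h h0

end Unram

/-- **P15**: a number field is unramified at almost all primes.
[wlog Galois, `E = ℚ(θ)`, `θ` integral, `l ∤ disc`: the conjugates of `θ` are distinct mod `m`.] -/
theorem exists_finset_unramified (E : NF) [FiniteDimensional ℚ E] :
    ∃ T : Finset ℕ, ∀ (l : ℕ) [Fact l.Prime], l ∉ T →
      ∀ g : GQ, ∀ h ∈ Iq l, g * h * g⁻¹ ∈ E.fixingSubgroup := by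
  classical
  let b := Module.finBasis ℚ E
  -- all conjugates of the basis elements
  let R : Finset Qbar := Finset.univ.biUnion fun i => ((minpoly ℚ ((b i : E) : Qbar)).aroots Qbar).toFinset
  let P : Finset Qbar := R ∪ (R ×ˢ R).image fun z => z.1 - z.2
  obtain ⟨N, hN0, hN⟩ := Unram.exists_nat_nrm_eq_one_finset P
  refine ⟨N.primeFactors, ?_⟩
  intro l _ hl g h hh
  have hlp : l.Prime := Fact.out
  have hlN : ¬ l ∣ N := fun hd => hl (Nat.mem_primeFactors.2 ⟨hlp, hd, hN0⟩)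
  have hmemR : ∀ (σ : GQ) (i), σ ((b i : E) : Qbar) ∈ R := by
    intro σ i
    refine Finset.mem_biUnion.2 ⟨i, Finset.mem_univ _, ?_⟩
    rw [Multiset.mem_toFinset, Polynomial.mem_aroots]
    refine ⟨minpoly.ne_zero (Algebra.IsIntegral.isIntegral _), ?_⟩
    rw [Polynomial.aeval_algHom_apply, minpoly.aeval, map_zero]
  -- `h` fixes every element of `R`
  have hfixR : ∀ (σ : GQ) (i), h (σ ((b i : E) : Qbar)) = σ ((b i : E) : Qbar) := by
    intro σ i
    by_contra hne
    have h1 : σ ((b i : E) : Qbar) ∈ R := hmemR σ i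
    have h2 : h (σ ((b i : E) : Qbar)) ∈ R := hmemR (h * σ) i
    have h3 : nrm l (h (σ ((b i : E) : Qbar)) - σ ((b i : E) : Qbar)) = 1 := by
      refine hN l hlN _ ?_ (sub_ne_zero.2 hne)
      exact Finset.mem_union_right _ (Finset.mem_image.2 ⟨(_, _), Finset.mem_product.2 ⟨h2, h1⟩, rfl⟩)
    have h4 : nrm l (σ ((b i : E) : Qbar)) ≤ 1 := by
      by_cases h0 : σ ((b i : E) : Qbar) = 0
      · rw [h0, nrm_zero]; exact zero_le_one
      · exact (hN l hlN _ (Finset.mem_union_left _ h1) h0).le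
    have h5 := ((mem_Iq_iff l).1 hh).2 _ h4
    rw [h3] at h5
    exact lt_irrefl _ h5
  rw [IntermediateField.mem_fixingSubgroup_iff]
  intro x hx
  have hb : ∀ i, (g * h * g⁻¹) ((b i : E) : Qbar) = ((b i : E) : Qbar) := by
    intro i
    show g (h (g⁻¹ ((b i : E) : Qbar))) = _
    rw [hfixR g⁻¹ i]
    show (g * g⁻¹) _ = _
    rw [mul_inv_cancel]; rfl
  have hlin : ((g * h * g⁻¹ : GQ).toAlgHom.toLinearMap.comp E.val.toLinearMap) = E.val.toLinearMap :=
    b.ext fun i => hb i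
  exact LinearMap.congr_fun hlin ⟨x, hx⟩

end

end Fermat.Agent.S55.Places
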