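import Fermat.Agent.S55.Places.Defs

/-! # S55 (P), task P-Norm: basic API of the `q`-adic absolute value `nrm q` on `Qbar`,
characterisation of `Dq`, `Iq` as isometries. -/

set_option autoImplicit false

open scoped Pointwise

namespace Fermat.Agent.S55.Places

noncomputable section

variable (q : ℕ) [Fact q.Prime]

@[simp] theorem nrm_zero : nrm q 0 = 0 := by simp [nrm]
@[simp] theorem nrm_one : nrm q 1 = 1 := by simp [nrm]
theorem nrm_nonneg (x : Qbar) : 0 ≤ nrm q x := norm_nonneg _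
theorem nrm_eq_zero_iff {x : Qbar} : nrm q x = 0 ↔ x = 0 := by
  rw [nrm, norm_eq_zero, map_eq_zero]
theorem nrm_pos_iff {x : Qbar} : 0 < nrm q x ↔ x ≠ 0 := by
  rw [lt_iff_le_and_ne, Ne, eq_comm, nrm_eq_zero_iff]
  exact ⟨fun h => h.2, fun h => ⟨nrm_nonneg q x, h⟩⟩
theorem nrm_mul (x y : Qbar) : nrm q (x * y) = nrm q x * nrm q y := by
  rw [nrm, map_mul, norm_mul]; rfl
theorem nrm_pow (x : Qbar) (n : ℕ) : nrm q (x ^ n) = nrm q x ^ n := by
  rw [nrm, map_pow, norm_pow]; rfl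
theorem nrm_zpow (x : Qbar) (n : ℤ) : nrm q (x ^ n) = nrm q x ^ n := by
  rw [nrm, map_zpow₀, norm_zpow]; rfl
theorem nrm_inv (x : Qbar) : nrm q x⁻¹ = (nrm q x)⁻¹ := by
  rw [nrm, map_inv₀, norm_inv]; rfl
theorem nrm_div (x y : Qbar) : nrm q (x / y) = nrm q x / nrm q y := by
  rw [nrm, map_div₀, norm_div]; rfl
theorem nrm_neg (x : Qbar) : nrm q (-x) = nrm q x := by
  rw [nrm, map_neg, norm_neg]; rfl
theorem nrm_sub_comm (x y : Qbar) : nrm q (x - y) = nrm q (y - x) := by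
  rw [← nrm_neg, neg_sub]
theorem nrm_prod {ι : Type*} (s : Finset ι) (f : ι → Qbar) :
    nrm q (∏ i ∈ s, f i) = ∏ i ∈ s, nrm q (f i) := by
  classical
  induction s using Finset.induction_on with
  | empty => simp
  | insert a s ha ih => rw [Finset.prod_insert ha, Finset.prod_insert ha, nrm_mul, ih]
theorem nrm_add_le_max (x y : Qbar) : nrm q (x + y) ≤ max (nrm q x) (nrm q y) := by
  rw [nrm, map_add]
  exact PadicAlgCl.isNonarchimedean q _ _
theorem nrm_sub_le_max (x y : Qbar) : nrm q (x - y) ≤ max (nrm q x) (nrm q y) := by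
  rw [sub_eq_add_neg, ← nrm_neg q y]
  exact nrm_add_le_max q _ _
theorem nrm_add_eq_max_of_ne {x y : Qbar} (h : nrm q x ≠ nrm q y) :
    nrm q (x + y) = max (nrm q x) (nrm q y) := by
  rw [nrm, map_add]
  exact IsNonarchimedean.add_eq_max_of_ne' (fun z : PadicAlgCl q => ‖z‖)
    (PadicAlgCl.isNonarchimedean q) (fun a => (norm_neg a).symm) h
theorem nrm_sum_le {ι : Type*} (s : Finset ι) (f : ι → Qbar) (C : ℝ) (hC : 0 ≤ C)
    (h : ∀ i ∈ s, nrm q (f i) ≤ C) : nrm q (∑ i ∈ s, f i) ≤ C := by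
  classical
  induction s using Finset.induction_on with
  | empty => simpa using hC
  | insert a s ha ih =>
    rw [Finset.sum_insert ha]
    exact (nrm_add_le_max q _ _).trans (max_le (h a (Finset.mem_insert_self a s))
      (ih fun i hi => h i (Finset.mem_insert_of_mem hi)))

/-- on `ℚ` it is the usual `q`-adic absolute value -/
theorem nrm_ratCast (r : ℚ) : nrm q (r : Qbar) = (padicNorm q r : ℝ) := by
  rw [nrm, map_ratCast]
  have h1 : ((r : ℚ) : PadicAlgCl q) = algebraMap ℚ_[q] (PadicAlgCl q) (r : ℚ_[q]) := by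
    rw [map_ratCast]
  rw [h1, PadicAlgCl.norm_extends, Padic.eq_padicNorm]
theorem nrm_algebraMap (r : ℚ) : nrm q (algebraMap ℚ Qbar r) = (padicNorm q r : ℝ) := by
  rw [← nrm_ratCast]
  congr 1
theorem nrm_natCast_self : nrm q (q : Qbar) = (q : ℝ)⁻¹ := by
  have h := nrm_ratCast q (q : ℚ)
  rw [Rat.cast_natCast] at h
  rw [h, padicNorm.padicNorm_p_of_prime]
  push_cast
  rfl
theorem nrm_intCast_le_one (n : ℤ) : nrm q (n : Qbar) ≤ 1 := by
  have h := nrm_ratCast q (n : ℚ)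
  rw [Rat.cast_intCast] at h
  rw [h]
  exact_mod_cast padicNorm.of_int n
theorem nrm_natCast_le_one (n : ℕ) : nrm q (n : Qbar) ≤ 1 := by
  have := nrm_intCast_le_one q (n : ℤ)
  simpa using this
theorem nrm_natCast_eq_one {n : ℕ} (h : Nat.Coprime n q) : nrm q (n : Qbar) = 1 := by
  have h1 := nrm_ratCast q (n : ℚ)
  rw [Rat.cast_natCast] at h1
  rw [h1]
  have h2 : padicNorm q (n : ℚ) = 1 := by
    rw [padicNorm.nat_eq_one_iff]
    intro hd
    have := Nat.Coprime.eq_one_of_dvd h.symm hd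
    exact (Fact.out : q.Prime).one_lt.ne' this
  rw [h2]
  simp

theorem mem_padicPlace_iff_nrm {x : Qbar} : x ∈ padicPlace q ↔ nrm q x ≤ 1 := by
  rw [mem_padicPlace_iff]
  exact Iff.rfl

theorem nrm_le_one_of_isIntegral {x : Qbar} (hx : IsIntegral ℤ x) : nrm q x ≤ 1 :=
  (mem_padicPlace_iff_nrm q).1 (Fermat.Agent.S54.mem_of_isIntegral _ hx)

/-- roots of unity have absolute value one -/
theorem nrm_eq_one_of_pow_eq_one {x : Qbar} {n : ℕ} (hn : n ≠ 0) (hx : x ^ n = 1) :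
    nrm q x = 1 := by
  have h := congrArg (nrm q) hx
  rw [nrm_pow, nrm_one] at h
  exact (pow_eq_one_iff_of_nonneg (nrm_nonneg q x) hn).1 h

theorem mem_nonunits_iff_nrm {x : Qbar} : x ∈ (padicPlace q).nonunits ↔ nrm q x < 1 := by
  by_cases h0 : x = 0
  · subst h0
    simp only [nrm_zero, zero_lt_one, iff_true]
    exact (padicPlace q).nonunits.zero_mem
  rw [ValuationSubring.mem_nonunits_iff, ← not_le, ← not_le, not_iff_not]
  have h1 : (1 : (padicPlace q).ValueGroup) ≤ (padicPlace q).valuation x ↔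
      x⁻¹ ∈ padicPlace q := by
    rw [← ValuationSubring.valuation_le_one_iff, map_inv₀]
    have hv : (padicPlace q).valuation x ≠ 0 := by
      rwa [Ne, map_eq_zero]
    rw [inv_le_one₀ (zero_lt_iff.2 hv)]
  rw [h1, mem_padicPlace_iff_nrm, nrm_inv]
  have hpos : 0 < nrm q x := (nrm_pos_iff q).2 h0
  rw [inv_le_one₀ hpos]

theorem padicPlace_liesOverPrime : (padicPlace q).LiesOverPrime q := by
  show (q : Qbar) ∈ (padicPlace q).nonunits
  rw [mem_nonunits_iff_nrm, nrm_natCast_self]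
  have : (1 : ℝ) < q := by exact_mod_cast (Fact.out : q.Prime).one_lt
  exact inv_lt_one_of_one_lt₀ this

theorem mem_Dq_iff_aux {g : GQ} : g ∈ Dq q ↔ ∀ x : Qbar, nrm q (g x) ≤ 1 ↔ nrm q x ≤ 1 := by
  unfold Dq
  rw [ValuationSubring.decompositionSubgroup, MulAction.mem_stabilizer_iff]
  constructor
  · intro h x
    rw [← mem_padicPlace_iff_nrm, ← mem_padicPlace_iff_nrm]
    conv_lhs => rw [← h]
    rw [ValuationSubring.mem_pointwise_smul_iff_inv_smul_mem, AlgEquiv.smul_def]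
    simp
  · intro h
    apply SetLike.ext
    intro x
    rw [ValuationSubring.mem_pointwise_smul_iff_inv_smul_mem, AlgEquiv.smul_def,
      mem_padicPlace_iff_nrm, mem_padicPlace_iff_nrm, ← h (g⁻¹ x)]
    simp

theorem exists_pow_lt_zpow_lt {a b : ℝ} (ha : 0 < a) (hab : a < b) :
    ∃ (m : ℕ) (n : ℤ), a ^ m < (q : ℝ) ^ n ∧ (q : ℝ) ^ n < b ^ m := by
  have hq : (1 : ℝ) < q := by exact_mod_cast (Fact.out : q.Prime).one_lt
  have hba : 1 < b / a := (one_lt_div ha).2 hab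
  obtain ⟨m, hm⟩ := pow_unbounded_of_one_lt (q : ℝ) hba
  obtain ⟨n, hn1, hn2⟩ := exists_mem_Ico_zpow (pow_pos ha m) hq
  refine ⟨m, n + 1, hn2, ?_⟩
  rw [zpow_add_one₀ (by positivity)]
  rw [div_pow, lt_div_iff₀ (pow_pos ha m)] at hm
  calc (q : ℝ) ^ n * q ≤ a ^ m * q := by gcongr
    _ = q * a ^ m := mul_comm _ _
    _ < b ^ m := hm

/-- `D_q` = isometries.  (`→`: if `|g x| < |x|` choose `a, b` with `|g x|^b < |q|^a < |x|^b`;
then `x^b/q^a ∉ A_q` but its image is in `A_q`.) -/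
theorem mem_Dq_iff {g : GQ} : g ∈ Dq q ↔ ∀ x : Qbar, nrm q (g x) = nrm q x := by
  constructor
  · intro hg x
    rw [mem_Dq_iff_aux] at hg
    by_cases h0 : x = 0
    · subst h0; simp
    have hx : 0 < nrm q x := (nrm_pos_iff q).2 h0
    have hgx : 0 < nrm q (g x) := (nrm_pos_iff q).2 (by simpa using h0)
    have hq0 : (0 : ℝ) < q := by exact_mod_cast (Fact.out : q.Prime).pos
    -- the test element
    have key : ∀ (m : ℕ) (n : ℤ), nrm q (x ^ m * (q : Qbar) ^ n) = nrm q x ^ m / (q : ℝ) ^ n ∧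
        nrm q (g (x ^ m * (q : Qbar) ^ n)) = nrm q (g x) ^ m / (q : ℝ) ^ n := by
      intro m n
      constructor
      · rw [nrm_mul, nrm_pow, nrm_zpow, nrm_natCast_self, inv_zpow, div_eq_mul_inv]
      · rw [map_mul, map_pow, map_zpow₀, map_natCast, nrm_mul, nrm_pow, nrm_zpow,
          nrm_natCast_self, inv_zpow, div_eq_mul_inv]
    rcases lt_trichotomy (nrm q (g x)) (nrm q x) with h | h | h
    · exfalso
      obtain ⟨m, n, h1, h2⟩ := exists_pow_lt_zpow_lt q hgx h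
      have h3 := (hg (x ^ m * (q : Qbar) ^ n)).1 (by
        rw [(key m n).2, div_le_one (zpow_pos hq0 n)]; exact h1.le)
      rw [(key m n).1, div_le_one (zpow_pos hq0 n)] at h3
      exact absurd h2 (not_lt.2 h3)
    · exact h
    · exfalso
      obtain ⟨m, n, h1, h2⟩ := exists_pow_lt_zpow_lt q hx h
      have h3 := (hg (x ^ m * (q : Qbar) ^ n)).2 (by
        rw [(key m n).1, div_le_one (zpow_pos hq0 n)]; exact h1.le)
      rw [(key m n).2, div_le_one (zpow_pos hq0 n)] at h3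
      exact absurd h2 (not_lt.2 h3)
  · intro h
    rw [mem_Dq_iff_aux]
    intro x
    rw [h x]

theorem nrm_map_of_mem_Dq {g : GQ} (hg : g ∈ Dq q) (x : Qbar) : nrm q (g x) = nrm q x :=
  (mem_Dq_iff q).1 hg x

theorem mem_Iq_iff {g : GQ} :
    g ∈ Iq q ↔ g ∈ Dq q ∧ ∀ x : Qbar, nrm q x ≤ 1 → nrm q (g x - x) < 1 := by
  unfold Iq ValuationSubring.inertiaSubgroupIn
  rw [Subgroup.mem_map]
  constructor
  · rintro ⟨⟨g', hg'⟩, hker, rfl⟩
    refine ⟨hg', fun x hx => ?_⟩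
    rw [ValuationSubring.inertiaSubgroup, MonoidHom.mem_ker] at hker
    have hxA : x ∈ padicPlace q := (mem_padicPlace_iff_nrm q).2 hx
    have h1 := congrArg (fun e : RingAut _ => e (IsLocalRing.residue (padicPlace q) ⟨x, hxA⟩)) hker
    simp only [MulSemiringAction.toRingAut_apply, RingAut.one_apply] at h1
    have h2 : (⟨g', hg'⟩ : (padicPlace q).decompositionSubgroup ℚ) •
        IsLocalRing.residue (padicPlace q) ⟨x, hxA⟩ = IsLocalRing.residue (padicPlace q) ⟨x, hxA⟩ := h1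
    rw [← IsLocalRing.ResidueField.residue_smul, ← sub_eq_zero, ← map_sub,
      IsLocalRing.residue_eq_zero_iff, ← ValuationSubring.coe_mem_nonunits_iff,
      mem_nonunits_iff_nrm] at h2
    exact h2
  · rintro ⟨hg, h⟩
    refine ⟨⟨g, hg⟩, ?_, rfl⟩
    rw [ValuationSubring.inertiaSubgroup, MonoidHom.mem_ker]
    ext y
    obtain ⟨⟨x, hxA⟩, rfl⟩ := IsLocalRing.residue_surjective y
    show (⟨g, hg⟩ : (padicPlace q).decompositionSubgroup ℚ) •
        IsLocalRing.residue (padicPlace q) ⟨x, hxA⟩ = IsLocalRing.residue (padicPlace q) ⟨x, hxA⟩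
    rw [← IsLocalRing.ResidueField.residue_smul, ← sub_eq_zero, ← map_sub,
      IsLocalRing.residue_eq_zero_iff, ← ValuationSubring.coe_mem_nonunits_iff,
      mem_nonunits_iff_nrm]
    exact h x ((mem_padicPlace_iff_nrm q).1 hxA)

theorem Iq_le_Dq : Iq q ≤ Dq q := fun _ h => ((mem_Iq_iff q).1 h).1

theorem Iq_conj_mem {g h : GQ} (hg : g ∈ Dq q) (hh : h ∈ Iq q) : g * h * g⁻¹ ∈ Iq q := by
  rw [mem_Iq_iff] at hh ⊢
  refine ⟨(Dq q).mul_mem ((Dq q).mul_mem hg hh.1) ((Dq q).inv_mem hg), fun x hx => ?_⟩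
  have hg' : g⁻¹ ∈ Dq q := (Dq q).inv_mem hg
  have h1 := hh.2 (g⁻¹ x) (by rw [nrm_map_of_mem_Dq q hg']; exact hx)
  rw [← nrm_map_of_mem_Dq q hg, map_sub] at h1
  have h2 : g (g⁻¹ x) = x := by
    rw [← AlgEquiv.mul_apply, mul_inv_cancel, AlgEquiv.one_apply]
  rw [h2] at h1
  exact h1

theorem Dq'_le_Dq : Dq' q ≤ Dq q := by
  rintro _ ⟨τ, rfl⟩
  exact localGaloisToGlobal_mem_decompositionSubgroup q τ

theorem mem_ringOf_iff {W : Subgroup GQ} {x : Fix W} : x ∈ ringOf q W ↔ nrm q (x : Qbar) ≤ 1 :=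
  Iff.rfl

/-- membership in a fixed field -/
theorem mem_Fix_iff {H : Subgroup GQ} {x : Qbar} : x ∈ Fix H ↔ ∀ g ∈ H, g x = x := by
  rw [IntermediateField.mem_fixedField_iff]

end

end Fermat.Agent.S55.Places
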