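import Mathlib

/-! # S55 (P), auxiliary file for P-Ring: counting `C / tC` for the integral closure `C` of a PID `A`
in a finite separable extension of its fraction field. -/

set_option autoImplicit false

namespace Fermat.Agent.S55.Places

namespace RingAux

/-- `#(M / tM) = #(A/t)^n` for a free module with a basis indexed by `Fin n`; ideal form. -/
theorem card_quot_of_basis {A C : Type*} [CommRing A] [CommRing C] [Algebra A C] {n : ℕ}
    (b : Module.Basis (Fin n) A C) (t : A) :
    Nat.card (C ⧸ Ideal.span {algebraMap A C t}) = Nat.card (A ⧸ Ideal.span {t}) ^ n := by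
  set I : Ideal C := Ideal.span {algebraMap A C t} with hI
  let e : C ≃ₗ[A] (Fin n → A) := b.equivFun
  have hmap : (I.restrictScalars A).map (e : C →ₗ[A] (Fin n → A)) =
      Submodule.pi Set.univ (fun _ : Fin n => Ideal.span {t}) := by
    ext v
    simp only [Submodule.mem_map, Submodule.restrictScalars_mem, Submodule.mem_pi, Set.mem_univ,
      forall_true_left]
    constructor
    · rintro ⟨x, hx, rfl⟩
      rw [hI, Ideal.mem_span_singleton] at hx
      obtain ⟨c, rfl⟩ := hx
      intro i
      rw [Ideal.mem_span_singleton]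
      refine ⟨e c i, ?_⟩
      rw [← Algebra.smul_def]
      simp
    · intro hv
      have : ∀ i, ∃ w, v i = t * w := fun i => Ideal.mem_span_singleton.mp (hv i)
      choose w hw using this
      refine ⟨algebraMap A C t * e.symm w, ?_, ?_⟩
      · rw [hI, Ideal.mem_span_singleton]
        exact Dvd.intro _ rfl
      · rw [← Algebra.smul_def]
        funext i
        simp [hw i]
  have e1 : (C ⧸ I.restrictScalars A) ≃ₗ[A]
      ((Fin n → A) ⧸ Submodule.pi Set.univ (fun _ : Fin n => Ideal.span {t})) :=
    Submodule.Quotient.equiv _ _ e hmap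
  have e2 := Submodule.quotientPi (fun _ : Fin n => (Ideal.span {t} : Ideal A))
  have h0 : Nat.card (C ⧸ I) = Nat.card (C ⧸ I.restrictScalars A) := rfl
  rw [h0, Nat.card_congr e1.toEquiv, Nat.card_congr e2.toEquiv, Nat.card_fun, Nat.card_fin]

theorem card_integralClosure_quot (A K L : Type*) [CommRing A] [IsDomain A]
    [IsPrincipalIdealRing A] [Field K] [Algebra A K] [IsFractionRing A K] [Field L] [Algebra K L]
    [Algebra A L] [IsScalarTower A K L] [FiniteDimensional K L] [Algebra.IsSeparable K L]
    [Module.IsTorsionFree A L] (t : A) :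
    Nat.card (integralClosure A L ⧸ Ideal.span {algebraMap A (integralClosure A L) t}) =
      Nat.card (A ⧸ Ideal.span {t}) ^ Module.finrank K L := by
  have hfree : Module.Free A (integralClosure A L) :=
    IsIntegralClosure.module_free A K L (integralClosure A L)
  have hrank : Module.finrank A (integralClosure A L) = Module.finrank K L :=
    IsIntegralClosure.rank A K L (integralClosure A L)
  have hnoeth : IsNoetherian A (integralClosure A L) :=
    IsIntegralClosure.isNoetherian A K L (integralClosure A L)
  rw [← hrank]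
  exact card_quot_of_basis (Module.finBasis A (integralClosure A L)) t

section Subrings

variable {K L : Type*} [Field K] [Field L] [Algebra K L]

theorem isIntegral_subring_iff (A : Subring K) (x : L) :
    IsIntegral A x ↔ ∃ f : Polynomial K, f.Monic ∧ (∀ i, f.coeff i ∈ A) ∧
      Polynomial.aeval x f = 0 := by
  constructor
  · rintro ⟨p, hp, hpx⟩
    refine ⟨p.map (algebraMap A K), hp.map _, fun i => ?_, ?_⟩
    · rw [Polynomial.coeff_map]
      exact (p.coeff i).2
    · rw [Polynomial.aeval_def, Polynomial.eval₂_map, ← IsScalarTower.algebraMap_eq]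
      exact hpx
  · rintro ⟨f, hf, hcoeff, hfx⟩
    have hsub : (↑f.coeffs : Set K) ⊆ A := by
      intro c hc
      obtain ⟨n, -, rfl⟩ := Polynomial.mem_coeffs_iff.mp (Finset.mem_coe.mp hc)
      exact hcoeff n
    refine ⟨f.toSubring A hsub, (Polynomial.monic_toSubring f A hsub).mpr hf, ?_⟩
    have h1 : (f.toSubring A hsub).map (algebraMap A K) = f := Polynomial.map_toSubring f A hsub
    rw [IsScalarTower.algebraMap_eq A K L, ← Polynomial.eval₂_map, h1]
    exact hfx

theorem card_subring_quot [CharZero K] [FiniteDimensional K L]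
    (A : Subring K) (C : Subring L) [IsPrincipalIdealRing A]
    (hval : ∀ z : K, z ∈ A ∨ z⁻¹ ∈ A)
    (hint : ∀ x : L, x ∈ C ↔ ∃ f : Polynomial K, f.Monic ∧ (∀ i, f.coeff i ∈ A) ∧
      Polynomial.aeval x f = 0)
    (t : A) (t' : C) (ht : (t' : L) = algebraMap K L t) :
    Nat.card (C ⧸ Ideal.span {t'}) = Nat.card (A ⧸ Ideal.span {t}) ^ Module.finrank K L := by
  have hfrac : IsFractionRing A K := by
    refine IsFractionRing.of_field A K fun z => ?_
    rcases hval z with hz | hz
    · refine ⟨⟨z, hz⟩, 1, ?_⟩
      have : algebraMap A K ⟨z, hz⟩ = z := rfl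
      rw [this]; simp
    · refine ⟨1, ⟨z⁻¹, hz⟩, ?_⟩
      have : algebraMap A K ⟨z⁻¹, hz⟩ = z⁻¹ := rfl
      rw [this]; simp
  have htf : Module.IsTorsionFree A L := by
    rw [Module.isTorsionFree_iff_algebraMap_injective, IsScalarTower.algebraMap_eq A K L]
    exact (algebraMap K L).injective.comp Subtype.val_injective
  have hmem : ∀ x : L, x ∈ integralClosure A L ↔ x ∈ C := by
    intro x
    rw [hint x, ← isIntegral_subring_iff]
    rfl
  let e : integralClosure A L ≃+* C :=
    { toFun := fun x => ⟨x.1, (hmem x.1).1 x.2⟩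
      invFun := fun x => ⟨x.1, (hmem x.1).2 x.2⟩
      left_inv := fun _ => rfl
      right_inv := fun _ => rfl
      map_mul' := fun _ _ => rfl
      map_add' := fun _ _ => rfl }
  have hIJ : Ideal.span {t'} =
      (Ideal.span {algebraMap A (integralClosure A L) t}).map (e : integralClosure A L →+* C) := by
    rw [Ideal.map_span, Set.image_singleton]
    congr 2
    apply Subtype.ext
    rw [ht]
    rfl
  rw [← card_integralClosure_quot A K L t]
  exact (Nat.card_congr (Ideal.quotientEquiv _ _ e hIJ).toEquiv).symm

end Subrings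

end RingAux

end Fermat.Agent.S55.Places
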