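import Fermat.Agent.S55.Places.Value
import Fermat.Agent.S55.Places.RingAux

/-! # S55 (P), task P-Ring (= P7): `R = ringOf q W` is free of rank `[Dq : W]` over the DVR
`R₀ = ringOf q (Dq q)`, whose residue rings are `ℤ/q^a`.

Route: `R₀` is a PID (every ideal is generated by a power of `q`, by `nrm_Qh`) with fraction
field `Qh q`; `R` is the integral closure of `R₀` in `Fix W` (`⊆`: `IsOpenIn.exists_charpoly`: `x` is a
root of a monic polynomial over `Qh` whose coefficients are symmetric functions of conjugates `g x`,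
`g ∈ Dq`, so have `nrm ≤ 1`; `⊇`: ultrametric inequality); `Fix W / Qh` is finite separable of degree
`[Dq:W]` (`IsOpenIn.relfinrank_eq`); Mathlib `IsIntegralClosure.module_free`, `IsIntegralClosure.rank`
(abstract part in `RingAux.lean`).
Only the two cardinality statements at the end are used elsewhere. -/

set_option autoImplicit false

namespace Fermat.Agent.S55.Places

noncomputable section

variable {q : ℕ} [Fact q.Prime]

namespace RingAux

theorem q_pos : (0 : ℝ) < q := by exact_mod_cast (Fact.out : q.Prime).pos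

theorem qQ_ne_zero : (q : Qbar) ≠ 0 := by exact_mod_cast (Fact.out : q.Prime).ne_zero

theorem coe_q_pow (W : Subgroup GQ) (a : ℕ) :
    ((((q : ringOf q W) ^ a : ringOf q W) : Fix W) : Qbar) = (q : Qbar) ^ a := by
  simp

theorem nrm_q_pow (a : ℕ) : nrm q ((q : Qbar) ^ a) = ((q : ℝ)⁻¹) ^ a := by
  rw [nrm_pow, nrm_natCast_self]

/-- membership in the ideal `(q^a)` of `ringOf q W` -/
theorem mem_span_q_pow_iff {W : Subgroup GQ} (a : ℕ) (y : ringOf q W) :
    y ∈ Ideal.span {(q : ringOf q W) ^ a} ↔ nrm q ((y : Fix W) : Qbar) ≤ ((q : ℝ)⁻¹) ^ a := by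
  rw [Ideal.mem_span_singleton]
  constructor
  · rintro ⟨c, rfl⟩
    have hc : nrm q ((c : Fix W) : Qbar) ≤ 1 := c.2
    have : ((((q : ringOf q W) ^ a * c : ringOf q W) : Fix W) : Qbar)
        = (q : Qbar) ^ a * ((c : Fix W) : Qbar) := by
      simp
    rw [this, nrm_mul, nrm_q_pow]
    exact mul_le_of_le_one_right (by have := q_pos (q := q); positivity) hc
  · intro hy
    have hqa : ((q : Fix W) ^ a) ≠ 0 := by
      apply pow_ne_zero
      exact_mod_cast (Fact.out : q.Prime).ne_zero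
    refine ⟨⟨(y : Fix W) / (q : Fix W) ^ a, ?_⟩, ?_⟩
    · show nrm q (((y : Fix W) / (q : Fix W) ^ a : Fix W) : Qbar) ≤ 1
      have : (((y : Fix W) / (q : Fix W) ^ a : Fix W) : Qbar)
          = ((y : Fix W) : Qbar) / (q : Qbar) ^ a := by simp
      rw [this, nrm_div, nrm_q_pow]
      exact div_le_one_of_le₀ hy (by have := q_pos (q := q); positivity)
    · apply Subtype.ext
      show (y : Fix W) = ((q : ringOf q W) ^ a : ringOf q W) * ((y : Fix W) / (q : Fix W) ^ a)
      have : (((q : ringOf q W) ^ a : ringOf q W) : Fix W) = (q : Fix W) ^ a := by simp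
      rw [this, mul_div_cancel₀ _ hqa]

/-- `|n| ≤ q^-a ↔ q^a ∣ n` -/
theorem nrm_natCast_le_iff (a n : ℕ) : nrm q (n : Qbar) ≤ ((q : ℝ)⁻¹) ^ a ↔ q ^ a ∣ n := by
  have h1 : (n : Qbar) = ((n : ℚ) : Qbar) := by simp
  rw [h1, nrm_ratCast]
  have h2 := padicNorm.dvd_iff_norm_le (p := q) (n := a) (z := (n : ℤ))
  have h3 : ((q ^ a : ℕ) : ℤ) ∣ (n : ℤ) ↔ q ^ a ∣ n := Int.natCast_dvd_natCast
  rw [← h3, h2]
  have h4 : ((q : ℝ)⁻¹) ^ a = (((q : ℚ) ^ (-(a : ℤ)) : ℚ) : ℝ) := by
    push_cast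
    rw [zpow_neg, zpow_natCast, inv_pow]
  rw [h4]
  simp only [Int.cast_natCast]
  exact_mod_cast Iff.rfl

/-- a rational number which is a `q`-adic integer is close to a natural number -/
theorem exists_nat_near_rat (a : ℕ) (r : ℚ) (hr : nrm q (r : Qbar) ≤ 1) :
    ∃ n : ℕ, nrm q ((r : Qbar) - (n : Qbar)) ≤ ((q : ℝ)⁻¹) ^ a := by
  rw [nrm_ratCast] at hr
  have hr' : ‖(r : ℚ_[q])‖ ≤ 1 := by
    rw [Padic.eq_padicNorm]; exact hr
  set z : ℤ_[q] := ⟨r, hr'⟩ with hz
  refine ⟨z.appr a, ?_⟩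
  have h1 := (PadicInt.norm_le_pow_iff_mem_span_pow (z - (z.appr a : ℤ_[q])) a).mpr (PadicInt.appr_spec a z)
  have h2 : (r : Qbar) - ((z.appr a : ℕ) : Qbar) = ((r - (z.appr a : ℕ) : ℚ) : Qbar) := by
    push_cast; rfl
  rw [h2, nrm_ratCast, ← Padic.eq_padicNorm]
  have h3 : ‖(z - (z.appr a : ℤ_[q]) : ℤ_[q])‖ = ‖((r - (z.appr a : ℕ) : ℚ) : ℚ_[q])‖ := by
    rw [PadicInt.norm_def]
    congr 1
  rw [← h3]
  refine h1.trans (le_of_eq ?_)
  rw [zpow_neg, zpow_natCast, inv_pow]

/-- an element of `R₀` is close to a natural number -/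
theorem exists_nat_near (a : ℕ) {x : Qbar} (hx : x ∈ Qh q) (h1 : nrm q x ≤ 1) :
    ∃ n : ℕ, nrm q (x - (n : Qbar)) ≤ ((q : ℝ)⁻¹) ^ a := by
  have hε : (0 : ℝ) < ((q : ℝ)⁻¹) ^ a := by have := q_pos (q := q); positivity
  have hε1 : ((q : ℝ)⁻¹) ^ a ≤ 1 := by
    apply pow_le_one₀ (by have := q_pos (q := q); positivity)
    apply inv_le_one_of_one_le₀
    exact_mod_cast (Fact.out : q.Prime).one_lt.le
  obtain ⟨r, hr⟩ := exists_rat_near q hx hε
  have hr1 : nrm q (r : Qbar) ≤ 1 := by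
    have : (r : Qbar) = x - (x - (r : Qbar)) := by ring
    rw [this]
    exact (nrm_sub_le_max q _ _).trans (max_le h1 (hr.le.trans hε1))
  obtain ⟨n, hn⟩ := exists_nat_near_rat a r hr1
  refine ⟨n, ?_⟩
  have : x - (n : Qbar) = (x - (r : Qbar)) + ((r : Qbar) - (n : Qbar)) := by ring
  rw [this]
  exact (nrm_add_le_max q _ _).trans (max_le hr.le hn)

/-- norms of nonzero elements of `R₀` are `q^-k`, `k ∈ ℕ` -/
theorem exists_nat_nrm_eq {x : Qbar} (hx : x ∈ Qh q) (h0 : x ≠ 0) (h1 : nrm q x ≤ 1) :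
    ∃ k : ℕ, nrm q x = ((q : ℝ)⁻¹) ^ k := by
  obtain ⟨k, hk⟩ := nrm_Qh q hx h0
  have hq1 : (1 : ℝ) < q := by exact_mod_cast (Fact.out : q.Prime).one_lt
  have hk0 : k ≤ 0 := by
    by_contra hpos
    rw [not_le] at hpos
    have : (1 : ℝ) < (q : ℝ) ^ k := one_lt_zpow₀ hq1 hpos
    rw [← hk] at this
    linarith
  refine ⟨(-k).toNat, ?_⟩
  rw [hk, inv_pow, ← zpow_natCast, Int.toNat_of_nonneg (by omega), zpow_neg, inv_inv]

instance isPrincipalIdealRing_base : IsPrincipalIdealRing (ringOf q (Dq q)) := by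
  classical
  constructor
  intro I
  by_cases hI : I = ⊥
  · rw [hI]; exact ⟨0, by simp⟩
  obtain ⟨x, hxI, hx0⟩ := Submodule.exists_mem_ne_zero_of_ne_bot hI
  have hex : ∃ k : ℕ, ∃ y ∈ I, nrm q ((y : Qh q) : Qbar) = ((q : ℝ)⁻¹) ^ k := by
    obtain ⟨k, hk⟩ := exists_nat_nrm_eq (x : Qh q).2
      (by simpa using hx0) x.2
    exact ⟨k, x, hxI, hk⟩
  obtain ⟨y, hyI, hy⟩ := Nat.find_spec hex
  refine ⟨(q : ringOf q (Dq q)) ^ Nat.find hex, ?_⟩
  change I = Ideal.span {(q : ringOf q (Dq q)) ^ Nat.find hex}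
  apply le_antisymm
  · intro z hz
    rw [mem_span_q_pow_iff]
    by_cases hz0 : z = 0
    · rw [hz0]
      simp only [ZeroMemClass.coe_zero, nrm_zero]
      have := q_pos (q := q); positivity
    obtain ⟨j, hj⟩ := exists_nat_nrm_eq (z : Qh q).2 (by simpa using hz0) z.2
    have hle : Nat.find hex ≤ j := Nat.find_min' hex ⟨z, hz, hj⟩
    rw [hj]
    apply pow_le_pow_of_le_one (by have := q_pos (q := q); positivity) _ hle
    apply inv_le_one_of_one_le₀
    exact_mod_cast (Fact.out : q.Prime).one_lt.le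
  · rw [Ideal.span_singleton_le_iff_mem]
    -- `q^k = y * (q^k / y)`
    have hy0 : ((y : Qh q) : Qbar) ≠ 0 := by
      intro h0
      rw [h0, nrm_zero] at hy
      have := q_pos (q := q)
      have h2 : (0 : ℝ) < ((q : ℝ)⁻¹) ^ Nat.find hex := by positivity
      linarith
    have hy0' : (y : Qh q) ≠ 0 := by
      intro h; apply hy0; rw [h]; rfl
    have hu : nrm q ((((q : Qh q) ^ Nat.find hex / (y : Qh q) : Qh q)) : Qbar) ≤ 1 := by
      have : ((((q : Qh q) ^ Nat.find hex / (y : Qh q) : Qh q)) : Qbar)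
          = (q : Qbar) ^ Nat.find hex / ((y : Qh q) : Qbar) := by simp
      rw [this, nrm_div, nrm_pow, nrm_natCast_self, hy, div_self]
      have := q_pos (q := q); positivity
    have : (q : ringOf q (Dq q)) ^ Nat.find hex
        = y * ⟨(q : Qh q) ^ Nat.find hex / (y : Qh q), hu⟩ := by
      apply Subtype.ext
      show (((q : ringOf q (Dq q)) ^ Nat.find hex : ringOf q (Dq q)) : Qh q)
        = (y : Qh q) * ((q : Qh q) ^ Nat.find hex / (y : Qh q))
      rw [mul_div_cancel₀ _ hy0']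
      simp
    rw [this]
    exact I.mul_mem_right _ hyI

theorem base_valuative (z : Qh q) : z ∈ ringOf q (Dq q) ∨ z⁻¹ ∈ ringOf q (Dq q) := by
  by_cases h : nrm q (z : Qbar) ≤ 1
  · exact Or.inl h
  · right
    show nrm q ((z⁻¹ : Qh q) : Qbar) ≤ 1
    have : ((z⁻¹ : Qh q) : Qbar) = (z : Qbar)⁻¹ := by simp
    rw [this, nrm_inv]
    exact inv_le_one_of_one_le₀ (not_le.mp h).le

/-- a root of a monic polynomial with integral coefficients is integral (ultrametric inequality) -/
theorem nrm_le_one_of_monic_root (f : Polynomial Qbar) (hf : f.Monic)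
    (hc : ∀ i, nrm q (f.coeff i) ≤ 1) (x : Qbar) (hx : f.eval x = 0) : nrm q x ≤ 1 := by
  by_contra hcon
  rw [not_le] at hcon
  set n := f.natDegree with hn
  have hsum := hf.as_sum
  rw [hsum, Polynomial.eval_add, Polynomial.eval_pow, Polynomial.eval_X,
    Polynomial.eval_finsetSum] at hx
  have hn0 : n ≠ 0 := by
    intro h0
    rw [← hn, h0] at hx
    simp at hx
  have hbound : nrm q (∑ i ∈ Finset.range n, Polynomial.eval x
      (Polynomial.C (f.coeff i) * Polynomial.X ^ i)) ≤ nrm q x ^ (n - 1) := by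
    apply nrm_sum_le q _ _ _ (by have := nrm_nonneg q x; positivity)
    intro i hi
    rw [Polynomial.eval_mul, Polynomial.eval_C, Polynomial.eval_pow, Polynomial.eval_X, nrm_mul,
      nrm_pow]
    have hi' : i ≤ n - 1 := by have := Finset.mem_range.mp hi; omega
    calc nrm q (f.coeff i) * nrm q x ^ i ≤ 1 * nrm q x ^ i :=
          mul_le_mul_of_nonneg_right (hc i) (by have := nrm_nonneg q x; positivity)
      _ = nrm q x ^ i := one_mul _
      _ ≤ nrm q x ^ (n - 1) := pow_le_pow_right₀ hcon.le hi'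
  have hxn : x ^ n = - ∑ i ∈ Finset.range n, Polynomial.eval x
      (Polynomial.C (f.coeff i) * Polynomial.X ^ i) := by
    rw [← hn] at hx
    linear_combination hx
  have h1 : nrm q x ^ n ≤ nrm q x ^ (n - 1) := by
    rw [← nrm_pow, hxn, nrm_neg]; exact hbound
  have h2 : nrm q x ^ (n - 1) < nrm q x ^ n := pow_lt_pow_right₀ hcon (by omega)
  linarith

end RingAux

open RingAux in
/-- `R₀ / q^a = ℤ / q^a` (density of `ℚ`, hence of `ℤ_(q)`, hence of `ℤ`) -/
theorem card_base_quot (a : ℕ) :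
    Nat.card (ringOf q (Dq q) ⧸ Ideal.span {(q : ringOf q (Dq q)) ^ a}) = q ^ a := by
  set I : Ideal (ringOf q (Dq q)) := Ideal.span {(q : ringOf q (Dq q)) ^ a} with hI
  have hchar : CharP (ringOf q (Dq q) ⧸ I) (q ^ a) := by
    constructor
    intro n
    rw [← map_natCast (Ideal.Quotient.mk I), Ideal.Quotient.eq_zero_iff_mem, hI,
      mem_span_q_pow_iff, ← nrm_natCast_le_iff]
    simp
  have hinj := ZMod.castHom_injective (n := q ^ a) (ringOf q (Dq q) ⧸ I)
  have hsurj : Function.Surjective (ZMod.castHom (dvd_refl (q ^ a)) (ringOf q (Dq q) ⧸ I)) := by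
    intro y
    obtain ⟨x, rfl⟩ := Ideal.Quotient.mk_surjective y
    obtain ⟨n, hn⟩ := exists_nat_near a (x : Qh q).2 x.2
    refine ⟨(n : ZMod (q ^ a)), ?_⟩
    rw [map_natCast, ← map_natCast (Ideal.Quotient.mk I), eq_comm, Ideal.Quotient.eq, hI,
      mem_span_q_pow_iff]
    simpa using hn
  rw [← Nat.card_congr (Equiv.ofBijective _ ⟨hinj, hsurj⟩), Nat.card_zmod]

/-- elements of `ringOf q W` are integral over `R₀` -/
theorem exists_monic_of_mem_ringOf {W : Subgroup GQ} (hW : IsOpenIn (Dq q) W) {x : Qbar}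
    (hx : x ∈ Fix W) (h1 : nrm q x ≤ 1) :
    ∃ f : Polynomial (Qh q), f.Monic ∧ (∀ i, nrm q (f.coeff i : Qbar) ≤ 1) ∧
      Polynomial.aeval x f = 0 := by
  obtain ⟨s, hs, -, h1s, f, hf⟩ := hW.exists_charpoly hx
  refine ⟨f, ?_, ?_, ?_⟩
  · apply Polynomial.monic_of_injective (algebraMap (Qh q) Qbar).injective
    rw [hf]
    exact Polynomial.monic_multiset_prod_of_monic _ _ fun g _ => Polynomial.monic_X_sub_C _
  · intro i
    have hmem : (s.map fun g => Polynomial.X - Polynomial.C (g x)).prod ∈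
        Polynomial.lifts (padicPlace q).toSubring.subtype := by
      apply Subsemiring.multiset_prod_mem
      intro p hp
      obtain ⟨g, hg, rfl⟩ := Multiset.mem_map.mp hp
      rw [Polynomial.mem_lifts]
      have hgx : g x ∈ padicPlace q := by
        rw [mem_padicPlace_iff_nrm, nrm_map_of_mem_Dq q (hs g hg)]
        exact h1
      refine ⟨Polynomial.X - Polynomial.C ⟨g x, hgx⟩, ?_⟩
      simp
    rw [Polynomial.lifts_iff_coeff_lifts] at hmem
    obtain ⟨y, hy⟩ := hmem i
    have h2 : (f.coeff i : Qbar) = (f.map (algebraMap (Qh q) Qbar)).coeff i := by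
      rw [Polynomial.coeff_map]; rfl
    rw [h2, hf, ← hy]
    exact (mem_padicPlace_iff_nrm q).mp y.2
  · rw [← Polynomial.eval_map_algebraMap, hf, Polynomial.eval_multiset_prod]
    apply Multiset.prod_eq_zero
    rw [Multiset.mem_map]
    refine ⟨Polynomial.X - Polynomial.C ((1 : GQ) x), Multiset.mem_map.mpr ⟨1, h1s, rfl⟩, ?_⟩
    simp

namespace RingAux

/-- `Fix W` as an algebra over `Qh q` -/
abbrev algFix {W : Subgroup GQ} (h : Qh q ≤ Fix W) : Algebra (Qh q) (Fix W) :=
  (IntermediateField.inclusion h).toRingHom.toAlgebra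

theorem finrank_algFix {W : Subgroup GQ} (h : Qh q ≤ Fix W) :
    @Module.finrank (Qh q) (Fix W) _ _ (algFix h).toModule
      = IntermediateField.relfinrank (Qh q) (Fix W) := by
  let _ := algFix h
  rw [IntermediateField.relfinrank_eq_finrank_of_le h]
  let e : (IntermediateField.extendScalars h) ≃ₗ[Qh q] (Fix W) :=
    { toFun := fun x => ⟨x.1, (IntermediateField.mem_extendScalars h).1 x.2⟩
      invFun := fun x => ⟨x.1, (IntermediateField.mem_extendScalars h).2 x.2⟩
      left_inv := fun _ => rfl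
      right_inv := fun _ => rfl
      map_add' := fun _ _ => rfl
      map_smul' := fun c x => by
        apply Subtype.ext
        rfl }
  exact e.finrank_eq.symm

theorem coe_aeval_algFix {W : Subgroup GQ} (h : Qh q ≤ Fix W) (x : Fix W)
    (f : Polynomial (Qh q)) :
    ((@Polynomial.aeval (Qh q) (Fix W) _ _ (algFix h) x f : Fix W) : Qbar)
      = Polynomial.aeval (x : Qbar) f := by
  let _ := algFix h
  rw [Polynomial.aeval_def, Polynomial.aeval_def]
  have := Polynomial.hom_eval₂ f (algebraMap (Qh q) (Fix W)) (Fix W).val.toRingHom x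
  exact this

end RingAux

open RingAux in
/-- P7 -/
theorem card_ringOf_quot {W : Subgroup GQ} (hW : IsOpenIn (Dq q) W) (a : ℕ) :
    Nat.card (ringOf q W ⧸ Ideal.span {(q : ringOf q W) ^ a}) =
      q ^ (a * (W.subgroupOf (Dq q)).index) := by
  have h : Qh q ≤ Fix W := Fix_anti hW.1
  let _ := algFix h
  have hrank : Module.finrank (Qh q) (Fix W) = (W.subgroupOf (Dq q)).index := by
    rw [finrank_algFix h, hW.relfinrank_eq]
  have hfin : FiniteDimensional (Qh q) (Fix W) :=
    Module.finite_of_finrank_pos (by rw [hrank]; exact Nat.pos_of_ne_zero hW.finiteIndex)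
  have key := card_subring_quot (K := Qh q) (L := Fix W) (ringOf q (Dq q)) (ringOf q W)
    base_valuative (by
      intro x
      constructor
      · intro hx
        obtain ⟨f, hf, hc, hfx⟩ := exists_monic_of_mem_ringOf hW x.2 hx
        refine ⟨f, hf, hc, ?_⟩
        apply Subtype.ext
        rw [coe_aeval_algFix h x f, hfx]
        rfl
      · rintro ⟨f, hf, hc, hfx⟩
        show nrm q (x : Qbar) ≤ 1
        apply nrm_le_one_of_monic_root (f.map (algebraMap (Qh q) Qbar)) (hf.map _)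
        · intro i
          rw [Polynomial.coeff_map]
          exact hc i
        · rw [Polynomial.eval_map_algebraMap, ← coe_aeval_algFix h x f, hfx]
          rfl)
    ((q : ringOf q (Dq q)) ^ a) ((q : ringOf q W) ^ a) (by simp)
  rw [key, card_base_quot, hrank, pow_mul]

/-- additive form: index of `{|x| ≤ q^-(a+b)}` in `{|x| ≤ q^-a}`.  The two sets are the additive
subgroups `q^(a+b) R ⊆ q^a R` of `Fix W`. -/
def ball (q : ℕ) [Fact q.Prime] (W : Subgroup GQ) (a : ℕ) : AddSubgroup (Fix W) where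
  carrier := {x | nrm q (x : Qbar) ≤ ((q : ℝ)⁻¹) ^ a}
  add_mem' := by
    intro x y hx hy
    exact (nrm_add_le_max q _ _).trans (max_le hx hy)
  zero_mem' := by
    show nrm q ((0 : Fix W) : Qbar) ≤ _
    rw [ZeroMemClass.coe_zero, nrm_zero]
    positivity
  neg_mem' := by
    intro x hx
    show nrm q ((-x : Fix W) : Qbar) ≤ _
    rw [NegMemClass.coe_neg, nrm_neg]
    exact hx

open RingAux in
theorem ball_relIndex {W : Subgroup GQ} (hW : IsOpenIn (Dq q) W) (a b : ℕ) :
    (ball q W (a + b)).relIndex (ball q W a) = q ^ (b * (W.subgroupOf (Dq q)).index) := by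
  have hq := q_pos (q := q)
  have hqa : (0 : ℝ) < ((q : ℝ)⁻¹) ^ a := by positivity
  have hqW : ((q : Fix W) ^ a) ≠ 0 := by
    apply pow_ne_zero
    exact_mod_cast (Fact.out : q.Prime).ne_zero
  let ψ : ringOf q W →+ Fix W :=
    (AddMonoidHom.mulLeft ((q : Fix W) ^ a)).comp (ringOf q W).subtype.toAddMonoidHom
  have hψ : ∀ x : ringOf q W, nrm q ((ψ x : Fix W) : Qbar)
      = ((q : ℝ)⁻¹) ^ a * nrm q ((x : Fix W) : Qbar) := by
    intro x
    have : ((ψ x : Fix W) : Qbar) = (q : Qbar) ^ a * ((x : Fix W) : Qbar) := by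
      simp [ψ]
    rw [this, nrm_mul, nrm_pow, nrm_natCast_self]
  have hrange : ψ.range = ball q W a := by
    ext y
    constructor
    · rintro ⟨x, rfl⟩
      show nrm q ((ψ x : Fix W) : Qbar) ≤ _
      rw [hψ]
      exact mul_le_of_le_one_right hqa.le x.2
    · intro hy
      have hy' : nrm q (y : Qbar) ≤ ((q : ℝ)⁻¹) ^ a := hy
      refine ⟨⟨y / (q : Fix W) ^ a, ?_⟩, ?_⟩
      · show nrm q ((y / (q : Fix W) ^ a : Fix W) : Qbar) ≤ 1
        have : ((y / (q : Fix W) ^ a : Fix W) : Qbar) = (y : Qbar) / (q : Qbar) ^ a := by simp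
        rw [this, nrm_div, nrm_pow, nrm_natCast_self]
        exact div_le_one_of_le₀ hy' hqa.le
      · show (q : Fix W) ^ a * (y / (q : Fix W) ^ a) = y
        rw [mul_div_cancel₀ _ hqW]
  have hcomap : (ball q W (a + b)).comap ψ
      = (Ideal.span {(q : ringOf q W) ^ b}).toAddSubgroup := by
    ext x
    rw [AddSubgroup.mem_comap, Submodule.mem_toAddSubgroup, mem_span_q_pow_iff]
    show nrm q ((ψ x : Fix W) : Qbar) ≤ ((q : ℝ)⁻¹) ^ (a + b) ↔ _
    rw [hψ, pow_add]
    exact mul_le_mul_iff_right₀ hqa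
  rw [← hrange, ← AddSubgroup.index_comap, hcomap, ← card_ringOf_quot hW b]
  rfl

end

end Fermat.Agent.S55.Places
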